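/-
P-LR (S41 level raising), item (5c): the abelianised congruence subgroup property for
`Δ = Γ₀(N)[1/q]`.  Definitions and frozen leaf statements.  Paper proof: finding #724.
(helper11)
-/
import Fermat.Agent.LR.Unip

namespace Fermat.Agent.LR

open Matrix CongruenceSubgroup

/-- `SL(2, ℚ)`. -/
abbrev h11_S := Matrix.SpecialLinearGroup (Fin 2) ℚ

/-- `SL(2, ℤ)`. -/
abbrev h11_Z := Matrix.SpecialLinearGroup (Fin 2) ℤ

theorem h11_IsZq_of_IsNZq {n q : ℕ} {x : ℚ} (h : h32_IsNZq n q x) : h32_IsZq q x := by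
  obtain ⟨k, m, hm⟩ := h
  exact ⟨k, n * m, by rw [hm]; push_cast; ring⟩

theorem h11_IsNZq_sub {n q : ℕ} {x y : ℚ} (hx : h32_IsNZq n q x) (hy : h32_IsNZq n q y) :
    h32_IsNZq n q (x - y) := by
  rw [sub_eq_add_neg]
  exact h32_IsNZq_add hx (h32_IsNZq_neg hy)

theorem h11_IsZq_sub {q : ℕ} {x y : ℚ} (hx : h32_IsZq q x) (hy : h32_IsZq q y) :
    h32_IsZq q (x - y) := by
  rw [sub_eq_add_neg]
  exact h32_IsZq_add hx (h32_IsZq_neg hy)

/-- `x ∈ n ℤ[1/q]` for `x = n * y`, `y ∈ ℤ[1/q]`. -/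
theorem h11_IsNZq_self_mul {n q : ℕ} {y : ℚ} (hy : h32_IsZq q y) : h32_IsNZq n q ((n : ℚ) * y) := by
  obtain ⟨k, m, hm⟩ := hy
  exact ⟨k, m, by rw [mul_assoc, hm]⟩

/-- The principal congruence subgroup `Γ(n)[1/q]` of `SL(2, ℤ[1/q])` inside `SL(2, ℚ)`. -/
def h11_Gam (n q : ℕ) : Subgroup h11_S where
  carrier := {M | h32_IsNZq n q (M 0 0 - 1) ∧ h32_IsNZq n q (M 0 1) ∧
    h32_IsNZq n q (M 1 0) ∧ h32_IsNZq n q (M 1 1 - 1)}
  one_mem' := by
    refine ⟨?_, ?_, ?_, ?_⟩ <;> simpa using h32_IsNZq_zero n q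
  mul_mem' := by
    rintro X Y ⟨hX0, hX1, hX2, hX3⟩ ⟨hY0, hY1, hY2, hY3⟩
    have zX0 : h32_IsZq q (X 0 0) := by
      have := h32_IsZq_add (h11_IsZq_of_IsNZq hX0) (h32_IsZq_one q); simpa using this
    have zX3 : h32_IsZq q (X 1 1) := by
      have := h32_IsZq_add (h11_IsZq_of_IsNZq hX3) (h32_IsZq_one q); simpa using this
    have zY0 : h32_IsZq q (Y 0 0) := by
      have := h32_IsZq_add (h11_IsZq_of_IsNZq hY0) (h32_IsZq_one q); simpa using this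
    have zY3 : h32_IsZq q (Y 1 1) := by
      have := h32_IsZq_add (h11_IsZq_of_IsNZq hY3) (h32_IsZq_one q); simpa using this
    have zX1 := h11_IsZq_of_IsNZq hX1
    have zX2 := h11_IsZq_of_IsNZq hX2
    have zY1 := h11_IsZq_of_IsNZq hY1
    have zY2 := h11_IsZq_of_IsNZq hY2
    refine ⟨?_, ?_, ?_, ?_⟩
    · have e : (X * Y) 0 0 - 1 = (X 0 0 - 1) * Y 0 0 + (Y 0 0 - 1) + X 0 1 * Y 1 0 := by
        rw [Matrix.SpecialLinearGroup.coe_mul, Matrix.mul_apply, Fin.sum_univ_two]; ring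
      show h32_IsNZq n q ((X * Y) 0 0 - 1)
      rw [e]
      exact h32_IsNZq_add (h32_IsNZq_add (h32_IsNZq_mul_left hX0 zY0) hY0)
        (h32_IsNZq_mul_left hX1 zY2)
    · have e : (X * Y) 0 1 = X 0 0 * Y 0 1 + X 0 1 * Y 1 1 := by
        rw [Matrix.SpecialLinearGroup.coe_mul, Matrix.mul_apply, Fin.sum_univ_two]
      show h32_IsNZq n q ((X * Y) 0 1)
      rw [e]
      exact h32_IsNZq_add (h32_IsNZq_mul_right zX0 hY1) (h32_IsNZq_mul_left hX1 zY3)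
    · have e : (X * Y) 1 0 = X 1 0 * Y 0 0 + X 1 1 * Y 1 0 := by
        rw [Matrix.SpecialLinearGroup.coe_mul, Matrix.mul_apply, Fin.sum_univ_two]
      show h32_IsNZq n q ((X * Y) 1 0)
      rw [e]
      exact h32_IsNZq_add (h32_IsNZq_mul_left hX2 zY0) (h32_IsNZq_mul_right zX3 hY2)
    · have e : (X * Y) 1 1 - 1 = X 1 0 * Y 0 1 + (X 1 1 - 1) * Y 1 1 + (Y 1 1 - 1) := by
        rw [Matrix.SpecialLinearGroup.coe_mul, Matrix.mul_apply, Fin.sum_univ_two]; ring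
      show h32_IsNZq n q ((X * Y) 1 1 - 1)
      rw [e]
      exact h32_IsNZq_add (h32_IsNZq_add (h32_IsNZq_mul_left hX2 zY1)
        (h32_IsNZq_mul_left hX3 zY3)) hY3
  inv_mem' := by
    rintro X ⟨hX0, hX1, hX2, hX3⟩
    have hinv : ∀ i j, (X⁻¹ : h11_S) i j =
        (Matrix.adjugate (X : Matrix (Fin 2) (Fin 2) ℚ)) i j := by
      intro i j
      rw [Matrix.SpecialLinearGroup.coe_inv]
    refine ⟨?_, ?_, ?_, ?_⟩
    · show h32_IsNZq n q ((X⁻¹ : h11_S) 0 0 - 1)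
      rw [hinv, Matrix.adjugate_fin_two]; simpa using hX3
    · show h32_IsNZq n q ((X⁻¹ : h11_S) 0 1)
      rw [hinv, Matrix.adjugate_fin_two]; simpa using h32_IsNZq_neg hX1
    · show h32_IsNZq n q ((X⁻¹ : h11_S) 1 0)
      rw [hinv, Matrix.adjugate_fin_two]; simpa using h32_IsNZq_neg hX2
    · show h32_IsNZq n q ((X⁻¹ : h11_S) 1 1 - 1)
      rw [hinv, Matrix.adjugate_fin_two]; simpa using hX0

theorem h11_mem_Gam_iff (n q : ℕ) (M : h11_S) :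
    M ∈ h11_Gam n q ↔ h32_IsNZq n q (M 0 0 - 1) ∧ h32_IsNZq n q (M 0 1) ∧
      h32_IsNZq n q (M 1 0) ∧ h32_IsNZq n q (M 1 1 - 1) := Iff.rfl

/-- A function `f : SL(2, ℚ) → A` is *admissible of level `n`* if it is multiplicative on
`Γ(n)[1/q]` and kills the unipotent (trace `2`) elements of `Γ(n)[1/q]`. -/
structure h11_Adm (n q : ℕ) {A : Type*} [CommGroup A] (f : h11_S → A) : Prop where
  map_mul : ∀ x y, x ∈ h11_Gam n q → y ∈ h11_Gam n q → f (x * y) = f x * f y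
  unip : ∀ x, x ∈ h11_Gam n q → (x : Matrix (Fin 2) (Fin 2) ℚ).trace = 2 → f x = 1

end Fermat.Agent.LR
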