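/-
P-LR (S41), item (5c) CSP: frozen leaf statements (as `Prop`s) of the proof in finding #724.
Each leaf is proved in its own file as `theorem h11_xxx : h11_XxxStatement`.
(helper11)
-/
import Fermat.Agent.LR.CSP.Defs

namespace Fermat.Agent.LR

open Matrix CongruenceSubgroup

/-- the integral matrix `[[a, b], [c, d]]` of determinant one. -/
def h11_mkZ (a b c d : ℤ) (h : a * d - b * c = 1) : h11_Z :=
  ⟨!![a, b; c, d], by rw [Matrix.det_fin_two_of]; exact h⟩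

/-- `l(1) = [[1, 0], [1, 1]] ∈ SL(2, ℤ)`. -/
def h11_L1 : h11_Z := h11_mkZ 1 0 1 1 (by ring)

/-- `u(t) = [[1, t], [0, 1]] ∈ SL(2, ℤ)`. -/
def h11_UZ (t : ℤ) : h11_Z := h11_mkZ 1 t 0 1 (by ring)

/-- `l(t) = [[1, 0], [t, 1]] ∈ SL(2, ℤ)`. -/
def h11_LZ (t : ℤ) : h11_Z := h11_mkZ 1 0 t 1 (by ring)

/-- **L-GML (good modulus lemma, pure number theory; Step 2(iv)).**
For `a, b` coprime, `n ∣ b`, `gcd(a, n) = 1` there are `t`, `k > 0`, `κ` with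
`b' κ = q^k - 1`, `b' = b + n t a`, and `κ ≡ -1 mod n`. -/
def h11_GMLStatement : Prop :=
  ∀ (q n : ℕ), q.Prime → 0 < n → Nat.Coprime n q →
    ∀ (a b : ℤ), a ≠ 0 → IsCoprime a b → (n : ℤ) ∣ b → IsCoprime a (n : ℤ) →
      ∃ (t : ℤ) (k : ℕ) (κ : ℤ), 0 < k ∧ (b + n * t * a) * κ = (q : ℤ) ^ k - 1 ∧
        (n : ℤ) ∣ κ + 1

/-- **L-CENTGOOD (Step 2(i),(ii)).** If the upper right entry `b` of `x ∈ Γ(n)` is good
(`b κ = q^k - 1`, `κ ≡ -1 mod n`), then `f (l(1) x l(1)⁻¹) = f x`. -/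
def h11_CentGoodStatement.{u} : Prop :=
  ∀ (n q : ℕ), q.Prime → 0 < n → ∀ (A : Type u) [CommGroup A] (f : h11_S → A),
    h11_Adm n q f → ∀ (x : h11_Z), x ∈ Gamma n → ∀ (k : ℕ) (κ : ℤ), 0 < k →
      x 0 1 * κ = (q : ℤ) ^ k - 1 → (n : ℤ) ∣ κ + 1 →
        f (h32_iota (h11_L1 * x * h11_L1⁻¹)) = f (h32_iota x)

/-- **L-CENT (centrality, Step 2).** An admissible function of level `n` is invariant under
conjugation by `SL(2, ℤ)` on `Γ(n)`. -/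
def h11_CentStatement.{u} : Prop :=
  ∀ (n q : ℕ), q.Prime → 0 < n → Nat.Coprime n q → ∀ (A : Type u) [CommGroup A]
    (f : h11_S → A), h11_Adm n q f → ∀ (g x : h11_Z), x ∈ Gamma n →
      f (h32_iota (g * x * g⁻¹)) = f (h32_iota x)

/-- The hypothesis/conclusion shape of square dropping for `F : SL(2, ℤ) → A`:
`F [[a, b], [m² c, d]] = F [[a, m² b], [c, d]]` when `a ≡ d ≡ 1 mod N m`, `N ∣ b`, `N ∣ c`. -/
def h11_DropProp {A : Type*} (N q : ℕ) (F : h11_Z → A) : Prop :=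
  ∀ (m : ℕ), 0 < m → Nat.Coprime m q → ∀ (x xp : h11_Z),
    ((N * m : ℕ) : ℤ) ∣ x 0 0 - 1 → ((N * m : ℕ) : ℤ) ∣ x 1 1 - 1 → (N : ℤ) ∣ x 0 1 →
    (N : ℤ) ∣ xp 1 0 → xp 0 0 = x 0 0 → xp 0 1 = (m : ℤ) ^ 2 * x 0 1 →
    x 1 0 = (m : ℤ) ^ 2 * xp 1 0 → xp 1 1 = x 1 1 → F x = F xp

/-- **L-DROP (square dropping, Step 3).** -/
def h11_DropStatement.{u} : Prop :=
  ∀ (N q : ℕ), q.Prime → 0 < N → Nat.Coprime N q → ∀ (A : Type u) [CommGroup A]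
    (f : h11_S → A), h11_Adm N q f →
    (∀ (m : ℕ) [NeZero m], Nat.Coprime m q → h11_Adm (N * m) q (fun M => f (h32_cg m M))) →
      h11_DropProp N q (fun x => f (h32_iota x))

/-- **L-QUAD (Step 6, pure finite algebra).** -/
def h11_QuadStatement.{u} : Prop :=
  ∀ (π p : ℕ), π.Prime → π % 4 = 3 → p.Prime → p ≠ 2 → ¬ p ∣ π - 1 →
    ∀ (A : Type u) [CommGroup A], (∀ a : A, a ^ p = 1) →
    ∀ (F : (ZMod π)ˣ → A), F 1 = 1 →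
      (∀ α₁ α₂ : (ZMod π)ˣ, α₁ ≠ α₂ →
        IsSquare (((α₂⁻¹ : (ZMod π)ˣ) : ZMod π) - ((α₁⁻¹ : (ZMod π)ˣ) : ZMod π)) →
          F α₁ = F α₂ * F (α₁ * α₂⁻¹)) →
      ∀ α, F α = 1

/-- **L-SYMBOL (Steps 4, 5, 7: symbol calculus + Dirichlet end game, inside `SL(2, ℤ)`).** -/
def h11_SymbolStatement.{u} : Prop :=
  ∀ (N p q : ℕ), 0 < N → p.Prime → p ≠ 2 → q.Prime → p ≠ q → Nat.Coprime N q →
    ∀ (A : Type u) [CommGroup A], (∀ a : A, a ^ p = 1) → ∀ (F : h11_Z → A),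
    (∀ x y, x ∈ Gamma N → y ∈ Gamma N → F (x * y) = F x * F y) →
    (∀ x, x ∈ Gamma N → (x : Matrix (Fin 2) (Fin 2) ℤ).trace = 2 → F x = 1) →
    (∀ g x, x ∈ Gamma N → F (g * x * g⁻¹) = F x) →
    h11_DropProp N q F →
      ∀ x, x ∈ Gamma N → F x = 1

end Fermat.Agent.LR
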