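/-
P-LR (S41), item (5c) CSP, leaf L-CENT (centrality, Step 2 of finding #724):
assembly of the good modulus lemma and the commutator factorisation.
(helper11)
-/
import Fermat.Agent.LR.CSP.Leaves

namespace Fermat.Agent.LR

open Matrix CongruenceSubgroup

theorem h11_dvd_of_zmod_eq_one {n : ℕ} {a : ℤ} (h : (a : ZMod n) = 1) : (n : ℤ) ∣ a - 1 := by
  rw [← ZMod.intCast_zmod_eq_zero_iff_dvd]
  push_cast
  rw [h, sub_self]

theorem h11_dvd_of_zmod_eq_zero {n : ℕ} {a : ℤ} (h : (a : ZMod n) = 0) : (n : ℤ) ∣ a := by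
  rwa [← ZMod.intCast_zmod_eq_zero_iff_dvd]

theorem h11_Gamma_dvd {n : ℕ} {y : h11_Z} (hy : y ∈ Gamma n) :
    (n : ℤ) ∣ y 0 0 - 1 ∧ (n : ℤ) ∣ y 0 1 ∧ (n : ℤ) ∣ y 1 0 ∧ (n : ℤ) ∣ y 1 1 - 1 := by
  rw [Gamma_mem] at hy
  obtain ⟨h0, h1, h2, h3⟩ := hy
  exact ⟨h11_dvd_of_zmod_eq_one h0, h11_dvd_of_zmod_eq_zero h1, h11_dvd_of_zmod_eq_zero h2,
    h11_dvd_of_zmod_eq_one h3⟩

theorem h11_Gamma_of_dvd {n : ℕ} {y : h11_Z} (h0 : (n : ℤ) ∣ y 0 0 - 1) (h1 : (n : ℤ) ∣ y 0 1)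
    (h2 : (n : ℤ) ∣ y 1 0) (h3 : (n : ℤ) ∣ y 1 1 - 1) : y ∈ Gamma n := by
  rw [Gamma_mem]
  refine ⟨?_, ?_, ?_, ?_⟩
  · have := (ZMod.intCast_zmod_eq_zero_iff_dvd (y 0 0 - 1) n).2 h0
    push_cast at this
    exact sub_eq_zero.1 this
  · exact (ZMod.intCast_zmod_eq_zero_iff_dvd _ n).2 h1
  · exact (ZMod.intCast_zmod_eq_zero_iff_dvd _ n).2 h2
  · have := (ZMod.intCast_zmod_eq_zero_iff_dvd (y 1 1 - 1) n).2 h3
    push_cast at this
    exact sub_eq_zero.1 this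

/-- `ι` maps `Γ(n)` into `Γ(n)[1/q]`. -/
theorem h11_iota_mem_Gam (n q : ℕ) {y : h11_Z} (hy : y ∈ Gamma n) :
    h32_iota y ∈ h11_Gam n q := by
  obtain ⟨d0, d1, d2, d3⟩ := h11_Gamma_dvd hy
  refine ⟨?_, ?_, ?_, ?_⟩
  · have := h32_IsNZq_int (N := n) (q := q) (y 0 0 - 1) d0
    simpa [h32_iota_apply] using this
  · have := h32_IsNZq_int (N := n) (q := q) (y 0 1) d1
    simpa [h32_iota_apply] using this
  · have := h32_IsNZq_int (N := n) (q := q) (y 1 0) d2
    simpa [h32_iota_apply] using this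
  · have := h32_IsNZq_int (N := n) (q := q) (y 1 1 - 1) d3
    simpa [h32_iota_apply] using this

theorem h11_trace_iota (y : h11_Z) :
    ((h32_iota y : h11_S) : Matrix (Fin 2) (Fin 2) ℚ).trace =
      (((y : Matrix (Fin 2) (Fin 2) ℤ).trace : ℤ) : ℚ) := by
  rw [Matrix.trace_fin_two, Matrix.trace_fin_two]
  simp [h32_iota_apply]

section AdmZ

variable {n q : ℕ} {A : Type*} [CommGroup A] {f : h11_S → A}

theorem h11_Adm.mulZ (hf : h11_Adm n q f) {x y : h11_Z} (hx : x ∈ Gamma n) (hy : y ∈ Gamma n) :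
    f (h32_iota (x * y)) = f (h32_iota x) * f (h32_iota y) := by
  rw [h32_iota.map_mul x y]
  exact hf.map_mul _ _ (h11_iota_mem_Gam n q hx) (h11_iota_mem_Gam n q hy)

theorem h11_Adm.unipZ (hf : h11_Adm n q f) {x : h11_Z} (hx : x ∈ Gamma n)
    (ht : (x : Matrix (Fin 2) (Fin 2) ℤ).trace = 2) : f (h32_iota x) = 1 := by
  apply hf.unip _ (h11_iota_mem_Gam n q hx)
  rw [h11_trace_iota, ht]
  norm_num

theorem h11_Adm.oneZ (hf : h11_Adm n q f) : f (h32_iota (1 : h11_Z)) = 1 := by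
  apply hf.unipZ (one_mem _)
  simp

end AdmZ

end Fermat.Agent.LR

namespace Fermat.Agent.LR

open Matrix CongruenceSubgroup ModularGroup

universe u

/-- The elements of `SL(2, ℤ)` under whose conjugation `F` is invariant on `Γ(n)`. -/
def h11_InvSub (n : ℕ) {A : Type*} (F : h11_Z → A) : Subgroup h11_Z where
  carrier := {g | ∀ x, x ∈ Gamma n → F (g * x * g⁻¹) = F x}
  one_mem' := by
    intro x _
    simp
  mul_mem' := by
    intro g h hg hh x hx
    have h1 : h * x * h⁻¹ ∈ Gamma n := (Gamma_normal n).conj_mem x hx h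
    have h2 := hg (h * x * h⁻¹) h1
    have e : g * h * x * (g * h)⁻¹ = g * (h * x * h⁻¹) * g⁻¹ := by group
    show F (g * h * x * (g * h)⁻¹) = F x
    rw [e, h2, hh x hx]
  inv_mem' := by
    intro g hg x hx
    have h1 : g⁻¹ * x * g⁻¹⁻¹ ∈ Gamma n := (Gamma_normal n).conj_mem x hx g⁻¹
    have h2 := hg (g⁻¹ * x * g⁻¹⁻¹) h1
    have e : g * (g⁻¹ * x * g⁻¹⁻¹) * g⁻¹ = x := by group
    show F (g⁻¹ * x * g⁻¹⁻¹) = F x
    rw [← h2, e]

theorem h11_mem_InvSub {n : ℕ} {A : Type*} {F : h11_Z → A} {g : h11_Z} :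
    g ∈ h11_InvSub n F ↔ ∀ x, x ∈ Gamma n → F (g * x * g⁻¹) = F x := Iff.rfl

theorem h11_mkZ_apply (a b c d : ℤ) (h : a * d - b * c = 1) :
    ((h11_mkZ a b c d h : h11_Z) : Matrix (Fin 2) (Fin 2) ℤ) = !![a, b; c, d] := rfl

theorem h11_S_eq : (S : h11_Z) = T⁻¹ * h11_L1 * T⁻¹ := by
  ext i j
  rw [Matrix.SpecialLinearGroup.coe_mul, Matrix.SpecialLinearGroup.coe_mul, coe_T_inv]
  fin_cases i <;> fin_cases j <;>
    simp [h11_L1, h11_mkZ_apply, Matrix.mul_apply, Fin.sum_univ_two]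

theorem h11_S_L1 : (S : h11_Z) * h11_L1 * S⁻¹ = T⁻¹ := by
  ext i j
  rw [Matrix.SpecialLinearGroup.coe_mul, Matrix.SpecialLinearGroup.coe_mul,
    Matrix.SpecialLinearGroup.coe_inv, Matrix.adjugate_fin_two, coe_T_inv]
  fin_cases i <;> fin_cases j <;>
    simp [h11_L1, h11_mkZ_apply, Matrix.mul_apply, Fin.sum_univ_two]

theorem h11_trace_T : ((T : h11_Z) : Matrix (Fin 2) (Fin 2) ℤ).trace = 2 := by
  simp [Matrix.trace_fin_two]

theorem h11_trace_Tinv : ((T⁻¹ : h11_Z) : Matrix (Fin 2) (Fin 2) ℤ).trace = 2 := by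
  rw [coe_T_inv]
  simp [Matrix.trace_fin_two]

theorem h11_trace_L1 : ((h11_L1 : h11_Z) : Matrix (Fin 2) (Fin 2) ℤ).trace = 2 := by
  simp [h11_L1, h11_mkZ_apply, Matrix.trace_fin_two]

theorem h11_trace_conj (g x : h11_Z) :
    ((g * x * g⁻¹ : h11_Z) : Matrix (Fin 2) (Fin 2) ℤ).trace =
      ((x : h11_Z) : Matrix (Fin 2) (Fin 2) ℤ).trace := by
  have e : g⁻¹ * (g * x) = x := by group
  rw [Matrix.SpecialLinearGroup.coe_mul, Matrix.trace_mul_comm,
    ← Matrix.SpecialLinearGroup.coe_mul, e]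

theorem h11_trace_conjQ (g x : h11_S) :
    ((g * x * g⁻¹ : h11_S) : Matrix (Fin 2) (Fin 2) ℚ).trace =
      ((x : h11_S) : Matrix (Fin 2) (Fin 2) ℚ).trace := by
  have e : g⁻¹ * (g * x) = x := by group
  rw [Matrix.SpecialLinearGroup.coe_mul, Matrix.trace_mul_comm,
    ← Matrix.SpecialLinearGroup.coe_mul, e]

theorem h11_UZ_mem (n : ℕ) (t : ℤ) : h11_UZ ((n : ℤ) * t) ∈ Gamma n := by
  apply h11_Gamma_of_dvd <;> simp [h11_UZ, h11_mkZ_apply]

theorem h11_trace_UZ (t : ℤ) : ((h11_UZ t : h11_Z) : Matrix (Fin 2) (Fin 2) ℤ).trace = 2 := by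
  simp [h11_UZ, h11_mkZ_apply, Matrix.trace_fin_two]

/-- **Step 2 (ii)-(iv)**: invariance under `l(1)`, for `n ≥ 2`. -/
theorem h11_l1_inv (hG : h11_GMLStatement) (hC : h11_CentGoodStatement.{u}) {n q : ℕ}
    (hq : q.Prime) (hn : 2 ≤ n) (hnq : Nat.Coprime n q) {A : Type u} [CommGroup A]
    {f : h11_S → A} (hf : h11_Adm n q f) (x : h11_Z) (hx : x ∈ Gamma n) :
    f (h32_iota (h11_L1 * x * h11_L1⁻¹)) = f (h32_iota x) := by
  obtain ⟨d0, d1, d2, d3⟩ := h11_Gamma_dvd hx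
  have hdet := x.det_coe
  rw [Matrix.det_fin_two] at hdet
  have ha : x 0 0 ≠ 0 := by
    intro h0
    rw [h0] at d0
    have h1 : (n : ℤ) ∣ 1 := by
      have := (dvd_neg (a := (n : ℤ)) (b := (0 : ℤ) - 1)).2 d0
      simpa using this
    have h2 : (n : ℤ) ≤ 1 := Int.le_of_dvd one_pos h1
    omega
  have hab : IsCoprime (x 0 0) (x 0 1) := ⟨x 1 1, -(x 1 0), by linear_combination hdet⟩
  have han : IsCoprime (x 0 0) (n : ℤ) := by
    obtain ⟨k, hk⟩ := d0
    exact ⟨1, -k, by linear_combination hk⟩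
  obtain ⟨t, k, κ, hk, hκ, hκn⟩ := hG q n hq (by omega) hnq (x 0 0) (x 0 1) ha hab d1 han
  set x' : h11_Z := x * h11_UZ ((n : ℤ) * t) with hx'
  have hU := h11_UZ_mem n t
  have hx'mem : x' ∈ Gamma n := mul_mem hx hU
  have hent : x' 0 1 = x 0 1 + n * t * x 0 0 := by
    rw [hx', Matrix.SpecialLinearGroup.coe_mul, Matrix.mul_apply, Fin.sum_univ_two]
    simp [h11_UZ, h11_mkZ_apply]
    ring
  have hgood := hC n q hq (by omega) A f hf x' hx'mem k κ hk (by rw [hent]; exact hκ) hκn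
  have hfx' : f (h32_iota x') = f (h32_iota x) := by
    rw [hx', hf.mulZ hx hU, hf.unipZ hU (h11_trace_UZ _), mul_one]
  have hconj : h11_L1 * x' * h11_L1⁻¹ =
      (h11_L1 * x * h11_L1⁻¹) * (h11_L1 * h11_UZ ((n : ℤ) * t) * h11_L1⁻¹) := by
    rw [hx']; group
  have hm1 : h11_L1 * x * h11_L1⁻¹ ∈ Gamma n := (Gamma_normal n).conj_mem x hx _
  have hm2 : h11_L1 * h11_UZ ((n : ℤ) * t) * h11_L1⁻¹ ∈ Gamma n :=
    (Gamma_normal n).conj_mem _ hU _
  have hone : f (h32_iota (h11_L1 * h11_UZ ((n : ℤ) * t) * h11_L1⁻¹)) = 1 := by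
    apply hf.unipZ hm2
    rw [h11_trace_conj, h11_trace_UZ]
  rw [hconj, hf.mulZ hm1 hm2, hone, mul_one] at hgood
  rw [hgood, hfx']

end Fermat.Agent.LR

namespace Fermat.Agent.LR

open Matrix CongruenceSubgroup ModularGroup

universe u

/-- Conjugation by `ι S` on `SL(2, ℚ)`. -/
noncomputable def h11_cw (M : h11_S) : h11_S := h32_iota S * M * (h32_iota S)⁻¹

theorem h11_cw_mul (M M' : h11_S) : h11_cw (M * M') = h11_cw M * h11_cw M' := by
  unfold h11_cw
  group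

theorem h11_cw_apply (M : h11_S) :
    ((h11_cw M : h11_S) : Matrix (Fin 2) (Fin 2) ℚ) = !![M 1 1, -M 1 0; -M 0 1, M 0 0] := by
  unfold h11_cw
  rw [Matrix.SpecialLinearGroup.coe_mul, Matrix.SpecialLinearGroup.coe_mul,
    Matrix.SpecialLinearGroup.coe_inv, Matrix.adjugate_fin_two]
  ext i j
  fin_cases i <;> fin_cases j <;>
    simp [h32_iota_apply, Matrix.mul_apply, Fin.sum_univ_two]

theorem h11_cw_mem {n q : ℕ} {M : h11_S} (hM : M ∈ h11_Gam n q) : h11_cw M ∈ h11_Gam n q := by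
  obtain ⟨h0, h1, h2, h3⟩ := hM
  have e := h11_cw_apply M
  have e00 : (h11_cw M) 0 0 = M 1 1 := by
    have := congrFun (congrFun e 0) 0; simpa using this
  have e01 : (h11_cw M) 0 1 = -M 1 0 := by
    have := congrFun (congrFun e 0) 1; simpa using this
  have e10 : (h11_cw M) 1 0 = -M 0 1 := by
    have := congrFun (congrFun e 1) 0; simpa using this
  have e11 : (h11_cw M) 1 1 = M 0 0 := by
    have := congrFun (congrFun e 1) 1; simpa using this
  refine ⟨?_, ?_, ?_, ?_⟩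
  · rw [e00]; exact h3
  · rw [e01]; exact h32_IsNZq_neg h2
  · rw [e10]; exact h32_IsNZq_neg h1
  · rw [e11]; exact h0

theorem h11_cw_iota (x : h11_Z) : h11_cw (h32_iota x) = h32_iota (S * x * S⁻¹) := by
  unfold h11_cw
  rw [h32_iota.map_mul, h32_iota.map_mul, h32_iota.map_inv]

theorem h11_Adm.cw {n q : ℕ} {A : Type*} [CommGroup A] {f : h11_S → A} (hf : h11_Adm n q f) :
    h11_Adm n q (fun M => f (h11_cw M)) where
  map_mul := by
    intro x y hx hy
    show f (h11_cw (x * y)) = f (h11_cw x) * f (h11_cw y)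
    rw [h11_cw_mul]
    exact hf.map_mul _ _ (h11_cw_mem hx) (h11_cw_mem hy)
  unip := by
    intro x hx ht
    show f (h11_cw x) = 1
    apply hf.unip _ (h11_cw_mem hx)
    unfold h11_cw
    rw [h11_trace_conjQ, ht]

/-- invariance under `u(-1) = T⁻¹`, for `n ≥ 2`. -/
theorem h11_Tinv_inv (hG : h11_GMLStatement) (hC : h11_CentGoodStatement.{u}) {n q : ℕ}
    (hq : q.Prime) (hn : 2 ≤ n) (hnq : Nat.Coprime n q) {A : Type u} [CommGroup A]
    {f : h11_S → A} (hf : h11_Adm n q f) (x : h11_Z) (hx : x ∈ Gamma n) :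
    f (h32_iota (T⁻¹ * x * T⁻¹⁻¹)) = f (h32_iota x) := by
  have hx₀ : S⁻¹ * x * S⁻¹⁻¹ ∈ Gamma n := (Gamma_normal n).conj_mem x hx _
  have h := h11_l1_inv hG hC hq hn hnq hf.cw (S⁻¹ * x * S⁻¹⁻¹) hx₀
  simp only [h11_cw_iota] at h
  have e1 : S * (h11_L1 * (S⁻¹ * x * S⁻¹⁻¹) * h11_L1⁻¹) * S⁻¹ = T⁻¹ * x * T⁻¹⁻¹ := by
    rw [← h11_S_L1]; group
  have e2 : S * (S⁻¹ * x * S⁻¹⁻¹) * S⁻¹ = x := by group
  rw [e1, e2] at h
  exact h

/-- **L-CENT** from the good modulus lemma and the commutator factorisation. -/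
theorem h11_cent_of (hG : h11_GMLStatement) (hC : h11_CentGoodStatement.{u}) :
    h11_CentStatement.{u} := by
  intro n q hq hn hnq A _ f hf g x hx
  rcases Nat.lt_or_ge n 2 with h1 | h2
  · -- `n = 1`: `f ∘ ι` is a homomorphism on `SL(2, ℤ)` killing `S` and `T`
    have hn1 : n = 1 := by omega
    subst hn1
    have htop : ∀ y : h11_Z, y ∈ Gamma 1 := fun y => by rw [Gamma_one_top]; trivial
    let K : Subgroup h11_Z :=
      { carrier := {y | f (h32_iota y) = 1}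
        one_mem' := hf.oneZ
        mul_mem' := by
          intro a b ha hb
          show f (h32_iota (a * b)) = 1
          rw [hf.mulZ (htop a) (htop b), ha, hb, mul_one]
        inv_mem' := by
          intro a ha
          show f (h32_iota a⁻¹) = 1
          have h := hf.mulZ (htop a) (htop a⁻¹)
          rw [mul_inv_cancel, hf.oneZ, ha, one_mul] at h
          exact h.symm }
    have hT : (T : h11_Z) ∈ K := hf.unipZ (htop _) h11_trace_T
    have hTi : (T⁻¹ : h11_Z) ∈ K := K.inv_mem hT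
    have hL : h11_L1 ∈ K := hf.unipZ (htop _) h11_trace_L1
    have hS : (S : h11_Z) ∈ K := by
      rw [h11_S_eq]
      exact K.mul_mem (K.mul_mem hTi hL) hTi
    have hK : K = ⊤ := by
      rw [eq_top_iff, ← _root_.SpecialLinearGroup.SL2Z_generators, Subgroup.closure_le]
      intro y hy
      rcases hy with rfl | hy
      · exact hS
      · rw [Set.mem_singleton_iff] at hy
        subst hy
        exact hT
    have hall : ∀ y : h11_Z, f (h32_iota y) = 1 := fun y => by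
      have : y ∈ K := by rw [hK]; trivial
      exact this
    rw [hall, hall]
  · -- `n ≥ 2`
    have hL : h11_L1 ∈ h11_InvSub n (fun y => f (h32_iota y)) :=
      fun x hx => h11_l1_inv hG hC hq h2 hnq hf x hx
    have hTi : (T⁻¹ : h11_Z) ∈ h11_InvSub n (fun y => f (h32_iota y)) :=
      fun x hx => h11_Tinv_inv hG hC hq h2 hnq hf x hx
    have hT : (T : h11_Z) ∈ h11_InvSub n (fun y => f (h32_iota y)) := by
      have := (h11_InvSub n (fun y => f (h32_iota y))).inv_mem hTi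
      simpa using this
    have hS : (S : h11_Z) ∈ h11_InvSub n (fun y => f (h32_iota y)) := by
      rw [h11_S_eq]
      exact Subgroup.mul_mem _ (Subgroup.mul_mem _ hTi hL) hTi
    have hK : h11_InvSub n (fun y => f (h32_iota y)) = ⊤ := by
      rw [eq_top_iff, ← _root_.SpecialLinearGroup.SL2Z_generators, Subgroup.closure_le]
      intro y hy
      rcases hy with rfl | hy
      · exact hS
      · rw [Set.mem_singleton_iff] at hy
        subst hy
        exact hT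
    have hg : g ∈ h11_InvSub n (fun y => f (h32_iota y)) := by rw [hK]; trivial
    exact hg x hx

end Fermat.Agent.LR
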