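/-
P-LR (S41), item (5c) CSP: the core assembly.  From the leaves (centrality, square dropping,
symbol calculus) to: a homomorphism `ψ : Δ = Γ₀(N)[1/q] → A` (`A` killed by `p ≠ q`, `p` odd)
that kills the parabolic elements of `Γ₀(N)` kills `ι γ` and `g⁻¹ (ι γ) g` for every
`γ ∈ Γ₀(N)` with `d ≡ 1 mod N`.  Paper proof: finding #724 (Steps 0 and 8 are here).
(helper11)
-/
import Fermat.Agent.LR.CSP.Cent

namespace Fermat.Agent.LR

open Matrix CongruenceSubgroup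

theorem h11_IsNZq_of_dvd {N n q : ℕ} (h : N ∣ n) {x : ℚ} (hx : h32_IsNZq n q x) :
    h32_IsNZq N q x := by
  obtain ⟨k, m, hm⟩ := hx
  obtain ⟨c, rfl⟩ := h
  exact ⟨k, c * m, by rw [hm]; push_cast; ring⟩

theorem h11_IsZq_of_sub_one {n q : ℕ} {x : ℚ} (hx : h32_IsNZq n q (x - 1)) : h32_IsZq q x := by
  have := h32_IsZq_add (h11_IsZq_of_IsNZq hx) (h32_IsZq_one q)
  simpa using this

/-- `Γ(n)[1/q] ≤ Γ₀(N)[1/q]` for `N ∣ n`. -/
theorem h11_Gam_le_Delta {N n q : ℕ} (h : N ∣ n) : h11_Gam n q ≤ h32_Delta N q := by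
  rintro M ⟨h0, h1, h2, h3⟩
  refine ⟨fun i j => ?_, h11_IsNZq_of_dvd h h2⟩
  fin_cases i <;> fin_cases j
  · exact h11_IsZq_of_sub_one h0
  · exact h11_IsZq_of_IsNZq h1
  · exact h11_IsZq_of_IsNZq h2
  · exact h11_IsZq_of_sub_one h3

/-- the extension by `1` of a homomorphism on `Δ` to a function on `SL(2, ℚ)`. -/
noncomputable def h11_ext {N q : ℕ} {A : Type*} [CommGroup A] (ψ : h32_Delta N q →* A) :
    h11_S → A := by
  classical
  exact fun M => if h : M ∈ h32_Delta N q then ψ ⟨M, h⟩ else 1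

theorem h11_ext_eq {N q : ℕ} {A : Type*} [CommGroup A] (ψ : h32_Delta N q →* A) {M : h11_S}
    (h : M ∈ h32_Delta N q) : h11_ext ψ M = ψ ⟨M, h⟩ := by
  unfold h11_ext
  simp [h]

theorem h11_ext_mul {N q : ℕ} {A : Type*} [CommGroup A] (ψ : h32_Delta N q →* A) {M M' : h11_S}
    (h : M ∈ h32_Delta N q) (h' : M' ∈ h32_Delta N q) :
    h11_ext ψ (M * M') = h11_ext ψ M * h11_ext ψ M' := by
  rw [h11_ext_eq ψ h, h11_ext_eq ψ h', h11_ext_eq ψ (mul_mem h h'), ← map_mul]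
  rfl

/-! ### Step 0: unipotent elements of `Δ` die -/

theorem h11_det_eq (P : h11_S) : P 0 0 * P 1 1 - P 0 1 * P 1 0 = 1 := by
  have := P.det_coe
  rwa [Matrix.det_fin_two] at this

theorem h11_unip_pow (P : h11_S) (htr : (P : Matrix (Fin 2) (Fin 2) ℚ).trace = 2) (m : ℕ) :
    ((P ^ m : h11_S) : Matrix (Fin 2) (Fin 2) ℚ) =
      !![1 + m * (P 0 0 - 1), m * P 0 1; m * P 1 0, 1 + m * (P 1 1 - 1)] := by
  have hdet := h11_det_eq P
  rw [Matrix.trace_fin_two] at htr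
  induction m with
  | zero =>
    ext i j
    fin_cases i <;> fin_cases j <;> simp
  | succ m ih =>
    rw [pow_succ, Matrix.SpecialLinearGroup.coe_mul, ih]
    ext i j
    fin_cases i <;> fin_cases j
    · simp only [Fin.zero_eta, Fin.isValue, Matrix.mul_apply, Fin.sum_univ_two, Matrix.of_apply,
        Matrix.cons_val', Matrix.cons_val_zero, Matrix.cons_val_fin_one, Matrix.cons_val_one]
      push_cast
      linear_combination ((m : ℚ) * P 0 0) * htr - (m : ℚ) * hdet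
    · simp only [Fin.zero_eta, Fin.mk_one, Fin.isValue, Matrix.mul_apply, Fin.sum_univ_two,
        Matrix.of_apply, Matrix.cons_val', Matrix.cons_val_zero, Matrix.cons_val_fin_one,
        Matrix.cons_val_one]
      push_cast
      linear_combination ((m : ℚ) * P 0 1) * htr
    · simp only [Fin.zero_eta, Fin.mk_one, Fin.isValue, Matrix.mul_apply, Fin.sum_univ_two,
        Matrix.of_apply, Matrix.cons_val', Matrix.cons_val_zero, Matrix.cons_val_fin_one,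
        Matrix.cons_val_one]
      push_cast
      linear_combination ((m : ℚ) * P 1 0) * htr
    · simp only [Fin.mk_one, Fin.isValue, Matrix.mul_apply, Fin.sum_univ_two, Matrix.of_apply,
        Matrix.cons_val', Matrix.cons_val_zero, Matrix.cons_val_fin_one, Matrix.cons_val_one]
      push_cast
      linear_combination ((m : ℚ) * P 1 1) * htr - (m : ℚ) * hdet

theorem h11_IsZq_exp {q : ℕ} {x : ℚ} {k : ℕ} {n : ℤ} (h : x * (q : ℚ) ^ k = n) (l : ℕ) :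
    x * (q : ℚ) ^ (k + l) = ((n * (q : ℤ) ^ l : ℤ) : ℚ) := by
  push_cast
  rw [pow_add, ← mul_assoc, h]

/-- common denominator for a unipotent element of `Δ`. -/
theorem h11_unip_denoms {N q : ℕ} (P : h11_S) (hP : P ∈ h32_Delta N q) :
    ∃ (K : ℕ) (α β γ δ : ℤ), (P 0 0 - 1) * (q : ℚ) ^ K = α ∧ P 0 1 * (q : ℚ) ^ K = β ∧
      P 1 0 * (q : ℚ) ^ K = N * γ ∧ (P 1 1 - 1) * (q : ℚ) ^ K = δ := by
  obtain ⟨hZ, hc⟩ := hP
  obtain ⟨k₁, n₁, h₁⟩ := h11_IsZq_sub (hZ 0 0) (h32_IsZq_one q)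
  obtain ⟨k₂, n₂, h₂⟩ := hZ 0 1
  obtain ⟨k₃, n₃, h₃⟩ := hc
  obtain ⟨k₄, n₄, h₄⟩ := h11_IsZq_sub (hZ 1 1) (h32_IsZq_one q)
  refine ⟨k₁ + k₂ + k₃ + k₄, n₁ * (q : ℤ) ^ (k₂ + k₃ + k₄), n₂ * (q : ℤ) ^ (k₁ + k₃ + k₄),
    n₃ * (q : ℤ) ^ (k₁ + k₂ + k₄), n₄ * (q : ℤ) ^ (k₁ + k₂ + k₃), ?_, ?_, ?_, ?_⟩
  · have e : k₁ + k₂ + k₃ + k₄ = k₁ + (k₂ + k₃ + k₄) := by ring
    rw [e]; exact h11_IsZq_exp h₁ _
  · have e : k₁ + k₂ + k₃ + k₄ = k₂ + (k₁ + k₃ + k₄) := by ring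
    rw [e]; exact h11_IsZq_exp h₂ _
  · have e : k₁ + k₂ + k₃ + k₄ = k₃ + (k₁ + k₂ + k₄) := by ring
    rw [e, pow_add, ← mul_assoc, h₃]
    push_cast
    ring
  · have e : k₁ + k₂ + k₃ + k₄ = k₄ + (k₁ + k₂ + k₃) := by ring
    rw [e]; exact h11_IsZq_exp h₄ _

/-- **Step 0.** A homomorphism on `Δ` with values in a group of exponent `p ≠ q` which kills
the parabolic elements of `Γ₀(N)` kills all unipotent (trace `2`) elements of `Δ`. -/
theorem h11_step0 {N q p : ℕ} (hq : q.Prime) (hp : p.Prime) (hpq : p ≠ q)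
    {A : Type*} [CommGroup A] (hA : ∀ a : A, a ^ p = 1) (ψ : h32_Delta N q →* A)
    (hpar : h15lr_ParOnGamma0 N q ψ) (P : h11_S) (hP : P ∈ h32_Delta N q)
    (htr : (P : Matrix (Fin 2) (Fin 2) ℚ).trace = 2) : ψ ⟨P, hP⟩ = 1 := by
  obtain ⟨K, α, β, γ, δ, hα, hβ, hγ, hδ⟩ := h11_unip_denoms P hP
  have hdet := h11_det_eq P
  have htr' := htr
  rw [Matrix.trace_fin_two] at htr'
  -- the integral matrix `P ^ (q ^ K)`
  have hdetZ : (1 + α) * (1 + δ) - β * ((N : ℤ) * γ) = 1 := by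
    have : (((1 + α) * (1 + δ) - β * ((N : ℤ) * γ) : ℤ) : ℚ) = ((1 : ℤ) : ℚ) := by
      push_cast
      rw [← hα, ← hβ, ← hγ, ← hδ]
      linear_combination ((q : ℚ) ^ K) ^ 2 * hdet + ((q : ℚ) ^ K - ((q : ℚ) ^ K) ^ 2) * htr'
    exact_mod_cast this
  set G : h11_Z := h11_mkZ (1 + α) β ((N : ℤ) * γ) (1 + δ) hdetZ with hG
  have hG0 : G ∈ Gamma0 N := by
    rw [h32_mem_Gamma0_iff]
    show (N : ℤ) ∣ (h11_mkZ (1 + α) β ((N : ℤ) * γ) (1 + δ) hdetZ) 1 0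
    simp [h11_mkZ]
  have hαδ : α + δ = 0 := by
    have : ((α + δ : ℤ) : ℚ) = ((0 : ℤ) : ℚ) := by
      push_cast
      rw [← hα, ← hδ]
      linear_combination ((q : ℚ) ^ K) * htr'
    exact_mod_cast this
  have hGtr : ((G : h11_Z) : Matrix (Fin 2) (Fin 2) ℤ).trace ^ 2 = 4 := by
    have : ((G : h11_Z) : Matrix (Fin 2) (Fin 2) ℤ).trace = 2 := by
      rw [hG, h11_mkZ_apply, Matrix.trace_fin_two_of]
      linear_combination hαδ
    rw [this]; norm_num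
  have h1 := hpar ⟨G, hG0⟩ hGtr
  -- `ι G = P ^ (q ^ K)`
  have hpow : (⟨P, hP⟩ : h32_Delta N q) ^ (q ^ K) =
      ⟨h32_iota G, h32_iota_mem_Delta N q ⟨G, hG0⟩⟩ := by
    apply Subtype.ext
    rw [Subgroup.coe_pow]
    apply Subtype.ext
    rw [h11_unip_pow P htr (q ^ K)]
    ext i j
    fin_cases i <;> fin_cases j
    · show 1 + ((q ^ K : ℕ) : ℚ) * (P 0 0 - 1) = h32_iota G 0 0
      rw [h32_iota_apply, hG]
      simp only [h11_mkZ, Matrix.SpecialLinearGroup.coe_mk, Matrix.of_apply, Matrix.cons_val',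
        Matrix.cons_val_zero, Matrix.cons_val_fin_one]
      push_cast
      rw [← hα]; ring
    · show ((q ^ K : ℕ) : ℚ) * P 0 1 = h32_iota G 0 1
      rw [h32_iota_apply, hG]
      simp only [h11_mkZ, Matrix.SpecialLinearGroup.coe_mk, Matrix.of_apply, Matrix.cons_val',
        Matrix.cons_val_zero, Matrix.cons_val_one, Matrix.cons_val_fin_one]
      push_cast
      rw [← hβ]; ring
    · show ((q ^ K : ℕ) : ℚ) * P 1 0 = h32_iota G 1 0
      rw [h32_iota_apply, hG]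
      simp only [h11_mkZ, Matrix.SpecialLinearGroup.coe_mk, Matrix.of_apply, Matrix.cons_val',
        Matrix.cons_val_zero, Matrix.cons_val_one, Matrix.cons_val_fin_one]
      push_cast
      rw [← hγ]; ring
    · show 1 + ((q ^ K : ℕ) : ℚ) * (P 1 1 - 1) = h32_iota G 1 1
      rw [h32_iota_apply, hG]
      simp only [h11_mkZ, Matrix.SpecialLinearGroup.coe_mk, Matrix.of_apply, Matrix.cons_val',
        Matrix.cons_val_one, Matrix.cons_val_fin_one]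
      push_cast
      rw [← hδ]; ring
  have h2 : ψ ⟨P, hP⟩ ^ (q ^ K) = 1 := by
    rw [← map_pow, hpow]
    exact h1
  have h3 : ψ ⟨P, hP⟩ ^ Nat.gcd (q ^ K) p = 1 := pow_gcd_eq_one.2 ⟨h2, hA _⟩
  have hcop : Nat.gcd (q ^ K) p = 1 := by
    have : Nat.Coprime q p := (Nat.coprime_primes hq hp).2 (Ne.symm hpq)
    exact Nat.Coprime.pow_left K this
  rw [hcop, pow_one] at h3
  exact h3

/-! ### Admissibility of the extension and of its twists -/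

theorem h11_adm_ext {N q p : ℕ} (hq : q.Prime) (hp : p.Prime) (hpq : p ≠ q)
    {A : Type*} [CommGroup A] (hA : ∀ a : A, a ^ p = 1) (ψ : h32_Delta N q →* A)
    (hpar : h15lr_ParOnGamma0 N q ψ) : h11_Adm N q (h11_ext ψ) where
  map_mul := fun _ _ hx hy =>
    h11_ext_mul ψ (h11_Gam_le_Delta (dvd_refl N) hx) (h11_Gam_le_Delta (dvd_refl N) hy)
  unip := fun x hx ht => by
    rw [h11_ext_eq ψ (h11_Gam_le_Delta (dvd_refl N) hx)]
    exact h11_step0 hq hp hpq hA ψ hpar x _ ht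

theorem h11_trace_cg (m : ℕ) [NeZero m] (M : h11_S) :
    ((h32_cg m M : h11_S) : Matrix (Fin 2) (Fin 2) ℚ).trace =
      (M : Matrix (Fin 2) (Fin 2) ℚ).trace := by
  rw [Matrix.trace_fin_two, Matrix.trace_fin_two]
  rfl

theorem h11_IsNZq_div {N m q : ℕ} [NeZero m] {x : ℚ} (hx : h32_IsNZq (N * m) q x) :
    h32_IsNZq N q (x / m) := by
  obtain ⟨k, n, hn⟩ := hx
  have hm0 : (m : ℚ) ≠ 0 := Nat.cast_ne_zero.mpr (NeZero.ne m)
  refine ⟨k, n, ?_⟩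
  rw [div_mul_eq_mul_div, hn]
  push_cast
  field_simp

/-- `M ↦ [[a, b/m], [m c, d]]` maps `Γ(N m)[1/q]` into `Γ(N)[1/q]`. -/
theorem h11_cg_mem_Gam {N m q : ℕ} [NeZero m] {M : h11_S} (hM : M ∈ h11_Gam (N * m) q) :
    h32_cg m M ∈ h11_Gam N q := by
  obtain ⟨h0, h1, h2, h3⟩ := hM
  have hd : N ∣ N * m := dvd_mul_right N m
  refine ⟨?_, ?_, ?_, ?_⟩
  · show h32_IsNZq N q (M 0 0 - 1)
    exact h11_IsNZq_of_dvd hd h0
  · show h32_IsNZq N q (M 0 1 / m)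
    exact h11_IsNZq_div h1
  · show h32_IsNZq N q (m * M 1 0)
    exact h32_IsNZq_mul_right (h32_IsZq_int q m) (h11_IsNZq_of_dvd hd h2)
  · show h32_IsNZq N q (M 1 1 - 1)
    exact h11_IsNZq_of_dvd hd h3

theorem h11_IsNZq_div_q {N q : ℕ} [NeZero q] {x : ℚ} (hx : h32_IsNZq N q x) :
    h32_IsNZq N q (x / q) := by
  obtain ⟨k, n, hn⟩ := hx
  have hq0 : (q : ℚ) ≠ 0 := Nat.cast_ne_zero.mpr (NeZero.ne q)
  refine ⟨k + 1, n, ?_⟩
  rw [pow_succ, ← hn]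
  field_simp

/-- `M ↦ g⁻¹ M g = [[a, b/q], [q c, d]]` preserves `Γ(N)[1/q]`. -/
theorem h11_cgq_mem_Gam {N q : ℕ} [NeZero q] {M : h11_S} (hM : M ∈ h11_Gam N q) :
    h32_cg q M ∈ h11_Gam N q := by
  obtain ⟨h0, h1, h2, h3⟩ := hM
  refine ⟨h0, ?_, ?_, h3⟩
  · show h32_IsNZq N q (M 0 1 / q)
    exact h11_IsNZq_div_q h1
  · show h32_IsNZq N q (q * M 1 0)
    exact h32_IsNZq_mul_right (h32_IsZq_int q q) h2

theorem h11_Adm.cgm {N q : ℕ} {A : Type*} [CommGroup A] {f : h11_S → A} (hf : h11_Adm N q f)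
    (m : ℕ) [NeZero m] : h11_Adm (N * m) q (fun M => f (h32_cg m M)) where
  map_mul := by
    intro x y hx hy
    show f (h32_cg m (x * y)) = f (h32_cg m x) * f (h32_cg m y)
    rw [(h32_cg m).map_mul x y]
    exact hf.map_mul _ _ (h11_cg_mem_Gam hx) (h11_cg_mem_Gam hy)
  unip := by
    intro x hx ht
    apply hf.unip _ (h11_cg_mem_Gam hx)
    rw [h11_trace_cg, ht]

theorem h11_Adm.cgq {N q : ℕ} [NeZero q] {A : Type*} [CommGroup A] {f : h11_S → A}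
    (hf : h11_Adm N q f) : h11_Adm N q (fun M => f (h32_cg q M)) where
  map_mul := by
    intro x y hx hy
    show f (h32_cg q (x * y)) = f (h32_cg q x) * f (h32_cg q y)
    rw [(h32_cg q).map_mul x y]
    exact hf.map_mul _ _ (h11_cgq_mem_Gam hx) (h11_cgq_mem_Gam hy)
  unip := by
    intro x hx ht
    apply hf.unip _ (h11_cgq_mem_Gam hx)
    rw [h11_trace_cg, ht]

/-! ### The main theorem on `Γ(N)` -/

/-- **CSP on `Γ(N)`**: an admissible function of level `N` with values in a group of odd prime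
exponent `p ≠ q` is trivial on `ι Γ(N)`. -/
theorem h11_main_adm.{u} (hCent : h11_CentStatement.{u}) (hDrop : h11_DropStatement.{u})
    (hSym : h11_SymbolStatement.{u}) {N p q : ℕ} (hN : 0 < N) (hp : p.Prime) (hp2 : p ≠ 2)
    (hq : q.Prime) (hpq : p ≠ q) (hNq : Nat.Coprime N q) {A : Type u} [CommGroup A]
    (hA : ∀ a : A, a ^ p = 1) {f : h11_S → A} (hf : h11_Adm N q f) (x : h11_Z)
    (hx : x ∈ Gamma N) : f (h32_iota x) = 1 :=
  hSym N p q hN hp hp2 hq hpq hNq A hA (fun y => f (h32_iota y))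
    (fun _ _ hy hz => hf.mulZ hy hz) (fun _ hy ht => hf.unipZ hy ht)
    (fun g y hy => hCent N q hq hN hNq A f hf g y hy)
    (hDrop N q hq hN hNq A f hf (fun m _ _ => hf.cgm m)) x hx

/-! ### Step 8: from `Γ(N)` to `{γ ∈ Γ₀(N) : d ≡ 1 mod N}` -/

theorem h11_mul_UZ_mem {N : ℕ} (γ : h11_Z) (hc : (N : ℤ) ∣ γ 1 0) (hd : (N : ℤ) ∣ γ 1 1 - 1) :
    γ * h11_UZ (-(γ 0 1 * γ 1 1)) ∈ Gamma N := by
  have hdet : γ 0 0 * γ 1 1 - γ 0 1 * γ 1 0 = 1 := by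
    have := γ.det_coe
    rwa [Matrix.det_fin_two] at this
  have e00 : (γ * h11_UZ (-(γ 0 1 * γ 1 1))) 0 0 = γ 0 0 := by
    rw [Matrix.SpecialLinearGroup.coe_mul, Matrix.mul_apply, Fin.sum_univ_two]
    simp [h11_UZ, h11_mkZ_apply]
  have e01 : (γ * h11_UZ (-(γ 0 1 * γ 1 1))) 0 1 = γ 0 0 * (-(γ 0 1 * γ 1 1)) + γ 0 1 := by
    rw [Matrix.SpecialLinearGroup.coe_mul, Matrix.mul_apply, Fin.sum_univ_two]
    simp [h11_UZ, h11_mkZ_apply]
  have e10 : (γ * h11_UZ (-(γ 0 1 * γ 1 1))) 1 0 = γ 1 0 := by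
    rw [Matrix.SpecialLinearGroup.coe_mul, Matrix.mul_apply, Fin.sum_univ_two]
    simp [h11_UZ, h11_mkZ_apply]
  have e11 : (γ * h11_UZ (-(γ 0 1 * γ 1 1))) 1 1 = γ 1 0 * (-(γ 0 1 * γ 1 1)) + γ 1 1 := by
    rw [Matrix.SpecialLinearGroup.coe_mul, Matrix.mul_apply, Fin.sum_univ_two]
    simp [h11_UZ, h11_mkZ_apply]
  obtain ⟨c', hc'⟩ := hc
  obtain ⟨d', hd'⟩ := hd
  apply h11_Gamma_of_dvd
  · rw [e00]
    exact ⟨γ 0 1 * c' - γ 0 0 * d', by linear_combination hdet + γ 0 1 * hc' - γ 0 0 * hd'⟩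
  · rw [e01]
    exact ⟨-(γ 0 1 * γ 0 1 * c'), by linear_combination (-(γ 0 1)) * hdet - γ 0 1 * γ 0 1 * hc'⟩
  · rw [e10]
    exact ⟨c', hc'⟩
  · rw [e11]
    exact ⟨-(c' * γ 0 1 * γ 1 1) + d', by linear_combination (-(γ 0 1 * γ 1 1)) * hc' + hd'⟩

theorem h11_UZ_mem_Gamma0 (N : ℕ) (t : ℤ) : h11_UZ t ∈ Gamma0 N := by
  rw [h32_mem_Gamma0_iff]
  simp [h11_UZ, h11_mkZ]

/-- **Step 8**, in a form which applies to both copies of `Γ₀(N)` in `Δ`: `φ = id` or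
`φ = h32_cg q`. -/
theorem h11_step8 {N q p : ℕ} (hq : q.Prime) (hp : p.Prime) (hpq : p ≠ q)
    {A : Type*} [CommGroup A] (hA : ∀ a : A, a ^ p = 1) (ψ : h32_Delta N q →* A)
    (hpar : h15lr_ParOnGamma0 N q ψ) (φ : h11_S →* h11_S)
    (hφ : ∀ M, M ∈ h32_Delta N q → φ M ∈ h32_Delta N q)
    (hφtr : ∀ M : h11_S, ((φ M : h11_S) : Matrix (Fin 2) (Fin 2) ℚ).trace =
      (M : Matrix (Fin 2) (Fin 2) ℚ).trace)
    (hmain : ∀ x : h11_Z, x ∈ Gamma N → h11_ext ψ (φ (h32_iota x)) = 1)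
    (γ : Gamma0 N) (hd : (N : ℤ) ∣ (γ : h11_Z) 1 1 - 1) :
    ψ ⟨φ (h32_iota (γ : h11_Z)), hφ _ (h32_iota_mem_Delta N q γ)⟩ = 1 := by
  have hc : (N : ℤ) ∣ (γ : h11_Z) 1 0 := (h32_mem_Gamma0_iff N γ.1).1 γ.2
  set t : ℤ := -((γ : h11_Z) 0 1 * (γ : h11_Z) 1 1) with ht
  have hx := h11_mul_UZ_mem (γ : h11_Z) hc hd
  have h1 := hmain _ hx
  have hU : h32_iota (h11_UZ t) ∈ h32_Delta N q :=
    h32_iota_mem_Delta N q ⟨h11_UZ t, h11_UZ_mem_Gamma0 N t⟩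
  rw [h32_iota.map_mul, map_mul,
    h11_ext_mul ψ (hφ _ (h32_iota_mem_Delta N q γ)) (hφ _ hU),
    h11_ext_eq ψ (hφ _ (h32_iota_mem_Delta N q γ)), h11_ext_eq ψ (hφ _ hU)] at h1
  have h2 : ψ ⟨φ (h32_iota (h11_UZ t)), hφ _ hU⟩ = 1 := by
    apply h11_step0 hq hp hpq hA ψ hpar
    rw [hφtr, h11_trace_iota, h11_trace_UZ]
    norm_num
  rw [h2, mul_one] at h1
  exact h1

/-- **CSP, integral form (i), (ii).**  `ψ` kills `ι γ` and `g⁻¹ (ι γ) g` for every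
`γ ∈ Γ₀(N)` with `d ≡ 1 mod N`. -/
theorem h11_csp_integral.{u} (hCent : h11_CentStatement.{u}) (hDrop : h11_DropStatement.{u})
    (hSym : h11_SymbolStatement.{u}) {N p q : ℕ} [NeZero q] (hN : 0 < N) (hp : p.Prime)
    (hp2 : p ≠ 2) (hq : q.Prime) (hpq : p ≠ q) (hNq : Nat.Coprime N q) {A : Type u}
    [CommGroup A] (hA : ∀ a : A, a ^ p = 1) (ψ : h32_Delta N q →* A)
    (hpar : h15lr_ParOnGamma0 N q ψ) (γ : Gamma0 N) (hd : (N : ℤ) ∣ (γ : h11_Z) 1 1 - 1) :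
    ψ ⟨h32_iota (γ : h11_Z), h32_iota_mem_Delta N q γ⟩ = 1 ∧
    ψ ⟨h32_cg q (h32_iota (γ : h11_Z)), h32_cg_iota_mem_Delta N q γ⟩ = 1 := by
  have hf := h11_adm_ext hq hp hpq hA ψ hpar
  constructor
  · exact h11_step8 hq hp hpq hA ψ hpar (MonoidHom.id _) (fun _ h => h) (fun _ => rfl)
      (fun x hx => h11_main_adm hCent hDrop hSym hN hp hp2 hq hpq hNq hA hf x hx) γ hd
  · exact h11_step8 hq hp hpq hA ψ hpar (h32_cg q) (fun M h => h32_cg_mem_Delta N q M h)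
      (fun M => h11_trace_cg q M)
      (fun x hx => h11_main_adm hCent hDrop hSym hN hp hp2 hq hpq hNq hA hf.cgq x hx) γ hd

end Fermat.Agent.LR
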