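import Mathlib

/-!
# P-LR / LR-CSP leaf L-GML (helper40): the good modulus lemma

Step 2 (iv) of the proof of the abelianised congruence subgroup property (finding #724):
for `n` prime to the prime `q`, `a₁` prime to `n q` and a unit class `β` modulo `a₁` there are
`b' > 0` and `k > 0` with `n ∣ b'`, `b' ≡ β mod a₁`, `b' ∣ q ^ k - 1` and
`(q ^ k - 1) / b' ≡ -1 mod n`.

Construction: `k₀ = 2 φ(n)`, `T₀ = q ^ k₀ - 1`, `g` the `n`-primary part of `T₀`,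
`π` a large prime with `g π ≡ β mod a₁`, `π ≡ -1 mod n gcd(n, 2)` (Dirichlet), `m = (π - 1) / 2`
(so `n ∣ m + 1`), `b' = g π`, `T = q ^ (k₀ m) - 1 = T₀ S`, `S = ∑_{i<m} q ^ (k₀ i) ≡ m mod n`,
`κ₀ = (T₀ / g) (S / π)` prime to `n`, `i κ₀ ≡ -1 mod n`, `k = k₀ m i`.
-/

set_option autoImplicit false

namespace Fermat.Agent.LR.CSP

/-- The `n`-primary part of `m`. -/
lemma h40g_primary (n : ℕ) : ∀ m : ℕ, 0 < m →
    ∃ g : ℕ, g ∣ m ∧ (∃ j : ℕ, g ∣ n ^ j) ∧ Nat.Coprime (m / g) n := by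
  intro m
  induction m using Nat.strong_induction_on with
  | _ m ih =>
    intro hm
    by_cases h : Nat.Coprime m n
    · exact ⟨1, one_dvd _, ⟨0, by simp⟩, by simpa using h⟩
    · have hd : Nat.gcd m n ∣ m := Nat.gcd_dvd_left m n
      have hdpos : 0 < Nat.gcd m n := Nat.gcd_pos_of_pos_left n hm
      have hd1 : Nat.gcd m n ≠ 1 := h
      have hd2 : 2 ≤ Nat.gcd m n := by omega
      have hlt : m / Nat.gcd m n < m := Nat.div_lt_self hm hd2
      have hpos : 0 < m / Nat.gcd m n := Nat.div_pos (Nat.le_of_dvd hm hd) hdpos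
      obtain ⟨g', hg'm, ⟨j, hj⟩, hcop⟩ := ih _ hlt hpos
      refine ⟨Nat.gcd m n * g', ?_, ⟨j + 1, ?_⟩, ?_⟩
      · have h1 : Nat.gcd m n * g' ∣ Nat.gcd m n * (m / Nat.gcd m n) :=
          Nat.mul_dvd_mul_left _ hg'm
        rwa [Nat.mul_div_cancel' hd] at h1
      · rw [pow_succ']
        exact Nat.mul_dvd_mul (Nat.gcd_dvd_right m n) hj
      · rw [← Nat.div_div_eq_div_mul]
        exact hcop

/-- Geometric sums modulo `n`. -/
lemma h40g_geom_modEq (n X : ℤ) (hX : n ∣ X - 1) (m : ℕ) :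
    n ∣ (∑ i ∈ Finset.range m, X ^ i) - m := by
  induction m with
  | zero => simp
  | succ m ih =>
    rw [Finset.sum_range_succ]
    have h1 : n ∣ X ^ m - 1 := hX.trans (sub_one_dvd_pow_sub_one X m)
    have h2 : (∑ i ∈ Finset.range m, X ^ i) + X ^ m - ((m + 1 : ℕ) : ℤ)
        = ((∑ i ∈ Finset.range m, X ^ i) - m) + (X ^ m - 1) := by
      push_cast
      ring
    rw [h2]
    exact dvd_add ih h1

/-- **Good modulus lemma** (no coprimality of `a₁` and `q` is needed). -/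
theorem h40g_gml' {q n a₁ : ℕ} (hq : q.Prime) (hn : 0 < n) (ha₁ : 0 < a₁) (hnq : n.Coprime q)
    (han : a₁.Coprime n) (β : ℤ) (hβ : IsCoprime β (a₁ : ℤ)) :
    ∃ (b' k : ℕ) (κ : ℤ), 0 < k ∧ 0 < b' ∧ (n : ℤ) ∣ b' ∧ (a₁ : ℤ) ∣ ((b' : ℤ) - β) ∧
      (q : ℤ) ^ k - 1 = b' * κ ∧ (n : ℤ) ∣ κ + 1 := by
  -- Step A: the exponent `k₀`
  have hφpos : 0 < Nat.totient n := Nat.totient_pos.2 hn
  obtain ⟨φn, hφn⟩ : ∃ φn, φn = Nat.totient n := ⟨_, rfl⟩
  rw [← hφn] at hφpos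
  obtain ⟨k₀, hk₀⟩ : ∃ k₀, k₀ = 2 * φn := ⟨_, rfl⟩
  have hk₀pos : 0 < k₀ := by omega
  have hXmod : q ^ k₀ ≡ 1 [MOD n] := by
    have h1 : q ^ φn ≡ 1 [MOD n] := by
      rw [hφn]
      exact Nat.ModEq.pow_totient hnq.symm
    have h2 := h1.pow 2
    rw [← pow_mul, one_pow, mul_comm] at h2
    rw [hk₀]
    exact h2
  have hXge : 2 ≤ q ^ k₀ :=
    calc 2 ≤ q := hq.two_le
      _ = q ^ 1 := (pow_one q).symm
      _ ≤ q ^ k₀ := Nat.pow_le_pow_right hq.pos hk₀pos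
  obtain ⟨T₀, hT₀⟩ : ∃ T₀, T₀ = q ^ k₀ - 1 := ⟨_, rfl⟩
  have hT₀pos : 0 < T₀ := by omega
  have hT₀cast : (T₀ : ℤ) = (q : ℤ) ^ k₀ - 1 := by
    rw [hT₀, Nat.cast_sub (by omega)]
    push_cast
    ring
  have hnT₀ : n ∣ T₀ := by
    rw [hT₀]
    exact (Nat.modEq_iff_dvd' (by omega)).1 hXmod.symm
  -- Step B: the primary part
  obtain ⟨g, hgT₀, ⟨j, hgj⟩, hgcop⟩ := h40g_primary n T₀ hT₀pos
  have hgpos : 0 < g := Nat.pos_of_dvd_of_pos hgT₀ hT₀pos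
  obtain ⟨G, hG⟩ : ∃ G, G = T₀ / g := ⟨_, rfl⟩
  rw [← hG] at hgcop
  have hT₀g : T₀ = g * G := by
    rw [hG, Nat.mul_div_cancel' hgT₀]
  have hng : n ∣ g := by
    have h1 : n ∣ g * G := by rwa [← hT₀g]
    exact (Nat.Coprime.dvd_mul_right hgcop.symm).1 h1
  have hga : Nat.Coprime g a₁ :=
    Nat.Coprime.coprime_dvd_left hgj (Nat.Coprime.pow_left j han.symm)
  -- Step C: the residue class and Dirichlet
  obtain ⟨s, t, hst⟩ : IsCoprime (g : ℤ) (a₁ : ℤ) := Nat.isCoprime_iff_coprime.2 hga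
  obtain ⟨n', hn'⟩ : ∃ n', n' = n * Nat.gcd n 2 := ⟨_, rfl⟩
  have hn'pos : 0 < n' := by
    rw [hn']
    exact Nat.mul_pos hn (Nat.gcd_pos_of_pos_left 2 hn)
  have han' : Nat.Coprime a₁ n' := by
    rw [hn']
    exact Nat.Coprime.mul_right han
      (Nat.Coprime.coprime_dvd_right (Nat.gcd_dvd_left n 2) han)
  obtain ⟨u, v, huv⟩ : IsCoprime (a₁ : ℤ) (n' : ℤ) := Nat.isCoprime_iff_coprime.2 han'
  obtain ⟨c, hc⟩ : ∃ c : ℤ, c = (β * s) * (v * n') + (-1) * (u * a₁) := ⟨_, rfl⟩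
  have hc1 : c = β * s + (a₁ : ℤ) * (-(β * s * u) - u) := by
    rw [hc]
    have : v * (n' : ℤ) = 1 - u * a₁ := by linarith
    rw [this]
    ring
  have hc2 : c = -1 + (n' : ℤ) * (β * s * v + v) := by
    rw [hc]
    have : u * (a₁ : ℤ) = 1 - v * n' := by linarith
    rw [this]
    ring
  have hsa : IsCoprime s (a₁ : ℤ) := ⟨g, t, by linarith⟩
  have hca : IsCoprime c (a₁ : ℤ) := by
    rw [hc1]
    exact (hβ.mul_left hsa).add_mul_left_left _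
  have hcn : IsCoprime c (n' : ℤ) := by
    rw [hc2]
    exact (isCoprime_one_left.neg_left).add_mul_left_left _
  have hcM : IsCoprime c ((a₁ * n' : ℕ) : ℤ) := by
    push_cast
    exact hca.mul_right hcn
  have hM : a₁ * n' ≠ 0 := Nat.mul_ne_zero ha₁.ne' hn'pos.ne'
  obtain ⟨π, hπgt, hπp, hπc⟩ := Nat.forall_exists_prime_gt_and_zmodEq (T₀ + q + n + 2) hM hcM
  have hπM : ((a₁ * n' : ℕ) : ℤ) ∣ (π : ℤ) - c := by
    have := (Int.modEq_iff_dvd.1 hπc.symm)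
    exact this
  have hπa : (a₁ : ℤ) ∣ (π : ℤ) - c := by
    refine Dvd.dvd.trans ?_ hπM
    push_cast
    exact dvd_mul_right _ _
  have hπn' : (n' : ℤ) ∣ (π : ℤ) - c := by
    refine Dvd.dvd.trans ?_ hπM
    push_cast
    exact dvd_mul_left _ _
  -- Step D: `m = (π - 1) / 2`
  have hπodd : π % 2 = 1 := by
    rcases hπp.eq_two_or_odd with h | h
    · omega
    · exact h
  obtain ⟨m, hm⟩ : ∃ m, π = 2 * m + 1 := ⟨π / 2, by omega⟩
  have hmpos : 0 < m := by omega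
  have hn'π : (n' : ℤ) ∣ (π : ℤ) + 1 := by
    have h1 : (π : ℤ) + 1 = ((π : ℤ) - c) + (n' : ℤ) * (β * s * v + v) := by
      rw [hc2]
      ring
    rw [h1]
    exact dvd_add hπn' (dvd_mul_right _ _)
  have hnm : n ∣ m + 1 := by
    have h1 : n' ∣ 2 * (m + 1) := by
      have h2 : (n' : ℤ) ∣ ((2 * (m + 1) : ℕ) : ℤ) := by
        have : ((2 * (m + 1) : ℕ) : ℤ) = (π : ℤ) + 1 := by
          rw [hm]
          push_cast
          ring
        rw [this]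
        exact hn'π
      exact Int.natCast_dvd_natCast.1 h2
    rw [hn'] at h1
    rcases Nat.even_or_odd n with he | ho
    · have hg2 : Nat.gcd n 2 = 2 := by
        have : 2 ∣ n := even_iff_two_dvd.1 he
        exact Nat.gcd_eq_right this
      rw [hg2, mul_comm n 2] at h1
      exact (Nat.mul_dvd_mul_iff_left (by norm_num)).1 h1
    · have hg2 : Nat.Coprime n 2 := Nat.coprime_two_right.2 ho
      have hg2' : Nat.gcd n 2 = 1 := hg2
      rw [hg2', mul_one] at h1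
      exact (Nat.Coprime.dvd_mul_left hg2).1 h1
  have hmn : IsCoprime (m : ℤ) (n : ℤ) := by
    obtain ⟨e, he⟩ := hnm
    refine ⟨-1, e, ?_⟩
    have : ((m + 1 : ℕ) : ℤ) = (n : ℤ) * e := by
      rw [he]
      push_cast
      ring
    push_cast at this
    linarith
  -- Step E: `π ∣ S`
  obtain ⟨X, hX⟩ : ∃ X : ℤ, X = (q : ℤ) ^ k₀ := ⟨_, rfl⟩
  have hXT₀ : X - 1 = (T₀ : ℤ) := by rw [hX, hT₀cast]
  have hnX : (n : ℤ) ∣ X - 1 := by
    rw [hXT₀]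
    exact Int.natCast_dvd_natCast.2 hnT₀
  obtain ⟨S, hS⟩ : ∃ S : ℤ, S = ∑ i ∈ Finset.range m, X ^ i := ⟨_, rfl⟩
  have hSX : S * (X - 1) = X ^ m - 1 := by
    rw [hS]
    exact geom_sum_mul X m
  have hqπ : IsCoprime (q : ℤ) (π : ℤ) := by
    apply Nat.isCoprime_iff_coprime.2
    apply (Nat.coprime_primes hq hπp).2
    omega
  have hπXm : (π : ℤ) ∣ X ^ m - 1 := by
    have h1 := Int.ModEq.pow_card_sub_one_eq_one hπp hqπ
    have h2 : X ^ m = ((q : ℤ) ^ (π - 1)) ^ φn := by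
      rw [hX, ← pow_mul, ← pow_mul]
      congr 1
      rw [hk₀, hm]
      have : 2 * m + 1 - 1 = 2 * m := by omega
      rw [this]
      ring
    rw [h2]
    have h3 := h1.pow φn
    rw [one_pow] at h3
    exact (Int.modEq_iff_dvd.1 h3.symm)
  have hπT₀ : ¬ (π : ℤ) ∣ (T₀ : ℤ) := by
    intro h
    have := Int.natCast_dvd_natCast.1 h
    exact Nat.not_dvd_of_pos_of_lt hT₀pos (by omega) this
  have hπS : (π : ℤ) ∣ S := by
    have h1 : (π : ℤ) ∣ S * (X - 1) := by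
      rw [hSX]
      exact hπXm
    rcases (Nat.prime_iff_prime_int.1 hπp).dvd_or_dvd h1 with h | h
    · exact h
    · rw [hXT₀] at h
      exact absurd h hπT₀
  obtain ⟨S', hS'⟩ := hπS
  have hSn : IsCoprime S (n : ℤ) := by
    obtain ⟨w, hw⟩ := h40g_geom_modEq n X hnX m
    rw [← hS] at hw
    have : S = m + (n : ℤ) * w := by linarith
    rw [this]
    exact hmn.add_mul_left_left _
  have hS'n : IsCoprime S' (n : ℤ) := by
    rw [hS'] at hSn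
    exact hSn.of_mul_left_right
  have hGn : IsCoprime (G : ℤ) (n : ℤ) := Nat.isCoprime_iff_coprime.2 hgcop
  obtain ⟨κ₀, hκ₀⟩ : ∃ κ₀ : ℤ, κ₀ = G * S' := ⟨_, rfl⟩
  have hκ₀n : IsCoprime κ₀ (n : ℤ) := by
    rw [hκ₀]
    exact hGn.mul_left hS'n
  obtain ⟨Y, hY⟩ : ∃ Y : ℤ, Y = X ^ m := ⟨_, rfl⟩
  have hYκ : Y - 1 = ((g * π : ℕ) : ℤ) * κ₀ := by
    rw [hY, ← hSX, hXT₀, hT₀g, hS', hκ₀]
    push_cast
    ring
  have hnY : (n : ℤ) ∣ Y - 1 := by
    rw [hYκ]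
    apply Dvd.dvd.mul_right
    push_cast
    exact Dvd.dvd.mul_right (Int.natCast_dvd_natCast.2 hng) _
  -- Step F: the exponent `i`
  obtain ⟨x, y, hxy⟩ := hκ₀n
  obtain ⟨r, hr⟩ : ∃ r : ℤ, r = (-x) % (n : ℤ) := ⟨_, rfl⟩
  have hnpos : (0 : ℤ) < n := by exact_mod_cast hn
  have hr0 : 0 ≤ r := by
    rw [hr]
    exact Int.emod_nonneg _ hnpos.ne'
  have hrx : (n : ℤ) ∣ -x - r := by
    refine ⟨(-x) / (n : ℤ), ?_⟩
    rw [hr, Int.emod_def]
    ring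
  obtain ⟨i, hi⟩ : ∃ i : ℕ, (i : ℤ) = r + n := ⟨(r + n).toNat, Int.toNat_of_nonneg (by omega)⟩
  have hipos : 0 < i := by
    have : (0 : ℤ) < i := by
      rw [hi]
      omega
    exact_mod_cast this
  have hiκ : (n : ℤ) ∣ (i : ℤ) * κ₀ + 1 := by
    obtain ⟨e, he⟩ := hrx
    have h1 : (i : ℤ) * κ₀ + 1 = (n : ℤ) * (κ₀ - e * κ₀ + y) := by
      rw [hi]
      have : r = -x - (n : ℤ) * e := by linarith
      rw [this]
      have h2 : x * κ₀ = 1 - y * n := by linarith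
      linear_combination (-1 : ℤ) * h2
    rw [h1]
    exact dvd_mul_right _ _
  obtain ⟨S'', hS''⟩ : ∃ S'' : ℤ, S'' = ∑ l ∈ Finset.range i, Y ^ l := ⟨_, rfl⟩
  have hS''Y : S'' * (Y - 1) = Y ^ i - 1 := by
    rw [hS'']
    exact geom_sum_mul Y i
  have hS''i : (n : ℤ) ∣ S'' - i := by
    rw [hS'']
    exact h40g_geom_modEq n Y hnY i
  refine ⟨g * π, k₀ * m * i, κ₀ * S'', ?_, ?_, ?_, ?_, ?_, ?_⟩
  · exact Nat.mul_pos (Nat.mul_pos hk₀pos hmpos) hipos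
  · exact Nat.mul_pos hgpos hπp.pos
  · push_cast
    exact Dvd.dvd.mul_right (Int.natCast_dvd_natCast.2 hng) _
  · -- `g π ≡ β mod a₁`
    obtain ⟨e, he⟩ := hπa
    have h1 : (((g * π : ℕ) : ℤ)) - β = (a₁ : ℤ) * (g * e + g * (-(β * s * u) - u) - β * t) := by
      push_cast
      have h2 : (π : ℤ) = c + a₁ * e := by linarith
      rw [h2, hc1]
      have h3 : s * (g : ℤ) = 1 - t * a₁ := by linarith
      linear_combination (β : ℤ) * h3
    rw [h1]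
    exact dvd_mul_right _ _
  · have h1 : (q : ℤ) ^ (k₀ * m * i) = Y ^ i := by
      rw [hY, hX, ← pow_mul, ← pow_mul, mul_assoc]
    rw [h1, ← hS''Y, hYκ]
    ring
  · obtain ⟨e, he⟩ := hS''i
    obtain ⟨e', he'⟩ := hiκ
    have h1 : κ₀ * S'' + 1 = (n : ℤ) * (κ₀ * e + e') := by
      have : S'' = i + (n : ℤ) * e := by linarith
      rw [this]
      linear_combination he'
    rw [h1]
    exact dvd_mul_right _ _

/-- **Good modulus lemma**, with the (superfluous) hypothesis that `a₁` is prime to `q`. -/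
theorem h40g_gml {q n a₁ : ℕ} (hq : q.Prime) (hn : 0 < n) (ha₁ : 0 < a₁) (hnq : n.Coprime q)
    (han : a₁.Coprime n) (_haq : a₁.Coprime q) (β : ℤ) (hβ : IsCoprime β (a₁ : ℤ)) :
    ∃ (b' k : ℕ) (κ : ℤ), 0 < k ∧ 0 < b' ∧ (n : ℤ) ∣ b' ∧ (a₁ : ℤ) ∣ ((b' : ℤ) - β) ∧
      (q : ℤ) ^ k - 1 = b' * κ ∧ (n : ℤ) ∣ κ + 1 :=
  h40g_gml' hq hn ha₁ hnq han β hβ

/-- The good modulus lemma in the shape of `h11_GMLStatement` (`LR/CSP/Leaves.lean`), stated
without the definition so that this file stays Mathlib-only. -/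
theorem h40g_gml_shape (q n : ℕ) (hq : q.Prime) (hn : 0 < n) (hnq : Nat.Coprime n q)
    (a b : ℤ) (ha : a ≠ 0) (hab : IsCoprime a b) (hnb : (n : ℤ) ∣ b)
    (han : IsCoprime a (n : ℤ)) :
    ∃ (t : ℤ) (k : ℕ) (κ : ℤ), 0 < k ∧ (b + n * t * a) * κ = (q : ℤ) ^ k - 1 ∧
      (n : ℤ) ∣ κ + 1 := by
  have ha₁ : 0 < a.natAbs := Int.natAbs_pos.2 ha
  have han' : (a.natAbs).Coprime n := by
    have h1 : IsCoprime ((a.natAbs : ℕ) : ℤ) (n : ℤ) := by
      rcases Int.natAbs_eq a with h | h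
      · rw [← h]
        exact han
      · have : ((a.natAbs : ℕ) : ℤ) = -a := by omega
        rw [this]
        exact han.neg_left
    exact Nat.isCoprime_iff_coprime.1 h1
  have hβ : IsCoprime b ((a.natAbs : ℕ) : ℤ) := by
    rcases Int.natAbs_eq a with h | h
    · rw [← h]
      exact hab.symm
    · have : ((a.natAbs : ℕ) : ℤ) = -a := by omega
      rw [this]
      exact hab.symm.neg_right
  obtain ⟨b', k, κ, hk, -, hnb', hab', hκ, hnκ⟩ := h40g_gml' hq hn ha₁ hnq han' b hβ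
  have h1 : a ∣ (b' : ℤ) - b := by
    rcases Int.natAbs_eq a with h | h
    · rw [h]
      exact hab'
    · have : a = -((a.natAbs : ℕ) : ℤ) := h
      rw [this]
      exact (neg_dvd).2 hab'
  have h2 : (n : ℤ) ∣ (b' : ℤ) - b := dvd_sub hnb' hnb
  have h3 : (n : ℤ) * a ∣ (b' : ℤ) - b := han.symm.mul_dvd h2 h1
  obtain ⟨t, ht⟩ := h3
  refine ⟨t, k, κ, hk, ?_, hnκ⟩
  have h4 : b + n * t * a = b' := by
    have : (b' : ℤ) = b + (n : ℤ) * a * t := by linarith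
    rw [this]
    ring
  rw [h4, hκ]

end Fermat.Agent.LR.CSP
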