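import Fermat.Agent.LR.CSP.Leaves
import Fermat.Agent.LR.CSP.H40GML

/-!
# P-LR / LR-CSP leaf (1): `h11_GMLStatement` (helper40)
-/

set_option autoImplicit false

namespace Fermat.Agent.LR

/-- **L-GML**: the good modulus lemma in the frozen shape of `LR/CSP/Leaves.lean`. -/
theorem h40g_GML : h11_GMLStatement := by
  intro q n hq hn hnq a b ha hab hnb han
  exact CSP.h40g_gml_shape q n hq hn hnq a b ha hab hnb han

end Fermat.Agent.LR
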