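/-
P-LR (S41), item (5c) CSP, leaf L-DROP (Step 3 of finding #724, square dropping):
`h60_drop : h11_CentStatement → h11_DropStatement`.  (helper60)

For `x = [[a, b], [m² c', d]]`, `xp = [[a, m² b], [c', d]]` put `y₁ = [[a, m b], [m c', d]]`
(in `Γ(N m)`) and `W = [[0, -1], [1, 0]]`.  Then `cg_m (ι y₁) = ι x` and
`cg_m (ι (W y₁ W⁻¹)) = ι (W xp W⁻¹)`, so centrality for `f ∘ cg_m` at level `N m` and for `f`
at level `N` gives `f (ι x) = f (ι xp)`.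
-/
import Fermat.Agent.LR.CSP.Leaves

namespace Fermat.Agent.LR

open Matrix CongruenceSubgroup

/-- Membership in `Γ(n)` as integer divisibilities. -/
theorem h60d_mem_Gamma_iff (n : ℕ) (γ : h11_Z) :
    γ ∈ Gamma n ↔ (n : ℤ) ∣ γ 0 0 - 1 ∧ (n : ℤ) ∣ γ 0 1 ∧ (n : ℤ) ∣ γ 1 0 ∧
      (n : ℤ) ∣ γ 1 1 - 1 := by
  rw [Gamma_mem]
  have h1 : ∀ z : ℤ, ((z : ZMod n) = 1 ↔ (n : ℤ) ∣ z - 1) := by
    intro z
    rw [← ZMod.intCast_zmod_eq_zero_iff_dvd]
    push_cast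
    exact sub_eq_zero.symm
  simp only [h1, ZMod.intCast_zmod_eq_zero_iff_dvd]

/-- The Weyl element `[[0, -1], [1, 0]]` of `SL(2, ℤ)`. -/
def h60d_W : h11_Z := h11_mkZ 0 (-1) 1 0 (by ring)

/-- Entries of `W y W⁻¹`. -/
theorem h60d_conj_W (y : h11_Z) :
    ((h60d_W * y * h60d_W⁻¹ : h11_Z) : Matrix (Fin 2) (Fin 2) ℤ) =
      !![y 1 1, -y 1 0; -y 0 1, y 0 0] := by
  rw [Matrix.SpecialLinearGroup.coe_mul, Matrix.SpecialLinearGroup.coe_mul,
    Matrix.SpecialLinearGroup.coe_inv, Matrix.adjugate_fin_two]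
  ext i j
  fin_cases i <;> fin_cases j <;>
    simp [h60d_W, h11_mkZ, Matrix.mul_apply, Fin.sum_univ_two, Matrix.vecMul, dotProduct]

theorem h60d_conj_W_apply (y : h11_Z) (i j : Fin 2) :
    (h60d_W * y * h60d_W⁻¹ : h11_Z) i j = (!![y 1 1, -y 1 0; -y 0 1, y 0 0] : Matrix _ _ ℤ) i j := by
  have := congrFun (congrFun (h60d_conj_W y) i) j
  exact this

theorem h60d_cg_00 (m : ℕ) [NeZero m] (M : h11_S) : (h32_cg m M) 0 0 = M 0 0 := rfl
theorem h60d_cg_01 (m : ℕ) [NeZero m] (M : h11_S) : (h32_cg m M) 0 1 = M 0 1 / m := rfl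
theorem h60d_cg_10 (m : ℕ) [NeZero m] (M : h11_S) : (h32_cg m M) 1 0 = m * M 1 0 := rfl
theorem h60d_cg_11 (m : ℕ) [NeZero m] (M : h11_S) : (h32_cg m M) 1 1 = M 1 1 := rfl

theorem h60d_conj_W_00 (y : h11_Z) : (h60d_W * y * h60d_W⁻¹ : h11_Z) 0 0 = y 1 1 := by
  rw [h60d_conj_W_apply]; rfl
theorem h60d_conj_W_01 (y : h11_Z) : (h60d_W * y * h60d_W⁻¹ : h11_Z) 0 1 = -y 1 0 := by
  rw [h60d_conj_W_apply]; rfl
theorem h60d_conj_W_10 (y : h11_Z) : (h60d_W * y * h60d_W⁻¹ : h11_Z) 1 0 = -y 0 1 := by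
  rw [h60d_conj_W_apply]; rfl
theorem h60d_conj_W_11 (y : h11_Z) : (h60d_W * y * h60d_W⁻¹ : h11_Z) 1 1 = y 0 0 := by
  rw [h60d_conj_W_apply]; rfl

/-- **L-DROP (square dropping, Step 3)** from centrality. -/
theorem h60_drop.{u} (hc : h11_CentStatement.{u}) : h11_DropStatement.{u} := by
  intro N q hq hN hNq A _ f hf hfm m hm hmq x xp ha hd hb hc' h00 h01 h10 h11
  have : NeZero m := ⟨hm.ne'⟩
  have hm0 : (m : ℚ) ≠ 0 := Nat.cast_ne_zero.mpr hm.ne'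
  have hdet : x 0 0 * x 1 1 - x 0 1 * ((m : ℤ) ^ 2 * xp 1 0) = 1 := by
    have := x.det_coe
    rw [Matrix.det_fin_two] at this
    rw [← h10]
    linarith
  -- the intermediate matrix `y₁`
  let y1 : h11_Z := h11_mkZ (x 0 0) (m * x 0 1) (m * xp 1 0) (x 1 1)
    (by linear_combination hdet)
  have y1_00 : y1 0 0 = x 0 0 := rfl
  have y1_01 : y1 0 1 = m * x 0 1 := rfl
  have y1_10 : y1 1 0 = m * xp 1 0 := rfl
  have y1_11 : y1 1 1 = x 1 1 := rfl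
  have hNm : ((N * m : ℕ) : ℤ) = (N : ℤ) * m := by push_cast; ring
  have hy1 : y1 ∈ Gamma (N * m) := by
    rw [h60d_mem_Gamma_iff]
    refine ⟨ha, ?_, ?_, hd⟩
    · rw [y1_01, hNm, mul_comm (N : ℤ)]
      exact mul_dvd_mul_left _ hb
    · rw [y1_10, hNm, mul_comm (N : ℤ)]
      exact mul_dvd_mul_left _ hc'
  have hNdvd : (N : ℤ) ∣ ((N * m : ℕ) : ℤ) := ⟨m, hNm⟩
  have hxp : xp ∈ Gamma N := by
    rw [h60d_mem_Gamma_iff]
    refine ⟨?_, ?_, hc', ?_⟩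
    · rw [h00]; exact hNdvd.trans ha
    · rw [h01]; exact Dvd.dvd.mul_left hb _
    · rw [h11]; exact hNdvd.trans hd
  -- matrix identities
  have e1 : h32_cg m (h32_iota y1) = h32_iota x := by
    ext i j
    fin_cases i <;> fin_cases j
    · show (h32_cg m (h32_iota y1)) 0 0 = (h32_iota x) 0 0
      rw [h60d_cg_00, h32_iota_apply, h32_iota_apply, y1_00]
    · show (h32_cg m (h32_iota y1)) 0 1 = (h32_iota x) 0 1
      rw [h60d_cg_01, h32_iota_apply, h32_iota_apply, y1_01]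
      push_cast
      field_simp
    · show (h32_cg m (h32_iota y1)) 1 0 = (h32_iota x) 1 0
      rw [h60d_cg_10, h32_iota_apply, h32_iota_apply, y1_10, h10]
      push_cast
      ring
    · show (h32_cg m (h32_iota y1)) 1 1 = (h32_iota x) 1 1
      rw [h60d_cg_11, h32_iota_apply, h32_iota_apply, y1_11]
  have e2 : h32_cg m (h32_iota (h60d_W * y1 * h60d_W⁻¹)) =
      h32_iota (h60d_W * xp * h60d_W⁻¹) := by
    ext i j
    fin_cases i <;> fin_cases j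
    · show (h32_cg m (h32_iota (h60d_W * y1 * h60d_W⁻¹))) 0 0 =
        (h32_iota (h60d_W * xp * h60d_W⁻¹)) 0 0
      rw [h60d_cg_00, h32_iota_apply, h32_iota_apply, h60d_conj_W_00, h60d_conj_W_00, y1_11, h11]
    · show (h32_cg m (h32_iota (h60d_W * y1 * h60d_W⁻¹))) 0 1 =
        (h32_iota (h60d_W * xp * h60d_W⁻¹)) 0 1
      rw [h60d_cg_01, h32_iota_apply, h32_iota_apply, h60d_conj_W_01, h60d_conj_W_01, y1_10]
      push_cast
      field_simp
    · show (h32_cg m (h32_iota (h60d_W * y1 * h60d_W⁻¹))) 1 0 =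
        (h32_iota (h60d_W * xp * h60d_W⁻¹)) 1 0
      rw [h60d_cg_10, h32_iota_apply, h32_iota_apply, h60d_conj_W_10, h60d_conj_W_10, y1_01, h01]
      push_cast
      ring
    · show (h32_cg m (h32_iota (h60d_W * y1 * h60d_W⁻¹))) 1 1 =
        (h32_iota (h60d_W * xp * h60d_W⁻¹)) 1 1
      rw [h60d_cg_11, h32_iota_apply, h32_iota_apply, h60d_conj_W_11, h60d_conj_W_11, y1_00, h00]
  -- centrality at the two levels
  have c1 := hc (N * m) q hq (Nat.mul_pos hN hm) (Nat.Coprime.mul_left hNq hmq) A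
    (fun M => f (h32_cg m M)) (hfm m hmq) h60d_W y1 hy1
  have c2 := hc N q hq hN hNq A f hf h60d_W xp hxp
  show f (h32_iota x) = f (h32_iota xp)
  rw [← e1, ← c1, e2, c2]

end Fermat.Agent.LR
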