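import Mathlib

/-!
# P-LR / LR-CSP, leaf L-QUAD (Step 6 of finding #724): the functional equation forces `F = 0`

`π ≡ 3 mod 4` a prime, `p` an odd prime with `p ∤ π - 1`, `V` an abelian group killed by `p`,
`F : (ℤ/π)ˣ → V` with `F 1 = 0` and
`F x - F y = F (x / y)` whenever `x ≠ y` and `y⁻¹ - x⁻¹` is a square. Then `F = 0`.

Mathlib only.
-/

set_option autoImplicit false

namespace Fermat.Agent.LR.CSP

section Quad

variable {π : ℕ} [Fact π.Prime]

lemma h27q_chi_neg_one (hπ : π % 4 = 3) : quadraticChar (ZMod π) (-1) = -1 := by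
  rw [quadraticChar_neg_one_iff_not_isSquare, ZMod.exists_sq_eq_neg_one_iff]
  simp [hπ]

lemma h27q_chi_inv {x : ZMod π} (hx : x ≠ 0) :
    quadraticChar (ZMod π) x⁻¹ = quadraticChar (ZMod π) x := by
  have h1 : quadraticChar (ZMod π) x⁻¹ * quadraticChar (ZMod π) x = 1 := by
    rw [← map_mul, inv_mul_cancel₀ hx, map_one]
  have h2 := quadraticChar_sq_one hx
  rcases quadraticChar_dichotomy hx with h | h <;> rw [h] at h1 ⊢ <;> linarith

lemma h27q_chi_neg (hπ : π % 4 = 3) (x : ZMod π) :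
    quadraticChar (ZMod π) (-x) = - quadraticChar (ZMod π) x := by
  have : -x = (-1) * x := by ring
  rw [this, map_mul, h27q_chi_neg_one hπ]; ring

variable {p : ℕ} {V : Type*} [AddCommGroup V]

/-- The multiplicative form `(*)` of the functional equation. -/
lemma h27q_star (F : ZMod π → V)
    (hFE : ∀ x y : ZMod π, x ≠ 0 → y ≠ 0 → x ≠ y → IsSquare (y⁻¹ - x⁻¹) →
      F x - F y = F (x / y))
    {x y : ZMod π} (hx : x ≠ 0) (hy : y ≠ 0) (hx1 : x ≠ 1)
    (h : quadraticChar (ZMod π) (x - 1) * quadraticChar (ZMod π) x *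
      quadraticChar (ZMod π) y = 1) :
    F (x * y) = F x + F y := by
  have hxy : x * y ≠ 0 := mul_ne_zero hx hy
  have hne : x * y ≠ y := by
    intro h'
    apply hx1
    have : x * y = 1 * y := by rw [h', one_mul]
    exact mul_right_cancel₀ hy this
  have hx1' : x - 1 ≠ 0 := sub_ne_zero.mpr hx1
  have hval : y⁻¹ - (x * y)⁻¹ = (x - 1) * x⁻¹ * y⁻¹ := by
    field_simp
  have hsq : IsSquare (y⁻¹ - (x * y)⁻¹) := by
    rw [hval, ← quadraticChar_one_iff_isSquare
      (mul_ne_zero (mul_ne_zero hx1' (inv_ne_zero hx)) (inv_ne_zero hy)),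
      map_mul, map_mul, h27q_chi_inv hx, h27q_chi_inv hy]
    exact h
  have := hFE (x * y) y hxy hy hne hsq
  rw [mul_div_assoc, div_self hy, mul_one] at this
  rw [← this]; abel

/-- (a): `F (1/x) = - F x` when `χ(x - 1) = 1` or `χ(x - 1) χ(x) = -1`. -/
lemma h27q_inv (hπ : π % 4 = 3) (F : ZMod π → V) (hF1 : F 1 = 0)
    (hFE : ∀ x y : ZMod π, x ≠ 0 → y ≠ 0 → x ≠ y → IsSquare (y⁻¹ - x⁻¹) →
      F x - F y = F (x / y))
    {x : ZMod π} (hx : x ≠ 0) (hx1 : x ≠ 1)
    (h : quadraticChar (ZMod π) (x - 1) = 1 ∨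
      quadraticChar (ZMod π) (x - 1) * quadraticChar (ZMod π) x = -1) :
    F x⁻¹ = - F x := by
  have hxi : x⁻¹ ≠ 0 := inv_ne_zero hx
  have hsq := quadraticChar_sq_one hx
  rcases h with h | h
  · have := h27q_star F hFE hx hxi hx1 (by
      rw [h27q_chi_inv hx, h, one_mul, ← pow_two, hsq])
    rw [mul_inv_cancel₀ hx, hF1] at this
    exact eq_neg_of_add_eq_zero_right this.symm
  · have hxi1 : x⁻¹ ≠ 1 := by
      intro h'; apply hx1; rw [← inv_inv x, h', inv_one]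
    have hval : x⁻¹ - 1 = -((x - 1) * x⁻¹) := by field_simp; ring
    have := h27q_star F hFE hxi hx hxi1 (by
      rw [hval, h27q_chi_neg hπ, map_mul, h27q_chi_inv hx, h, mul_assoc, ← pow_two, hsq]
      norm_num)
    rw [inv_mul_cancel₀ hx, hF1] at this
    exact eq_neg_of_add_eq_zero_left this.symm

/-- (b): `F` is additive on the nonzero squares. -/
lemma h27q_add_sq (hπ : π % 4 = 3) (F : ZMod π → V) (hF1 : F 1 = 0)
    (hFE : ∀ x y : ZMod π, x ≠ 0 → y ≠ 0 → x ≠ y → IsSquare (y⁻¹ - x⁻¹) →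
      F x - F y = F (x / y))
    {x y : ZMod π} (hx : x ≠ 0) (hy : y ≠ 0)
    (hxs : quadraticChar (ZMod π) x = 1) (hys : quadraticChar (ZMod π) y = 1) :
    F (x * y) = F x + F y := by
  by_cases hx1 : x = 1
  · rw [hx1, one_mul, hF1, zero_add]
  have hx1' : x - 1 ≠ 0 := sub_ne_zero.mpr hx1
  have hxi : x⁻¹ ≠ 0 := inv_ne_zero hx
  rcases quadraticChar_dichotomy hx1' with h | h
  · exact h27q_star F hFE hx hy hx1 (by rw [h, hxs, hys]; norm_num)
  · have hxi1 : x⁻¹ ≠ 1 := by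
      intro h'; apply hx1; rw [← inv_inv x, h', inv_one]
    have hval : x⁻¹ - 1 = -((x - 1) * x⁻¹) := by field_simp; ring
    have h1 := h27q_star F hFE hxi (mul_ne_zero hx hy) hxi1 (by
      rw [hval, h27q_chi_neg hπ, map_mul, map_mul, h27q_chi_inv hx, h, hxs, hys]
      norm_num)
    rw [← mul_assoc, inv_mul_cancel₀ hx, one_mul] at h1
    have h2 := h27q_inv hπ F hF1 hFE hx hx1 (Or.inr (by rw [h, hxs]; norm_num))
    rw [h2] at h1
    rw [h1]; abel

/-- (b'): `F (x ^ n) = n • F x` for a nonzero square `x`. -/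
lemma h27q_pow_sq (hπ : π % 4 = 3) (F : ZMod π → V) (hF1 : F 1 = 0)
    (hFE : ∀ x y : ZMod π, x ≠ 0 → y ≠ 0 → x ≠ y → IsSquare (y⁻¹ - x⁻¹) →
      F x - F y = F (x / y))
    {x : ZMod π} (hx : x ≠ 0) (hxs : quadraticChar (ZMod π) x = 1) (n : ℕ) :
    F (x ^ n) = n • F x := by
  induction n with
  | zero => simp [hF1]
  | succ n ih =>
    rw [pow_succ, h27q_add_sq hπ F hF1 hFE (pow_ne_zero n hx) hx
      (by rw [map_pow, hxs, one_pow]) hxs, ih, succ_nsmul]

/-- (b''): `F` vanishes on the nonzero squares. -/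
lemma h27q_zero_sq (hπ : π % 4 = 3) (hp : p.Prime) (hpπ : ¬ p ∣ π - 1)
    (hV : ∀ v : V, p • v = 0) (F : ZMod π → V) (hF1 : F 1 = 0)
    (hFE : ∀ x y : ZMod π, x ≠ 0 → y ≠ 0 → x ≠ y → IsSquare (y⁻¹ - x⁻¹) →
      F x - F y = F (x / y))
    {x : ZMod π} (hx : x ≠ 0) (hxs : quadraticChar (ZMod π) x = 1) :
    F x = 0 := by
  obtain ⟨y, rfl⟩ := (quadraticChar_one_iff_isSquare hx).mp hxs
  have hy : y ≠ 0 := by rintro rfl; simp at hx
  have hpow : (y * y) ^ ((π - 1) / 2) = 1 := by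
    have h2 : 2 ∣ π - 1 := by omega
    rw [← pow_two, ← pow_mul, Nat.mul_div_cancel' h2]
    exact ZMod.pow_card_sub_one_eq_one hy
  have h1 := h27q_pow_sq hπ F hF1 hFE hx hxs ((π - 1) / 2)
  rw [hpow, hF1] at h1
  have hd1 : addOrderOf (F (y * y)) ∣ (π - 1) / 2 :=
    addOrderOf_dvd_of_nsmul_eq_zero h1.symm
  have hd2 : addOrderOf (F (y * y)) ∣ p := addOrderOf_dvd_of_nsmul_eq_zero (hV _)
  have hcop : Nat.Coprime p ((π - 1) / 2) := by
    rw [Nat.Prime.coprime_iff_not_dvd hp]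
    intro h
    exact hpπ (h.trans (Nat.div_dvd_of_dvd (by omega)))
  have := Nat.eq_one_of_dvd_coprimes hcop hd2 hd1
  exact AddMonoid.addOrderOf_eq_one_iff.mp this

/-- (c): `F (x y) = F y` for `x` a nonzero square and `y` a non-square. -/
lemma h27q_sq_mul_nonsq (hπ : π % 4 = 3) (hp : p.Prime) (hpπ : ¬ p ∣ π - 1)
    (hV : ∀ v : V, p • v = 0) (F : ZMod π → V) (hF1 : F 1 = 0)
    (hFE : ∀ x y : ZMod π, x ≠ 0 → y ≠ 0 → x ≠ y → IsSquare (y⁻¹ - x⁻¹) →
      F x - F y = F (x / y))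
    {x y : ZMod π} (hx : x ≠ 0) (hy : y ≠ 0)
    (hxs : quadraticChar (ZMod π) x = 1) (hys : quadraticChar (ZMod π) y = -1) :
    F (x * y) = F y := by
  by_cases hx1 : x = 1
  · rw [hx1, one_mul]
  have hx1' : x - 1 ≠ 0 := sub_ne_zero.mpr hx1
  have hxi : x⁻¹ ≠ 0 := inv_ne_zero hx
  have hFx : F x = 0 := h27q_zero_sq hπ hp hpπ hV F hF1 hFE hx hxs
  have hFxi : F x⁻¹ = 0 :=
    h27q_zero_sq hπ hp hpπ hV F hF1 hFE hxi (by rw [h27q_chi_inv hx, hxs])
  rcases quadraticChar_dichotomy hx1' with h | h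
  · have hxi1 : x⁻¹ ≠ 1 := by
      intro h'; apply hx1; rw [← inv_inv x, h', inv_one]
    have hval : x⁻¹ - 1 = -((x - 1) * x⁻¹) := by field_simp; ring
    have h1 := h27q_star F hFE hxi (mul_ne_zero hx hy) hxi1 (by
      rw [hval, h27q_chi_neg hπ, map_mul, map_mul, h27q_chi_inv hx, h, hxs, hys]
      norm_num)
    rw [← mul_assoc, inv_mul_cancel₀ hx, one_mul, hFxi, zero_add] at h1
    exact h1.symm
  · have h1 := h27q_star F hFE hx hy hx1 (by rw [h, hxs, hys]; norm_num)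
    rw [h1, hFx, zero_add]

/-- There is a non-square `y` such that `y - 1` is a nonzero square. -/
lemma h27q_exists_nonsq (hπ : π % 4 = 3) :
    ∃ y : ZMod π, quadraticChar (ZMod π) y = -1 ∧ quadraticChar (ZMod π) (y - 1) = 1 := by
  by_contra hcon
  push Not at hcon
  have key : ∀ n : ℕ, quadraticChar (ZMod π) (-1 - (n : ZMod π)) = -1 := by
    intro n
    induction n with
    | zero => simpa using h27q_chi_neg_one hπ
    | succ n ih =>
      have h1 := hcon _ ih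
      have hne : -1 - (n : ZMod π) - 1 ≠ 0 := by
        intro h0
        have hy : -1 - (n : ZMod π) = 1 := by linear_combination h0
        rw [hy, map_one] at ih
        norm_num at ih
      rcases quadraticChar_dichotomy hne with h | h
      · exact absurd h h1
      · have : -1 - ((n + 1 : ℕ) : ZMod π) = -1 - (n : ZMod π) - 1 := by push_cast; ring
        rw [this]; exact h
  have h0 := key (π - 1)
  have hπ1 : 1 ≤ π := (Fact.out : π.Prime).one_lt.le
  have : -1 - ((π - 1 : ℕ) : ZMod π) = 0 := by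
    rw [Nat.cast_sub hπ1]; simp
  rw [this, quadraticChar_zero] at h0
  norm_num at h0

/-- **L-QUAD** (Step 6 of the abelianised CSP): the functional equation forces `F = 0`. -/
theorem h27q_quad (hπ : π % 4 = 3) (hp : p.Prime) (hp2 : p ≠ 2) (hpπ : ¬ p ∣ π - 1)
    (hV : ∀ v : V, p • v = 0) (F : ZMod π → V) (hF1 : F 1 = 0)
    (hFE : ∀ x y : ZMod π, x ≠ 0 → y ≠ 0 → x ≠ y → IsSquare (y⁻¹ - x⁻¹) →
      F x - F y = F (x / y)) :
    ∀ x : ZMod π, x ≠ 0 → F x = 0 := by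
  intro x hx
  rcases quadraticChar_dichotomy hx with hxs | hxs
  · exact h27q_zero_sq hπ hp hpπ hV F hF1 hFE hx hxs
  obtain ⟨y, hys, hy1⟩ := h27q_exists_nonsq (π := π) hπ
  have hy : y ≠ 0 := by
    rintro rfl; rw [quadraticChar_zero] at hys; norm_num at hys
  have hy1' : y ≠ 1 := by
    rintro rfl; rw [map_one] at hys; norm_num at hys
  have hyi : y⁻¹ ≠ 0 := inv_ne_zero hy
  -- `F` is constant on the non-squares
  have hconst : ∀ z w : ZMod π, z ≠ 0 → w ≠ 0 → quadraticChar (ZMod π) z = -1 →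
      quadraticChar (ZMod π) w = -1 → F z = F w := by
    intro z w hz hw hzs hws
    have h := h27q_sq_mul_nonsq hπ hp hpπ hV F hF1 hFE
      (x := z * w⁻¹) (y := w) (mul_ne_zero hz (inv_ne_zero hw)) hw
      (by rw [map_mul, h27q_chi_inv hw, hzs, hws]; norm_num) hws
    rw [mul_assoc, inv_mul_cancel₀ hw, mul_one] at h
    exact h
  have hinv := h27q_inv hπ F hF1 hFE hy hy1' (Or.inl hy1)
  have hsame := hconst y⁻¹ y hyi hy (by rw [h27q_chi_inv hy, hys]) hys
  have h2 : (2 : ℕ) • F y = 0 := by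
    rw [two_nsmul]
    nth_rewrite 1 [← hsame]
    rw [hinv]; abel
  have hd1 : addOrderOf (F y) ∣ 2 := addOrderOf_dvd_of_nsmul_eq_zero h2
  have hd2 : addOrderOf (F y) ∣ p := addOrderOf_dvd_of_nsmul_eq_zero (hV _)
  have hcop : Nat.Coprime p 2 := by
    rw [Nat.Prime.coprime_iff_not_dvd hp]
    intro h
    exact hp2 ((Nat.prime_dvd_prime_iff_eq hp Nat.prime_two).mp h)
  have hFy : F y = 0 :=
    AddMonoid.addOrderOf_eq_one_iff.mp (Nat.eq_one_of_dvd_coprimes hcop hd2 hd1)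
  rw [hconst x y hx hy hxs hys, hFy]

/-- **L-QUAD**, version on the units. -/
theorem h27q_quad_units (hπ : π % 4 = 3) (hp : p.Prime) (hp2 : p ≠ 2) (hpπ : ¬ p ∣ π - 1)
    (hV : ∀ v : V, p • v = 0) (F : (ZMod π)ˣ → V) (hF1 : F 1 = 0)
    (hFE : ∀ x y : (ZMod π)ˣ, x ≠ y → IsSquare ((y⁻¹ : (ZMod π)ˣ) - (x⁻¹ : (ZMod π)ˣ) : ZMod π) →
      F x - F y = F (x / y)) :
    ∀ x : (ZMod π)ˣ, F x = 0 := by
  classical
  let F' : ZMod π → V := fun x => if h : x ≠ 0 then F (Units.mk0 x h) else 0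
  have hF' : ∀ (x : ZMod π) (h : x ≠ 0), F' x = F (Units.mk0 x h) := by
    intro x h; simp only [F', dif_pos h]
  have key := h27q_quad hπ hp hp2 hpπ hV F' (by
      rw [hF' 1 one_ne_zero]
      have : Units.mk0 (1 : ZMod π) one_ne_zero = 1 := by ext; rfl
      rw [this, hF1]) (by
    intro x y hx hy hxy hsq
    rw [hF' x hx, hF' y hy, hF' (x / y) (div_ne_zero hx hy)]
    have h := hFE (Units.mk0 x hx) (Units.mk0 y hy)
      (by intro h; apply hxy; simpa using congrArg Units.val h)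
      (by simpa using hsq)
    rw [h]
    congr 1
    ext
    simp [div_eq_mul_inv])
  intro x
  have := key (x : ZMod π) x.ne_zero
  rw [hF' _ x.ne_zero] at this
  simpa using this

/-- **L-QUAD**, multiplicative version (values in a commutative group of exponent `p`). -/
theorem h27q_quad_mul {A : Type*} [CommGroup A] (hπ : π % 4 = 3) (hp : p.Prime) (hp2 : p ≠ 2)
    (hpπ : ¬ p ∣ π - 1) (hA : ∀ a : A, a ^ p = 1) (F : ZMod π → A) (hF1 : F 1 = 1)
    (hFE : ∀ x y : ZMod π, x ≠ 0 → y ≠ 0 → x ≠ y → IsSquare (y⁻¹ - x⁻¹) →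
      F x / F y = F (x / y)) :
    ∀ x : ZMod π, x ≠ 0 → F x = 1 := by
  intro x hx
  have := h27q_quad (V := Additive A) hπ hp hp2 hpπ
    (fun v => by
      have := hA (Additive.toMul v)
      exact congrArg Additive.ofMul this)
    (fun x => Additive.ofMul (F x)) (by rw [hF1]; rfl)
    (fun x y hx hy hxy hsq => by
      rw [← hFE x y hx hy hxy hsq]; rfl) x hx
  exact congrArg Additive.toMul this

end Quad

end Fermat.Agent.LR.CSP
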