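/-
P-LR (S41), CSP leaf (5) `h11_SymbolStatement` (Steps 4, 5, 7 of finding #724): the split into
three sub-leaves.  The symbol `ρ(a, b)` lives on pairs of INTEGERS; sub-leaves (5b), (5c) are
matrix free.
  (5a) `h81c_SymStatement` : the symbol exists (Step 4)            -- matrices, helper81
  (5b) `h81c_FEStatement`  : functional equation + L-QUAD (Step 5) -- integers only
  (5c) `h81c_EndStatement` : Dirichlet end game (Step 7)           -- integers only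
and `h81c_symbol_of : (5a) → (5b) → (5c) → h11_SymbolStatement`.
(helper81)
-/
import Fermat.Agent.LR.CSP.Leaves

namespace Fermat.Agent.LR

open Matrix CongruenceSubgroup

/-- The domain of the symbol of level `N`: `(a, b)` unimodular, `a ≡ 1`, `b ≡ 0 mod N`. -/
def h81c_Dom (N : ℕ) (a b : ℤ) : Prop :=
  IsCoprime a b ∧ (N : ℤ) ∣ a - 1 ∧ (N : ℤ) ∣ b

/-- The relations of the symbol `ρ(a, b) = F [[a, b], [*, *]]` (Step 4 of finding #724).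
`r5` is multiplicativity, read off on the first row of `x₂⁻¹ x₁`. -/
structure h81c_Symbol (N q : ℕ) {A : Type*} [CommGroup A] (ρ : ℤ → ℤ → A) : Prop where
  r1 : ∀ a b t : ℤ, h81c_Dom N a b → ρ a (b + N * t * a) = ρ a b
  r2 : ∀ a b t : ℤ, h81c_Dom N a b → ρ (a + t * b) b = ρ a b
  r3 : ∀ b : ℤ, (N : ℤ) ∣ b → ρ 1 b = 1
  r4 : ∀ m : ℕ, 0 < m → Nat.Coprime m q → ∀ a b : ℤ, h81c_Dom N a b →
    ((N * m : ℕ) : ℤ) ∣ a - 1 → ρ a ((m : ℤ) ^ 2 * b) = ρ a b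
  r5 : ∀ a₁ b c₁ d₁ a₂ c₂ d₂ : ℤ, a₁ * d₁ - b * c₁ = 1 → a₂ * d₂ - b * c₂ = 1 →
    (N : ℤ) ∣ a₁ - 1 → (N : ℤ) ∣ b → (N : ℤ) ∣ c₁ → (N : ℤ) ∣ d₁ - 1 →
    (N : ℤ) ∣ a₂ - 1 → (N : ℤ) ∣ c₂ → (N : ℤ) ∣ d₂ - 1 →
      ρ (a₁ * d₂ - b * c₁) (b * (d₂ - d₁)) = ρ a₁ b / ρ a₂ b

/-- **(5a) L-SYM (Step 4).** The symbol of `F` exists. -/
def h81c_SymStatement.{u} : Prop :=
  ∀ (N q : ℕ), 0 < N → ∀ (A : Type u) [CommGroup A] (F : h11_Z → A),
    (∀ x y, x ∈ Gamma N → y ∈ Gamma N → F (x * y) = F x * F y) →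
    (∀ x, x ∈ Gamma N → (x : Matrix (Fin 2) (Fin 2) ℤ).trace = 2 → F x = 1) →
    (∀ g x, x ∈ Gamma N → F (g * x * g⁻¹) = F x) →
    h11_DropProp N q F →
      ∃ ρ : ℤ → ℤ → A, h81c_Symbol N q ρ ∧ ∀ x, x ∈ Gamma N → F x = ρ (x 0 0) (x 0 1)

/-- The conclusion of Steps 5 + 6: the symbol vanishes on `(a, N π)` for the primes
`π ≡ 3 mod 4`, `p ∤ π - 1`, `π ∤ N q`. -/
def h81c_VanishAtPrimes (N p q : ℕ) {A : Type*} [CommGroup A] (ρ : ℤ → ℤ → A) : Prop :=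
  ∀ (π : ℕ), π.Prime → π % 4 = 3 → ¬ p ∣ π - 1 → ¬ π ∣ N → π ≠ q →
    ∀ a : ℤ, (N : ℤ) ∣ a - 1 → ¬ (π : ℤ) ∣ a → ρ a ((N : ℤ) * (π : ℤ)) = 1

/-- **(5b) L-FE (Steps 5 + 6, integers only).**  For a prime `π ∤ 2 N q` the function
`α ↦ ρ(a, N π)` (`a ≡ 1 mod N`, `a ≡ α mod π`) on `(ℤ/π)ˣ` is well defined (`r2`), is `1` at
`1` (`r3`) and satisfies the functional equation (`r5`, then `r4` with `m = N s`), so
`h9lr_quad_units` applies. -/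
def h81c_FEStatement.{u} : Prop :=
  ∀ (N p q : ℕ), 0 < N → p.Prime → p ≠ 2 → q.Prime → p ≠ q → Nat.Coprime N q →
    ∀ (A : Type u) [CommGroup A], (∀ a : A, a ^ p = 1) → ∀ (ρ : ℤ → ℤ → A),
      h81c_Symbol N q ρ → h81c_VanishAtPrimes N p q ρ

/-- **(5c) L-END (Step 7, integers only).**  Dirichlet end game: `r1`, `r2` and vanishing at
the good primes force `ρ = 1` on the whole domain. -/
def h81c_EndStatement.{u} : Prop :=
  ∀ (N p q : ℕ), 0 < N → p.Prime → p ≠ 2 → q.Prime → p ≠ q → Nat.Coprime N q →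
    ∀ (A : Type u) [CommGroup A] (ρ : ℤ → ℤ → A),
      (∀ a b t : ℤ, h81c_Dom N a b → ρ a (b + N * t * a) = ρ a b) →
      (∀ a b t : ℤ, h81c_Dom N a b → ρ (a + t * b) b = ρ a b) →
      h81c_VanishAtPrimes N p q ρ →
        ∀ a b : ℤ, h81c_Dom N a b → ρ a b = 1

/-- The first row of an element of `Γ(N)` lies in the domain of the symbol. -/
theorem h81c_dom_of_mem {N : ℕ} {x : h11_Z} (hx : x ∈ Gamma N) :
    h81c_Dom N (x 0 0) (x 0 1) := by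
  rw [Gamma_mem] at hx
  obtain ⟨h00, h01, -, -⟩ := hx
  refine ⟨?_, ?_, ?_⟩
  · have hdet : (x : Matrix (Fin 2) (Fin 2) ℤ).det = 1 := x.2
    rw [Matrix.det_fin_two] at hdet
    exact ⟨x 1 1, -(x 1 0), by linarith⟩
  · have : ((x 0 0 - 1 : ℤ) : ZMod N) = 0 := by push_cast; rw [h00]; ring
    exact (ZMod.intCast_zmod_eq_zero_iff_dvd _ N).mp this
  · exact (ZMod.intCast_zmod_eq_zero_iff_dvd _ N).mp h01

/-- **Assembly of leaf (5).** -/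
theorem h81c_symbol_of.{u} (h5a : h81c_SymStatement.{u}) (h5b : h81c_FEStatement.{u})
    (h5c : h81c_EndStatement.{u}) : h11_SymbolStatement.{u} := by
  intro N p q hN hp hp2 hq hpq hNq A _ hA F hmul hunip hcent hdrop x hx
  obtain ⟨ρ, hρ, hFρ⟩ := h5a N q hN A F hmul hunip hcent hdrop
  rw [hFρ x hx]
  exact h5c N p q hN hp hp2 hq hpq hNq A ρ hρ.r1 hρ.r2
    (h5b N p q hN hp hp2 hq hpq hNq A hA ρ hρ) _ _ (h81c_dom_of_mem hx)

end Fermat.Agent.LR
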