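/-
P-LR (S41), item (5c) CSP, sub-leaf (5b) L-FE (Steps 5 + 6 of finding #724): the symbol vanishes
at the primes `π ≡ 3 mod 4`, `p ∤ π - 1`.  Integers only.
(helper27)
-/
import Fermat.Agent.LR.CSP.H81SymDefs
import Fermat.Agent.LR.CSP.H27Quad

set_option autoImplicit false

namespace Fermat.Agent.LR

open Fermat.Agent.LR.CSP

section FE

variable {N q : ℕ} {A : Type*} [CommGroup A] {ρ : ℤ → ℤ → A}

/-- `a ≡ 1 mod N` and `π ∤ a` give `(a, N π)` in the domain of the symbol. -/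
theorem h27f_dom {π : ℕ} (hπ : π.Prime) {a : ℤ} (ha : (N : ℤ) ∣ a - 1) (haπ : ¬ (π : ℤ) ∣ a) :
    h81c_Dom N a ((N : ℤ) * (π : ℤ)) := by
  refine ⟨?_, ha, dvd_mul_right _ _⟩
  apply IsCoprime.mul_right
  · obtain ⟨k, hk⟩ := ha
    exact ⟨1, -k, by linear_combination hk⟩
  · have hp : Prime (π : ℤ) := Nat.prime_iff_prime_int.mp hπ
    exact ((Prime.coprime_iff_not_dvd hp).mpr haπ).symm

theorem h27f_not_dvd_iff {π : ℕ} (a : ℤ) : ¬ (π : ℤ) ∣ a ↔ (a : ZMod π) ≠ 0 := by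
  rw [Ne, ZMod.intCast_zmod_eq_zero_iff_dvd]

/-- The symbol `ρ(a, N π)` only depends on `a mod π` (for `a ≡ 1 mod N`). -/
theorem h27f_welldef (hρ : h81c_Symbol N q ρ) {π : ℕ} (hπ : π.Prime) (hπN : ¬ π ∣ N)
    {a a' : ℤ} (ha : (N : ℤ) ∣ a - 1) (ha' : (N : ℤ) ∣ a' - 1)
    (haa : (a : ZMod π) = (a' : ZMod π)) (haπ : ¬ (π : ℤ) ∣ a) :
    ρ a' ((N : ℤ) * (π : ℤ)) = ρ a ((N : ℤ) * (π : ℤ)) := by
  have h1 : (N : ℤ) ∣ a' - a := by
    have := dvd_sub ha' ha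
    simpa using this
  have h2 : (π : ℤ) ∣ a' - a := by
    rw [← ZMod.intCast_zmod_eq_zero_iff_dvd]
    push_cast
    rw [haa, sub_self]
  have hcop : IsCoprime (N : ℤ) (π : ℤ) := by
    have hp : Prime (π : ℤ) := Nat.prime_iff_prime_int.mp hπ
    refine ((Prime.coprime_iff_not_dvd hp).mpr ?_).symm
    intro h
    exact hπN (Int.natCast_dvd_natCast.mp h)
  obtain ⟨t, ht⟩ := hcop.mul_dvd h1 h2
  have := hρ.r2 a ((N : ℤ) * (π : ℤ)) t (h27f_dom hπ ha haπ)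
  rw [← this]
  congr 1
  linear_combination ht

/-- Integer representatives: `a ≡ 1 mod N`, `a ≡ α mod π`. -/
theorem h27f_exists_rep {π : ℕ} (hπ : π.Prime) (hπN : ¬ π ∣ N) (α : ZMod π) :
    ∃ a : ℤ, (N : ℤ) ∣ a - 1 ∧ (a : ZMod π) = α := by
  have : Fact π.Prime := ⟨hπ⟩
  have hcop : IsCoprime (N : ℤ) (π : ℤ) := by
    have hp : Prime (π : ℤ) := Nat.prime_iff_prime_int.mp hπ
    refine ((Prime.coprime_iff_not_dvd hp).mpr ?_).symm
    intro h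
    exact hπN (Int.natCast_dvd_natCast.mp h)
  obtain ⟨u, v, huv⟩ := hcop
  refine ⟨1 + ((α.val : ℤ) - 1) * (u * N), ⟨((α.val : ℤ) - 1) * u, by ring⟩, ?_⟩
  have h1 : ((u * N : ℤ) : ZMod π) = 1 := by
    have := congrArg (fun z : ℤ => (z : ZMod π)) huv
    simp only [Int.cast_add, Int.cast_mul, Int.cast_natCast, Int.cast_one,
      ZMod.natCast_self, mul_zero, add_zero] at this
    push_cast
    exact this
  push_cast at h1 ⊢
  rw [h1, ZMod.natCast_zmod_val]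
  ring

/-- Choice of `s` with `(N s)² ≡ ε mod π`, `s > 0` prime to `q`. -/
theorem h27f_exists_s {π : ℕ} (hπ : π.Prime) (hq : q.Prime) (hπq : π ≠ q) (hπN : ¬ π ∣ N)
    (ε : ZMod π) (hε : IsSquare ε) :
    ∃ s : ℕ, 0 < s ∧ Nat.Coprime s q ∧ (((N * s : ℕ) : ℕ) : ZMod π) ^ 2 = ε := by
  have : Fact π.Prime := ⟨hπ⟩
  obtain ⟨t, rfl⟩ := hε
  have hN0 : (N : ZMod π) ≠ 0 := by
    rw [Ne, ZMod.natCast_eq_zero_iff]; exact hπN
  have hco : Nat.Coprime π q := (Nat.coprime_primes hπ hq).mpr hπq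
  obtain ⟨s, hs1, hs2⟩ := Nat.chineseRemainder hco (t * (N : ZMod π)⁻¹).val 1
  have hsq : Nat.Coprime s q := by
    have := hs2.gcd_eq
    rw [Nat.Coprime, this]; simp
  refine ⟨s, ?_, hsq, ?_⟩
  · rcases Nat.eq_zero_or_pos s with h | h
    · exfalso
      rw [h, Nat.coprime_zero_left] at hsq
      exact hq.one_lt.ne' hsq
    · exact h
  · have h1 : (s : ZMod π) = t * (N : ZMod π)⁻¹ := by
      have := (ZMod.natCast_eq_natCast_iff _ _ _).mpr hs1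
      rw [this, ZMod.natCast_zmod_val]
    push_cast
    rw [h1]
    field_simp

/-- **(5b) L-FE** (Steps 5 + 6 of the abelianised CSP). -/
theorem h27f_fe.{u} : h81c_FEStatement.{u} := by
  intro N p q hN hp hp2 hq hpq hNq A _ hA ρ hρ π hπ hπ4 hpπ hπN hπq a ha haπ
  have : Fact π.Prime := ⟨hπ⟩
  -- the function `F` on `ZMod π`
  obtain ⟨F, hFdef⟩ : ∃ F : ZMod π → A, ∀ α, F α =
      ρ (Classical.choose (h27f_exists_rep (N := N) hπ hπN α)) ((N : ℤ) * (π : ℤ)) :=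
    ⟨_, fun _ => rfl⟩
  have hF : ∀ b : ℤ, (N : ℤ) ∣ b - 1 → ¬ (π : ℤ) ∣ b →
      ρ b ((N : ℤ) * (π : ℤ)) = F (b : ZMod π) := by
    intro b hb hbπ
    obtain ⟨h1, h2⟩ := Classical.choose_spec (h27f_exists_rep (N := N) hπ hπN (b : ZMod π))
    rw [hFdef]
    exact (h27f_welldef hρ hπ hπN hb h1 h2.symm hbπ).symm
  have hπ1 : ¬ (π : ℤ) ∣ 1 := by
    intro h
    have := Int.natCast_dvd_natCast.mp (by simpa using h : ((π : ℕ) : ℤ) ∣ ((1 : ℕ) : ℤ))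
    exact hπ.one_lt.ne' (Nat.dvd_one.mp this)
  have hF1 : F 1 = 1 := by
    have := hF 1 (by simp) hπ1
    rw [Int.cast_one] at this
    rw [← this]
    exact hρ.r3 _ (dvd_mul_right _ _)
  have hFE : ∀ x y : ZMod π, x ≠ 0 → y ≠ 0 → x ≠ y → IsSquare (y⁻¹ - x⁻¹) →
      F x / F y = F (x / y) := by
    intro x y hx hy hxy hsq
    obtain ⟨a1, ha1N, ha1x⟩ := h27f_exists_rep (N := N) hπ hπN x
    have ha1π : ¬ (π : ℤ) ∣ a1 := by rw [h27f_not_dvd_iff, ha1x]; exact hx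
    obtain ⟨s, hs0, hsq', hsε⟩ := h27f_exists_s (N := N) hπ hq hπq hπN _ hsq
    -- complete `a1` to a matrix
    have hd1 := h27f_dom (N := N) hπ ha1N ha1π
    have hcopN : IsCoprime a1 (N : ℤ) := by
      obtain ⟨k, hk⟩ := ha1N
      exact ⟨1, -k, by linear_combination hk⟩
    obtain ⟨d1, v1, h1⟩ := (hcopN.mul_right hd1.1 : IsCoprime a1 ((N : ℤ) * ((N : ℤ) * π)))
    have hm1 : a1 * d1 - ((N : ℤ) * π) * ((N : ℤ) * (-v1)) = 1 := by linear_combination h1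
    have hd1N : (N : ℤ) ∣ d1 - 1 := by
      obtain ⟨k, hk⟩ := ha1N
      exact ⟨-(d1 * k) - (N : ℤ) * π * v1, by linear_combination h1 - d1 * hk⟩
    have hd1x : (d1 : ZMod π) = x⁻¹ := by
      have := congrArg (fun z : ℤ => (z : ZMod π)) h1
      simp only [Int.cast_add, Int.cast_mul, Int.cast_natCast, Int.cast_one,
        ZMod.natCast_self, mul_zero, add_zero, ha1x] at this
      exact eq_inv_of_mul_eq_one_left this
    -- the second matrix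
    obtain ⟨e, he⟩ : ∃ e : ℤ, e = ((N * s : ℕ) : ℤ) ^ 2 := ⟨_, rfl⟩
    have heε : (e : ZMod π) = y⁻¹ - x⁻¹ := by
      rw [he, ← hsε]; push_cast; ring
    have heN : (N : ℤ) ∣ e := ⟨(N : ℤ) * (s : ℤ) ^ 2, by rw [he]; push_cast; ring⟩
    have hd2N : (N : ℤ) ∣ (d1 + e) - 1 := by
      have h3 := dvd_add hd1N heN
      have h4 : d1 - 1 + e = d1 + e - 1 := by ring
      rwa [h4] at h3
    have hd2y : ((d1 + e : ℤ) : ZMod π) = y⁻¹ := by
      push_cast; rw [hd1x, heε]; ring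
    have hd2π : ¬ (π : ℤ) ∣ d1 + e := by
      rw [h27f_not_dvd_iff, hd2y]; exact inv_ne_zero hy
    have hd2 := h27f_dom (N := N) hπ hd2N hd2π
    have hcopN2 : IsCoprime (d1 + e) (N : ℤ) := by
      obtain ⟨k, hk⟩ := hd2N
      exact ⟨1, -k, by linear_combination hk⟩
    obtain ⟨a2, v2, h2⟩ :=
      (hcopN2.mul_right hd2.1 : IsCoprime (d1 + e) ((N : ℤ) * ((N : ℤ) * π)))
    have hm2 : a2 * (d1 + e) - ((N : ℤ) * π) * ((N : ℤ) * (-v2)) = 1 := by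
      linear_combination h2
    have ha2N : (N : ℤ) ∣ a2 - 1 := by
      obtain ⟨k, hk⟩ := hd2N
      exact ⟨-(a2 * k) - (N : ℤ) * π * v2, by linear_combination h2 - a2 * hk⟩
    have ha2y : (a2 : ZMod π) = y := by
      have := congrArg (fun z : ℤ => (z : ZMod π)) h2
      simp only [Int.cast_add, Int.cast_mul, Int.cast_natCast, Int.cast_one,
        ZMod.natCast_self, mul_zero, add_zero] at this
      rw [show ((d1 : ZMod π) + (e : ZMod π)) = y⁻¹ by rw [← hd2y]; push_cast; ring] at this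
      have h3 := eq_inv_of_mul_eq_one_left this
      rw [inv_inv] at h3
      exact h3
    have ha2π : ¬ (π : ℤ) ∣ a2 := by rw [h27f_not_dvd_iff, ha2y]; exact hy
    -- multiplicativity (r5)
    have h5 := hρ.r5 a1 ((N : ℤ) * π) ((N : ℤ) * (-v1)) d1 a2 ((N : ℤ) * (-v2)) (d1 + e)
      hm1 hm2 ha1N (dvd_mul_right _ _) (dvd_mul_right _ _) hd1N ha2N (dvd_mul_right _ _) hd2N
    -- the new first entry
    obtain ⟨Av, hAv⟩ : ∃ Av : ℤ, Av = 1 + a1 * e := ⟨_, rfl⟩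
    have hA1 : a1 * (d1 + e) - (N : ℤ) * π * ((N : ℤ) * (-v1)) = Av := by
      rw [hAv]; linear_combination h1
    have hA2 : (N : ℤ) * π * (d1 + e - d1) = ((N * s : ℕ) : ℤ) ^ 2 * ((N : ℤ) * π) := by
      rw [← he]; ring
    rw [hA1, hA2] at h5
    have hAvN : (N : ℤ) ∣ Av - 1 := by
      obtain ⟨k, hk⟩ := heN
      exact ⟨a1 * k, by rw [hAv, hk]; ring⟩
    have hAvx : (Av : ZMod π) = x / y := by
      rw [hAv]; push_cast; rw [ha1x, heε]; field_simp; ring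
    have hAvπ : ¬ (π : ℤ) ∣ Av := by
      rw [h27f_not_dvd_iff, hAvx]; exact div_ne_zero hx hy
    have hAvNm : ((N * (N * s) : ℕ) : ℤ) ∣ Av - 1 := by
      refine ⟨a1 * s, ?_⟩
      rw [hAv, he]; push_cast; ring
    have h4 := hρ.r4 (N * s) (Nat.mul_pos hN hs0) (Nat.Coprime.mul_left hNq hsq') Av
      ((N : ℤ) * π) (h27f_dom (N := N) hπ hAvN hAvπ) hAvNm
    rw [h4] at h5
    rw [← ha1x, ← ha2y, ← hF a1 ha1N ha1π, ← hF a2 ha2N ha2π, ← h5, hF Av hAvN hAvπ, hAvx,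
      ha1x, ha2y]
  have key := h27q_quad_mul (π := π) hπ4 hp hp2 hpπ hA F hF1 hFE
  rw [hF a ha haπ]
  exact key _ ((h27f_not_dvd_iff a).mp haπ)

end FE

end Fermat.Agent.LR
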