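import Fermat.Agent.LR.CSP.H81SymDefs

/-!
# P-LR / LR-CSP leaf (5c) L-END (helper40): the Dirichlet end game

Step 7 of finding #724 in the frozen shape `h81c_EndStatement` of `LR/CSP/H81SymDefs.lean`:
a symbol `ρ` with the relations `r1`, `r2` that vanishes at `(a, N π)` for the good primes `π`
is trivial on its whole domain.

Proof: by `r2` make `a` prime to `2 p`; Dirichlet gives a large prime `π` with
`π ≡ b / N mod a`, `π ≡ 3 mod 4`, `π ≡ 2 mod p`; then `N π = b + N t a` and `r1` applies.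
-/

set_option autoImplicit false

namespace Fermat.Agent.LR

universe u

/-- The Chinese remainder theorem for two coprime moduli. -/
lemma h40e_crt {m₁ m₂ : ℤ} (h : IsCoprime m₁ m₂) (r₁ r₂ : ℤ) :
    ∃ c : ℤ, m₁ ∣ c - r₁ ∧ m₂ ∣ c - r₂ := by
  obtain ⟨x, y, hxy⟩ := h
  refine ⟨r₁ * (y * m₂) + r₂ * (x * m₁), ⟨x * (r₂ - r₁), ?_⟩, ⟨y * (r₁ - r₂), ?_⟩⟩
  · linear_combination r₁ * hxy
  · linear_combination r₂ * hxy

lemma h40e_coprime_of_dvd_sub {c r m : ℤ} (h : IsCoprime r m) (hd : m ∣ c - r) :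
    IsCoprime c m := by
  obtain ⟨e, he⟩ := hd
  have h1 : c = r + m * e := by linarith
  rw [h1]
  exact h.add_mul_left_left e

/-- `a + t b` can be made prime to `2` and to the odd prime `p`. -/
lemma h40e_shift {p : ℕ} (hp : p.Prime) (hp2 : p ≠ 2) {a b : ℤ} (hab : IsCoprime a b) :
    ∃ t : ℤ, ¬ (2 : ℤ) ∣ a + t * b ∧ ¬ (p : ℤ) ∣ a + t * b := by
  have hpi : Prime (p : ℤ) := Nat.prime_iff_prime_int.1 hp
  have h2i : Prime (2 : ℤ) := Int.prime_two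
  have hp_odd : ¬ (2 : ℤ) ∣ (p : ℤ) := by
    intro h
    have h1 : (2 : ℕ) ∣ p := by exact_mod_cast h
    exact hp2 ((Nat.prime_dvd_prime_iff_eq Nat.prime_two hp).1 h1).symm
  have h2p : ¬ (p : ℤ) ∣ (2 : ℤ) := by
    intro h
    have h1 : p ∣ 2 := by exact_mod_cast h
    exact hp2 ((Nat.prime_dvd_prime_iff_eq hp Nat.prime_two).1 h1)
  have hnb : ∀ ℓ : ℤ, Prime ℓ → ℓ ∣ a → ¬ ℓ ∣ b := by
    intro ℓ hℓ ha hb
    exact hℓ.not_isUnit (hab.isUnit_of_dvd' ha hb)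
  by_cases h2a : (2 : ℤ) ∣ a <;> by_cases hpa : (p : ℤ) ∣ a
  · refine ⟨1, ?_, ?_⟩
    · rw [one_mul, dvd_add_right h2a]
      exact hnb 2 h2i h2a
    · rw [one_mul, dvd_add_right hpa]
      exact hnb _ hpi hpa
  · refine ⟨p, ?_, ?_⟩
    · rw [dvd_add_right h2a]
      intro h
      rcases h2i.dvd_or_dvd h with h | h
      · exact hp_odd h
      · exact hnb 2 h2i h2a h
    · rw [dvd_add_left (dvd_mul_right _ _)]
      exact hpa
  · refine ⟨2, ?_, ?_⟩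
    · rw [dvd_add_left (dvd_mul_right _ _)]
      exact h2a
    · rw [dvd_add_right hpa]
      intro h
      rcases hpi.dvd_or_dvd h with h | h
      · exact h2p h
      · exact hnb _ hpi hpa h
  · refine ⟨2 * p, ?_, ?_⟩
    · rw [dvd_add_left (Dvd.dvd.mul_right (dvd_mul_right _ _) _)]
      exact h2a
    · rw [dvd_add_left (Dvd.dvd.mul_right (dvd_mul_left _ _) _)]
      exact hpa

/-- **(5c) L-END.** -/
theorem h40e_end : h81c_EndStatement.{u} := by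
  intro N p q hN hp hp2 hq _hpq _hNq A _ ρ r1 r2 hvan a b hdom
  obtain ⟨hab, hNa, hNb⟩ := hdom
  have hpi : Prime (p : ℤ) := Nat.prime_iff_prime_int.1 hp
  -- Step 1: make `a` prime to `2 p`
  obtain ⟨t₁, h2a, hpa⟩ := h40e_shift hp hp2 hab
  obtain ⟨a₁, ha₁⟩ : ∃ a₁ : ℤ, a₁ = a + t₁ * b := ⟨_, rfl⟩
  rw [← ha₁] at h2a hpa
  have hρ1 : ρ a₁ b = ρ a b := by
    rw [ha₁]
    exact r2 a b t₁ ⟨hab, hNa, hNb⟩
  have ha₁b : IsCoprime a₁ b := by
    rw [ha₁]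
    exact hab.add_mul_right_left t₁
  have hNa₁ : (N : ℤ) ∣ a₁ - 1 := by
    have h1 : a₁ - 1 = (a - 1) + t₁ * b := by rw [ha₁]; ring
    rw [h1]
    exact dvd_add hNa (Dvd.dvd.mul_left hNb _)
  have hdom₁ : h81c_Dom N a₁ b := ⟨ha₁b, hNa₁, hNb⟩
  have ha₁0 : a₁ ≠ 0 := by
    intro h
    rw [h] at h2a
    exact h2a (dvd_zero _)
  -- Step 2: the residue class
  obtain ⟨b₀, hb₀⟩ := hNb
  have hb₀a : IsCoprime b₀ a₁ := by
    have h1 : IsCoprime ((N : ℤ) * b₀) a₁ := by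
      rw [← hb₀]
      exact ha₁b.symm
    exact h1.of_mul_left_right
  have h4p : IsCoprime (4 : ℤ) (p : ℤ) := by
    have h1 : IsCoprime (2 : ℤ) (p : ℤ) := by
      rw [Int.prime_two.irreducible.coprime_iff_not_dvd]
      intro h
      have h2 : (2 : ℕ) ∣ p := by exact_mod_cast h
      exact hp2 ((Nat.prime_dvd_prime_iff_eq Nat.prime_two hp).1 h2).symm
    have h2 : (4 : ℤ) = 2 * 2 := by norm_num
    rw [h2]
    exact h1.mul_left h1
  obtain ⟨c₁, hc₁4, hc₁p⟩ := h40e_crt h4p 3 2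
  have ha₁2 : IsCoprime a₁ (2 : ℤ) := by
    rw [isCoprime_comm, Int.prime_two.irreducible.coprime_iff_not_dvd]
    exact h2a
  have ha₁p : IsCoprime a₁ (p : ℤ) := by
    rw [isCoprime_comm, hpi.irreducible.coprime_iff_not_dvd]
    exact hpa
  have ha₁4p : IsCoprime a₁ ((4 : ℤ) * (p : ℤ)) := by
    have h2 : (4 : ℤ) = 2 * 2 := by norm_num
    rw [h2]
    exact (ha₁2.mul_right ha₁2).mul_right ha₁p
  obtain ⟨c, hca, hc4p⟩ := h40e_crt ha₁4p b₀ c₁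
  have hc4 : (4 : ℤ) ∣ c - 3 := by
    have h1 : c - 3 = (c - c₁) + (c₁ - 3) := by ring
    rw [h1]
    exact dvd_add ((dvd_mul_right _ _).trans hc4p) hc₁4
  have hcp : (p : ℤ) ∣ c - 2 := by
    have h1 : c - 2 = (c - c₁) + (c₁ - 2) := by ring
    rw [h1]
    exact dvd_add ((dvd_mul_left _ _).trans hc4p) hc₁p
  have hcopa : IsCoprime c a₁ := h40e_coprime_of_dvd_sub hb₀a hca
  have hcop4 : IsCoprime c (4 : ℤ) := by
    apply h40e_coprime_of_dvd_sub _ hc4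
    exact ⟨-1, 1, by norm_num⟩
  have hcopp : IsCoprime c (p : ℤ) := by
    apply h40e_coprime_of_dvd_sub _ hcp
    rw [Int.prime_two.irreducible.coprime_iff_not_dvd]
    intro h
    have h2 : (2 : ℕ) ∣ p := by exact_mod_cast h
    exact hp2 ((Nat.prime_dvd_prime_iff_eq Nat.prime_two hp).1 h2).symm
  -- the modulus
  have hA1 : 0 < a₁.natAbs := Int.natAbs_pos.2 ha₁0
  have habs : ((a₁.natAbs : ℕ) : ℤ) ∣ a₁ ∧ a₁ ∣ ((a₁.natAbs : ℕ) : ℤ) := by
    rcases Int.natAbs_eq a₁ with h | h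
    · rw [← h]
      exact ⟨dvd_refl _, dvd_refl _⟩
    · have h1 : ((a₁.natAbs : ℕ) : ℤ) = -a₁ := by omega
      rw [h1]
      exact ⟨(neg_dvd).2 (dvd_refl _), (dvd_neg).2 (dvd_refl _)⟩
  have hcopA : IsCoprime c ((a₁.natAbs : ℕ) : ℤ) := hcopa.of_isCoprime_of_dvd_right habs.1
  have hcM : IsCoprime c ((a₁.natAbs * (4 * p) : ℕ) : ℤ) := by
    have h1 : ((a₁.natAbs * (4 * p) : ℕ) : ℤ) = ((a₁.natAbs : ℕ) : ℤ) * ((4 : ℤ) * (p : ℤ)) := by
      simp only [Nat.cast_mul, Nat.cast_ofNat]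
    rw [h1]
    exact hcopA.mul_right (hcop4.mul_right hcopp)
  have hM : a₁.natAbs * (4 * p) ≠ 0 :=
    Nat.mul_ne_zero hA1.ne' (Nat.mul_ne_zero (by norm_num) hp.ne_zero)
  obtain ⟨π, hπgt, hπp, hπc⟩ :=
    Nat.forall_exists_prime_gt_and_zmodEq (a₁.natAbs + N + q + p + 4) hM hcM
  have hπM : ((a₁.natAbs * (4 * p) : ℕ) : ℤ) ∣ (π : ℤ) - c := Int.modEq_iff_dvd.1 hπc.symm
  have hπa : a₁ ∣ (π : ℤ) - b₀ := by
    have h1 : a₁ ∣ (π : ℤ) - c := by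
      refine habs.2.trans (Dvd.dvd.trans ?_ hπM)
      push_cast
      exact dvd_mul_right _ _
    have h2 : (π : ℤ) - b₀ = ((π : ℤ) - c) + (c - b₀) := by ring
    rw [h2]
    exact dvd_add h1 hca
  have hπ4 : (4 : ℤ) ∣ (π : ℤ) - 3 := by
    have h1 : (4 : ℤ) ∣ (π : ℤ) - c := by
      refine Dvd.dvd.trans ?_ hπM
      push_cast
      exact Dvd.dvd.mul_left (dvd_mul_right _ _) _
    have h2 : (π : ℤ) - 3 = ((π : ℤ) - c) + (c - 3) := by ring
    rw [h2]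
    exact dvd_add h1 hc4
  have hπp2 : (p : ℤ) ∣ (π : ℤ) - 2 := by
    have h1 : (p : ℤ) ∣ (π : ℤ) - c := by
      refine Dvd.dvd.trans ?_ hπM
      push_cast
      exact Dvd.dvd.mul_left (dvd_mul_left _ _) _
    have h2 : (π : ℤ) - 2 = ((π : ℤ) - c) + (c - 2) := by ring
    rw [h2]
    exact dvd_add h1 hcp
  -- the conditions on `π`
  have hπmod : π % 4 = 3 := by
    obtain ⟨e, he⟩ := hπ4
    omega
  have hpπ : ¬ p ∣ π - 1 := by
    intro h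
    have h1 : (p : ℤ) ∣ ((π - 1 : ℕ) : ℤ) := Int.natCast_dvd_natCast.2 h
    have h2 : ((π - 1 : ℕ) : ℤ) = (π : ℤ) - 1 := by
      have := hπp.one_le
      omega
    rw [h2] at h1
    have h3 : (p : ℤ) ∣ ((π : ℤ) - 1) - ((π : ℤ) - 2) := dvd_sub h1 hπp2
    have h4 : ((π : ℤ) - 1) - ((π : ℤ) - 2) = 1 := by ring
    rw [h4] at h3
    exact hpi.not_isUnit (isUnit_of_dvd_one h3)
  have hπN : ¬ π ∣ N := fun h => by
    have := Nat.le_of_dvd hN h
    omega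
  have hπq : π ≠ q := by omega
  have hπa₁ : ¬ (π : ℤ) ∣ a₁ := by
    intro h
    have h1 : π ∣ a₁.natAbs := Int.natCast_dvd.1 h
    have := Nat.le_of_dvd hA1 h1
    omega
  -- Step 3: conclude
  obtain ⟨e, he⟩ := hπa
  have h1 : (N : ℤ) * (π : ℤ) = b + N * e * a₁ := by
    rw [hb₀]
    have : (π : ℤ) = b₀ + a₁ * e := by linarith
    rw [this]
    ring
  have h2 := hvan π hπp hπmod hpπ hπN hπq a₁ hNa₁ hπa₁
  rw [h1, r1 a₁ b e hdom₁, hρ1] at h2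
  exact h2

end Fermat.Agent.LR
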