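/-
P-LR (S41), CSP sub-leaf (5a) `h81c_SymStatement` (Step 4 of finding #724): the symbol
`ρ(a, b) = F [[a, b], [*, *]]` of a function `F` on `SL(2, ℤ)` which is multiplicative on `Γ(N)`,
kills the unipotent elements of `Γ(N)`, is `SL(2, ℤ)`-conjugation invariant on `Γ(N)` and has the
square dropping property.  (helper81)
-/
import Fermat.Agent.LR.CSP.H81SymDefs

namespace Fermat.Agent.LR

open Matrix CongruenceSubgroup

@[simp] theorem h81c_mkZ_00 (a b c d : ℤ) (h : a * d - b * c = 1) :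
    (h11_mkZ a b c d h) 0 0 = a := rfl
@[simp] theorem h81c_mkZ_01 (a b c d : ℤ) (h : a * d - b * c = 1) :
    (h11_mkZ a b c d h) 0 1 = b := rfl
@[simp] theorem h81c_mkZ_10 (a b c d : ℤ) (h : a * d - b * c = 1) :
    (h11_mkZ a b c d h) 1 0 = c := rfl
@[simp] theorem h81c_mkZ_11 (a b c d : ℤ) (h : a * d - b * c = 1) :
    (h11_mkZ a b c d h) 1 1 = d := rfl

theorem h81c_mem_iff {N : ℕ} (x : h11_Z) :
    x ∈ Gamma N ↔ (N : ℤ) ∣ x 0 0 - 1 ∧ (N : ℤ) ∣ x 0 1 ∧ (N : ℤ) ∣ x 1 0 ∧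
      (N : ℤ) ∣ x 1 1 - 1 := by
  rw [Gamma_mem]
  have e1 : ∀ z : ℤ, ((z : ZMod N) = 1 ↔ (N : ℤ) ∣ z - 1) := by
    intro z
    rw [← ZMod.intCast_zmod_eq_zero_iff_dvd]
    push_cast
    exact sub_eq_zero.symm
  have e0 : ∀ z : ℤ, ((z : ZMod N) = 0 ↔ (N : ℤ) ∣ z) := fun z =>
    ZMod.intCast_zmod_eq_zero_iff_dvd z N
  rw [e1, e0, e0, e1]

theorem h81c_mkZ_mem {N : ℕ} {a b c d : ℤ} (h : a * d - b * c = 1) (ha : (N : ℤ) ∣ a - 1)
    (hb : (N : ℤ) ∣ b) (hc : (N : ℤ) ∣ c) (hd : (N : ℤ) ∣ d - 1) :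
    h11_mkZ a b c d h ∈ Gamma N := by
  rw [h81c_mem_iff]
  exact ⟨ha, hb, hc, hd⟩

theorem h81c_det (x : h11_Z) : x 0 0 * x 1 1 - x 0 1 * x 1 0 = 1 := by
  have hdet : (x : Matrix (Fin 2) (Fin 2) ℤ).det = 1 := x.2
  rw [Matrix.det_fin_two] at hdet
  exact hdet

theorem h81c_mul_00 (x y : h11_Z) : (x * y) 0 0 = x 0 0 * y 0 0 + x 0 1 * y 1 0 := by
  rw [Matrix.SpecialLinearGroup.coe_mul, Matrix.mul_apply, Fin.sum_univ_two]
theorem h81c_mul_01 (x y : h11_Z) : (x * y) 0 1 = x 0 0 * y 0 1 + x 0 1 * y 1 1 := by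
  rw [Matrix.SpecialLinearGroup.coe_mul, Matrix.mul_apply, Fin.sum_univ_two]
theorem h81c_mul_10 (x y : h11_Z) : (x * y) 1 0 = x 1 0 * y 0 0 + x 1 1 * y 1 0 := by
  rw [Matrix.SpecialLinearGroup.coe_mul, Matrix.mul_apply, Fin.sum_univ_two]
theorem h81c_mul_11 (x y : h11_Z) : (x * y) 1 1 = x 1 0 * y 0 1 + x 1 1 * y 1 1 := by
  rw [Matrix.SpecialLinearGroup.coe_mul, Matrix.mul_apply, Fin.sum_univ_two]

theorem h81c_inv_00 (x : h11_Z) : (x⁻¹ : h11_Z) 0 0 = x 1 1 := by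
  rw [Matrix.SpecialLinearGroup.coe_inv, Matrix.adjugate_fin_two]; simp
theorem h81c_inv_01 (x : h11_Z) : (x⁻¹ : h11_Z) 0 1 = - x 0 1 := by
  rw [Matrix.SpecialLinearGroup.coe_inv, Matrix.adjugate_fin_two]; simp
theorem h81c_inv_10 (x : h11_Z) : (x⁻¹ : h11_Z) 1 0 = - x 1 0 := by
  rw [Matrix.SpecialLinearGroup.coe_inv, Matrix.adjugate_fin_two]; simp
theorem h81c_inv_11 (x : h11_Z) : (x⁻¹ : h11_Z) 1 1 = x 0 0 := by
  rw [Matrix.SpecialLinearGroup.coe_inv, Matrix.adjugate_fin_two]; simp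

theorem h81c_trace (x : h11_Z) :
    (x : Matrix (Fin 2) (Fin 2) ℤ).trace = x 0 0 + x 1 1 := by
  rw [Matrix.trace_fin_two]

/-- Completion of a first row `(a, b)` to a matrix with lower left entry divisible by `K`,
for `K` prime to `a`. -/
theorem h81c_complete {a b K : ℤ} (hab : IsCoprime a b) (haK : IsCoprime a K) :
    ∃ c d : ℤ, a * d - b * (K * c) = 1 := by
  obtain ⟨u, v, huv⟩ := (hab.mul_right haK : IsCoprime a (b * K))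
  exact ⟨-v, u, by linarith⟩

theorem h81c_coprime_of_dvd_sub_one {a K : ℤ} (h : K ∣ a - 1) : IsCoprime a K := by
  obtain ⟨k, hk⟩ := h
  exact ⟨1, -k, by linarith⟩

/-- Existence of an element of `Γ(N)` with prescribed first row. -/
theorem h81c_exists_row {N : ℕ} {a b : ℤ} (h : h81c_Dom N a b) :
    ∃ x : h11_Z, x ∈ Gamma N ∧ x 0 0 = a ∧ x 0 1 = b := by
  obtain ⟨hab, ha, hb⟩ := h
  obtain ⟨c, d, hcd⟩ := h81c_complete hab (h81c_coprime_of_dvd_sub_one ha)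
  refine ⟨h11_mkZ a b ((N : ℤ) * c) d hcd, h81c_mkZ_mem hcd ha hb (dvd_mul_right _ _) ?_, rfl, rfl⟩
  obtain ⟨k, hk⟩ := ha
  obtain ⟨l, hl⟩ := hb
  refine ⟨l * ((N : ℤ) * c) - k * d, ?_⟩
  have ha' : a = 1 + N * k := by linarith
  rw [ha', hl] at hcd
  linarith

section sym

variable {N : ℕ} {A : Type*} [CommGroup A] {F : h11_Z → A}

theorem h81c_F_one (hunip : ∀ x, x ∈ Gamma N → (x : Matrix (Fin 2) (Fin 2) ℤ).trace = 2 → F x = 1) :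
    F 1 = 1 := by
  apply hunip 1 (one_mem _)
  rw [h81c_trace]
  simp

theorem h81c_F_inv
    (hmul : ∀ x y, x ∈ Gamma N → y ∈ Gamma N → F (x * y) = F x * F y)
    (hunip : ∀ x, x ∈ Gamma N → (x : Matrix (Fin 2) (Fin 2) ℤ).trace = 2 → F x = 1)
    {x : h11_Z} (hx : x ∈ Gamma N) : F x⁻¹ = (F x)⁻¹ := by
  have h := hmul x⁻¹ x (inv_mem hx) hx
  rw [inv_mul_cancel, h81c_F_one hunip] at h
  exact eq_inv_of_mul_eq_one_left h.symm

/-- Well-definedness of the symbol: `F` on `Γ(N)` depends on the first row only. -/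
theorem h81c_F_row
    (hmul : ∀ x y, x ∈ Gamma N → y ∈ Gamma N → F (x * y) = F x * F y)
    (hunip : ∀ x, x ∈ Gamma N → (x : Matrix (Fin 2) (Fin 2) ℤ).trace = 2 → F x = 1)
    {x y : h11_Z} (hx : x ∈ Gamma N) (hy : y ∈ Gamma N) (h0 : x 0 0 = y 0 0)
    (h1 : x 0 1 = y 0 1) : F x = F y := by
  have hz : y * x⁻¹ ∈ Gamma N := mul_mem hy (inv_mem hx)
  have htr : ((y * x⁻¹ : h11_Z) : Matrix (Fin 2) (Fin 2) ℤ).trace = 2 := by
    rw [h81c_trace, h81c_mul_00, h81c_mul_11, h81c_inv_00, h81c_inv_10, h81c_inv_01, h81c_inv_11]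
    have dx := h81c_det x
    have dy := h81c_det y
    rw [h0, h1] at dx
    rw [h0, h1]
    linarith
  have e : y = (y * x⁻¹) * x := by group
  rw [e, hmul _ _ hz hx, hunip _ hz htr, one_mul]

end sym

open Classical in
/-- The symbol of `F`. -/
noncomputable def h81c_rho (N : ℕ) {A : Type*} [CommGroup A] (F : h11_Z → A) (a b : ℤ) : A :=
  if h : ∃ x : h11_Z, x ∈ Gamma N ∧ x 0 0 = a ∧ x 0 1 = b then F h.choose else 1

theorem h81c_rho_eq {N : ℕ} {A : Type*} [CommGroup A] {F : h11_Z → A}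
    (hmul : ∀ x y, x ∈ Gamma N → y ∈ Gamma N → F (x * y) = F x * F y)
    (hunip : ∀ x, x ∈ Gamma N → (x : Matrix (Fin 2) (Fin 2) ℤ).trace = 2 → F x = 1)
    {x : h11_Z} (hx : x ∈ Gamma N) {a b : ℤ} (ha : x 0 0 = a) (hb : x 0 1 = b) :
    h81c_rho N F a b = F x := by
  have h : ∃ x : h11_Z, x ∈ Gamma N ∧ x 0 0 = a ∧ x 0 1 = b := ⟨x, hx, ha, hb⟩
  unfold h81c_rho
  rw [dif_pos h]
  obtain ⟨h1, h2, h3⟩ := h.choose_spec
  exact h81c_F_row hmul hunip h1 hx (h2.trans ha.symm) (h3.trans hb.symm)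

theorem h81c_UZ_mem {N : ℕ} {t : ℤ} (h : (N : ℤ) ∣ t) : h11_UZ t ∈ Gamma N :=
  h81c_mkZ_mem _ (by simp) h (by simp) (by simp)

theorem h81c_UZ_trace (t : ℤ) : ((h11_UZ t : h11_Z) : Matrix (Fin 2) (Fin 2) ℤ).trace = 2 := by
  rw [h81c_trace]
  show (h11_mkZ 1 t 0 1 _) 0 0 + (h11_mkZ 1 t 0 1 _) 1 1 = 2
  rw [h81c_mkZ_00, h81c_mkZ_11]
  norm_num

/-- **(5a) L-SYM.** -/
theorem h81c_sym.{u} : h81c_SymStatement.{u} := by
  intro N q hN A _ F hmul hunip hcent hdrop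
  refine ⟨h81c_rho N F, ⟨?_, ?_, ?_, ?_, ?_⟩, ?_⟩
  · -- r1
    intro a b t hD
    obtain ⟨x, hx, rfl, rfl⟩ := h81c_exists_row hD
    have hu : h11_UZ ((N : ℤ) * t) ∈ Gamma N := h81c_UZ_mem (dvd_mul_right _ _)
    have hy : x * h11_UZ ((N : ℤ) * t) ∈ Gamma N := mul_mem hx hu
    rw [h81c_rho_eq hmul hunip hx rfl rfl,
      h81c_rho_eq hmul hunip hy (a := x 0 0) (b := x 0 1 + N * t * x 0 0)
        (by rw [h81c_mul_00]; show x 0 0 * (h11_mkZ 1 _ 0 1 _) 0 0 + x 0 1 *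
              (h11_mkZ 1 _ 0 1 _) 1 0 = _
            rw [h81c_mkZ_00, h81c_mkZ_10]; ring)
        (by rw [h81c_mul_01]; show x 0 0 * (h11_mkZ 1 _ 0 1 _) 0 1 + x 0 1 *
              (h11_mkZ 1 _ 0 1 _) 1 1 = _
            rw [h81c_mkZ_01, h81c_mkZ_11]; ring),
      hmul _ _ hx hu, hunip _ hu (h81c_UZ_trace _), mul_one]
  · -- r2
    intro a b t hD
    obtain ⟨x, hx, rfl, rfl⟩ := h81c_exists_row hD
    have hy : h11_LZ (-t) * x * (h11_LZ (-t))⁻¹ ∈ Gamma N :=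
      (Gamma_normal N).conj_mem x hx _
    rw [h81c_rho_eq hmul hunip hx rfl rfl,
      h81c_rho_eq hmul hunip hy (a := x 0 0 + t * x 0 1) (b := x 0 1)
        (by rw [h81c_mul_00, h81c_mul_00, h81c_mul_01, h81c_inv_00, h81c_inv_10]
            show ((h11_mkZ 1 0 _ 1 _) 0 0 * x 0 0 + (h11_mkZ 1 0 _ 1 _) 0 1 * x 1 0) *
              (h11_mkZ 1 0 _ 1 _) 1 1 + ((h11_mkZ 1 0 _ 1 _) 0 0 * x 0 1 +
              (h11_mkZ 1 0 _ 1 _) 0 1 * x 1 1) * -(h11_mkZ 1 0 _ 1 _) 1 0 = _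
            rw [h81c_mkZ_00, h81c_mkZ_01, h81c_mkZ_10, h81c_mkZ_11]; ring)
        (by rw [h81c_mul_01, h81c_mul_00, h81c_mul_01, h81c_inv_01, h81c_inv_11]
            show ((h11_mkZ 1 0 _ 1 _) 0 0 * x 0 0 + (h11_mkZ 1 0 _ 1 _) 0 1 * x 1 0) *
              -(h11_mkZ 1 0 _ 1 _) 0 1 + ((h11_mkZ 1 0 _ 1 _) 0 0 * x 0 1 +
              (h11_mkZ 1 0 _ 1 _) 0 1 * x 1 1) * (h11_mkZ 1 0 _ 1 _) 0 0 = _
            rw [h81c_mkZ_00, h81c_mkZ_01]; ring),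
      hcent _ _ hx]
  · -- r3
    intro b hb
    have hu : h11_UZ b ∈ Gamma N := h81c_UZ_mem hb
    rw [h81c_rho_eq hmul hunip hu (a := 1) (b := b) rfl rfl, hunip _ hu (h81c_UZ_trace _)]
  · -- r4
    intro m hm hmq a b hD hNm
    obtain ⟨hab, ha, hb⟩ := hD
    have hcop : IsCoprime a ((N : ℤ) * (m : ℤ) ^ 2) := by
      have h1 : IsCoprime a (((N * m : ℕ) : ℤ)) := h81c_coprime_of_dvd_sub_one hNm
      push_cast at h1
      have h2 : IsCoprime a (N : ℤ) := h1.of_mul_right_left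
      have h3 : IsCoprime a (m : ℤ) := h1.of_mul_right_right
      exact h2.mul_right (h3.pow_right)
    obtain ⟨c, d, hcd⟩ := h81c_complete hab hcop
    have hx1 : a * d - b * ((m : ℤ) ^ 2 * ((N : ℤ) * c)) = 1 := by rw [← hcd]; ring
    have hx2 : a * d - ((m : ℤ) ^ 2 * b) * ((N : ℤ) * c) = 1 := by rw [← hcd]; ring
    have hdNm : (((N * m : ℕ) : ℤ)) ∣ d - 1 := by
      obtain ⟨k, hk⟩ := hNm
      obtain ⟨l, hl⟩ := hb
      refine ⟨(N : ℤ) * l * m * c - k * d, ?_⟩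
      push_cast at hk ⊢
      linear_combination hcd - d * hk + ((N : ℤ) * (m : ℤ) ^ 2 * c) * hl
    have hdN : (N : ℤ) ∣ d - 1 := by
      refine dvd_trans ?_ hdNm
      push_cast
      exact dvd_mul_right _ _
    have hxm : h11_mkZ a b ((m : ℤ) ^ 2 * ((N : ℤ) * c)) d hx1 ∈ Gamma N :=
      h81c_mkZ_mem hx1 ha hb (Dvd.dvd.mul_left (dvd_mul_right _ _) _) hdN
    have hxpm : h11_mkZ a ((m : ℤ) ^ 2 * b) ((N : ℤ) * c) d hx2 ∈ Gamma N :=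
      h81c_mkZ_mem hx2 ha (Dvd.dvd.mul_left hb _) (dvd_mul_right _ _) hdN
    rw [h81c_rho_eq hmul hunip hxm (a := a) (b := b) rfl rfl,
      h81c_rho_eq hmul hunip hxpm (a := a) (b := (m : ℤ) ^ 2 * b) rfl rfl]
    exact (hdrop m hm hmq (h11_mkZ a b ((m : ℤ) ^ 2 * ((N : ℤ) * c)) d hx1)
      (h11_mkZ a ((m : ℤ) ^ 2 * b) ((N : ℤ) * c) d hx2) hNm hdNm hb (dvd_mul_right _ _)
      rfl rfl rfl rfl).symm
  · -- r5
    intro a₁ b c₁ d₁ a₂ c₂ d₂ h1 h2 ha1 hb hc1 hd1 ha2 hc2 hd2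
    have hx1 : h11_mkZ a₁ b c₁ d₁ h1 ∈ Gamma N := h81c_mkZ_mem h1 ha1 hb hc1 hd1
    have hx2 : h11_mkZ a₂ b c₂ d₂ h2 ∈ Gamma N := h81c_mkZ_mem h2 ha2 hb hc2 hd2
    have hy : (h11_mkZ a₂ b c₂ d₂ h2)⁻¹ * h11_mkZ a₁ b c₁ d₁ h1 ∈ Gamma N :=
      mul_mem (inv_mem hx2) hx1
    rw [h81c_rho_eq hmul hunip hx1 (a := a₁) (b := b) rfl rfl,
      h81c_rho_eq hmul hunip hx2 (a := a₂) (b := b) rfl rfl,
      h81c_rho_eq hmul hunip hy (a := a₁ * d₂ - b * c₁) (b := b * (d₂ - d₁))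
        (by rw [h81c_mul_00, h81c_inv_00, h81c_inv_01, h81c_mkZ_00, h81c_mkZ_01, h81c_mkZ_10,
              h81c_mkZ_11]; ring)
        (by rw [h81c_mul_01, h81c_inv_00, h81c_inv_01, h81c_mkZ_01, h81c_mkZ_11, h81c_mkZ_11,
              h81c_mkZ_01]; ring),
      hmul _ _ (inv_mem hx2) hx1, h81c_F_inv hmul hunip hx2, div_eq_inv_mul]
  · -- F = rho on Gamma N
    intro x hx
    exact (h81c_rho_eq hmul hunip hx rfl rfl).symm

end Fermat.Agent.LR
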