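/-
P-LR (S41), CSP leaf (5) `h11_SymbolStatement` (Steps 4, 5, 6, 7 of finding #724), final:
assembled from (5a) `h81c_sym` (helper81), (5b) `h27f_fe` (helper27, on top of L-QUAD) and
(5c) `h40e_end` (helper40).  (helper81)
-/
import Fermat.Agent.LR.CSP.H81Sym
import Fermat.Agent.LR.CSP.H27FE
import Fermat.Agent.LR.CSP.H40End

namespace Fermat.Agent.LR

/-- **L-SYMBOL.** A function on `SL(2, ℤ)` with values in an abelian group of odd prime exponent
`p ≠ q` which on `Γ(N)` is multiplicative, kills the unipotent elements, is invariant under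
`SL(2, ℤ)`-conjugation and has the square dropping property, is trivial on `Γ(N)`. -/
theorem h81c_symbol.{u} : h11_SymbolStatement.{u} :=
  h81c_symbol_of h81c_sym h27f_fe h40e_end

end Fermat.Agent.LR
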