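/-
P-LR (S41), row LR-CSP, FINAL: the abelianised congruence subgroup property for
`Δ = Γ₀(N)[1/q]`, unconditional.  Paper proof: finding #724.  Leaves: L-GML (helper40, helper15),
L-CENTGOOD (helper27, helper91), L-CENT (helper11), L-DROP (helper60), L-QUAD (helper9, helper27),
L-SYMBOL (helper81, with L-FE helper27/helper9 and L-END helper40), core (helper11).
(helper11)
-/
import Fermat.Agent.LR.CSP.Core
import Fermat.Agent.LR.CSP.H40GMLStatement
import Fermat.Agent.LR.CSP.H27CentGood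
import Fermat.Agent.LR.CSP.H60Drop
import Fermat.Agent.LR.CSP.H81Symbol
import Fermat.Agent.LR.IharaIota

namespace Fermat.Agent.LR

open Matrix CongruenceSubgroup

/-- **L-CENT**, unconditional. -/
theorem h11_cent.{u} : h11_CentStatement.{u} := h11_cent_of h40g_GML h27c_centGood

/-- **L-DROP**, unconditional. -/
theorem h11_drop.{u} : h11_DropStatement.{u} := h60_drop h11_cent

/-- **Abelianised congruence subgroup property for `Δ = Γ₀(N)[1/q]`.**
Let `q` be a prime, `N > 0` prime to `q`, `p ≠ q` an odd prime and `A` an abelian group of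
exponent `p`.  A homomorphism `ψ : Δ → A` that kills the parabolic elements of `Γ₀(N)` kills
`ι γ` and `g⁻¹ (ι γ) g` (`g = diag(q, 1)`) for every `γ ∈ Γ₀(N)` with `d ≡ 1 mod N`. -/
theorem h11_csp.{u} {N p q : ℕ} [NeZero q] (hN : 0 < N) (hp : p.Prime) (hp2 : p ≠ 2)
    (hq : q.Prime) (hpq : p ≠ q) (hNq : Nat.Coprime N q) {A : Type u} [CommGroup A]
    (hA : ∀ a : A, a ^ p = 1) (ψ : h32_Delta N q →* A) (hpar : h15lr_ParOnGamma0 N q ψ)
    (γ : Gamma0 N) (hd : (N : ℤ) ∣ (γ : h11_Z) 1 1 - 1) :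
    ψ ⟨h32_iota (γ : h11_Z), h32_iota_mem_Delta N q γ⟩ = 1 ∧
    ψ ⟨h32_cg q (h32_iota (γ : h11_Z)), h32_cg_iota_mem_Delta N q γ⟩ = 1 :=
  h11_csp_integral h11_cent h11_drop h81c_symbol hN hp hp2 hq hpq hNq hA ψ hpar γ hd

/-- The same, in the shape `h32i_CSPIota` consumed by Ihara's lemma (`LR/IharaIota.lean`). -/
theorem h11_cspIota.{u} {N p q : ℕ} [NeZero q] (hN : 0 < N) (hp : p.Prime) (hp2 : p ≠ 2)
    (hq : q.Prime) (hpq : p ≠ q) (hNq : Nat.Coprime N q) {A : Type u} [CommGroup A]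
    (hA : ∀ a : A, a ^ p = 1) : h32i_CSPIota N q A :=
  fun ψ hpar γ hd => h11_csp hN hp hp2 hq hpq hNq hA ψ hpar γ hd

/-- **Ihara's lemma, unconditional** (via `h32i_ihara_of_iota`).  `q` prime, `N > 0` prime to
`q`, `p ≠ q` an odd prime, `A` an abelian group killed by `p`; `φ₁, φ₂ : Γ₀(N) → A`
homomorphisms, `φ₁` parabolic, with `φ₁ γ + φ₂ (g γ g⁻¹) = 0` for all `γ ∈ Γ₀(N q)`.
Then `φ₁` and `φ₂` factor through `γ ↦ d mod N`. -/
theorem h11_ihara {N p q : ℕ} [NeZero q] (hN : 0 < N) (hp : p.Prime) (hp2 : p ≠ 2)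
    (hq : q.Prime) (hpq : p ≠ q) (hNq : Nat.Coprime N q) {A : Type*} [AddCommGroup A]
    (hpA : ∀ a : A, p • a = 0) (φ₁ φ₂ : Additive (Gamma0 N) →+ A)
    (h₁ : ModularCurve.Period.IsParabolicHom (Gamma0 N) φ₁)
    (hker : ∀ γ : Gamma0 (N * q),
      φ₁ (Additive.ofMul (h32_incl N q γ)) + φ₂ (Additive.ofMul (h32_up N q γ)) = 0) :
    h15lr_FactorsThroughD N φ₁ ∧ h15lr_FactorsThroughD N φ₂ := by
  have hA : ∀ a : Multiplicative A, a ^ p = 1 := by
    intro a
    have := hpA (Multiplicative.toAdd a)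
    exact congrArg Multiplicative.ofAdd this
  exact h32i_ihara_of_iota hq hNq (h11_cspIota hN hp hp2 hq hpq hNq hA) φ₁ φ₂ h₁ hker

end Fermat.Agent.LR
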