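/-
P-LR (S41 level raising), LR-CSP, leaf L-GML: the GOOD MODULUS LEMMA of helper11's
proof of the abelianised congruence subgroup property (finding #724, Step 2 (iv)).
Pure number theory over ℤ (Dirichlet + Fermat/Euler); Mathlib only.  (helper15)
-/
import Mathlib

namespace Fermat.Agent.LR

/-- `n`-primary decomposition of a positive integer: `T = A * B` with `B` prime to `n`
and `A` prime to everything that is prime to `n`. -/
theorem h15gml_primary (n : ℕ) : ∀ T : ℕ, 0 < T →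
    ∃ A B : ℕ, T = A * B ∧ Nat.Coprime B n ∧ ∀ a : ℕ, Nat.Coprime a n → Nat.Coprime A a := by
  intro T
  induction T using Nat.strong_induction_on with
  | _ T ih =>
    intro hT
    by_cases hc : Nat.Coprime T n
    · exact ⟨1, T, by simp, hc, fun a _ => Nat.coprime_one_left a⟩
    · obtain ⟨l, hl, hlT, hln⟩ := Nat.Prime.not_coprime_iff_dvd.mp hc
      obtain ⟨T₁, rfl⟩ := hlT
      have hT₁ : 0 < T₁ := Nat.pos_of_mul_pos_left hT
      have hlt : T₁ < l * T₁ := by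
        have := hl.one_lt
        nlinarith
      obtain ⟨A, B, hAB, hB, hA⟩ := ih T₁ hlt hT₁
      refine ⟨l * A, B, by rw [hAB]; ring, hB, fun a ha => ?_⟩
      refine Nat.Coprime.mul_left ?_ (hA a ha)
      exact (Nat.Coprime.coprime_dvd_right hln ha).symm

/-- Dirichlet + CRT: a prime `π > bound` with `π ≡ r0 mod a1` and `π ≡ -1 mod n₂`. -/
theorem h15gml_dirichlet {n₂ a1 : ℕ} (hn : 0 < n₂) (ha1 : 0 < a1) (hc : Nat.Coprime a1 n₂)
    {r0 : ℤ} (hr0 : IsCoprime r0 (a1 : ℤ)) (bound : ℕ) :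
    ∃ π : ℕ, π.Prime ∧ bound < π ∧ (π : ℤ) ≡ r0 [ZMOD a1] ∧ (n₂ : ℤ) ∣ (π : ℤ) + 1 := by
  have hcz : IsCoprime (a1 : ℤ) (n₂ : ℤ) := Nat.isCoprime_iff_coprime.mpr hc
  obtain ⟨u, v, huv⟩ := hcz
  -- r = r0 * v * n₂ - u * a1
  set r : ℤ := r0 * (v * n₂) - u * a1 with hr
  have h1 : r = r0 + (a1 : ℤ) * (-(r0 * u) - u) := by
    have : v * (n₂ : ℤ) = 1 - u * a1 := by linarith
    rw [hr, this]; ring
  have h2 : r = -1 + (n₂ : ℤ) * (r0 * v + v) := by
    have : u * (a1 : ℤ) = 1 - v * n₂ := by linarith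
    rw [hr, this]; ring
  have hra : IsCoprime r (a1 : ℤ) := by
    rw [h1]; exact hr0.add_mul_left_left _
  have hrn : IsCoprime r (n₂ : ℤ) := by
    rw [h2]
    have : IsCoprime (-1 : ℤ) (n₂ : ℤ) := (isCoprime_one_left).neg_left
    exact this.add_mul_left_left _
  have hrm : IsCoprime r ((a1 * n₂ : ℕ) : ℤ) := by
    push_cast
    exact hra.mul_right hrn
  obtain ⟨π, hπb, hπ, hπr⟩ := Nat.forall_exists_prime_gt_and_zmodEq bound
    (q := a1 * n₂) (a := r) (Nat.mul_ne_zero ha1.ne' hn.ne') hrm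
  refine ⟨π, hπ, hπb, ?_, ?_⟩
  · have : (π : ℤ) ≡ r [ZMOD (a1 : ℤ)] := by
      apply Int.ModEq.of_mul_right (n₂ : ℤ)
      simpa using hπr
    refine this.trans ?_
    rw [h1]
    exact (Int.modEq_iff_dvd.mpr ⟨-(-(r0 * u) - u), by ring⟩)
  · have : (π : ℤ) ≡ r [ZMOD (n₂ : ℤ)] := by
      apply Int.ModEq.of_mul_left (a1 : ℤ)
      simpa using hπr
    have h3 := (Int.modEq_iff_dvd.mp this)
    -- n₂ ∣ r - π
    obtain ⟨k, hk⟩ := h3
    refine ⟨(r0 * v + v) - k, ?_⟩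
    have : (π : ℤ) = r - n₂ * k := by linarith
    rw [this, h2]; ring

/-- Choice of the auxiliary prime: `π ≡ r0 mod a1`, and `π - 1 ∣ 2 m` with `m` prime to `n`. -/
theorem h15gml_prime_choice {n a1 : ℕ} (hn : 0 < n) (ha1 : 0 < a1) (hc : Nat.Coprime a1 n)
    {r0 : ℤ} (hr0 : IsCoprime r0 (a1 : ℤ)) (bound : ℕ) :
    ∃ π m : ℕ, π.Prime ∧ bound < π ∧ (π : ℤ) ≡ r0 [ZMOD a1] ∧ Nat.Coprime m n ∧ 0 < m ∧
      (π - 1) ∣ 2 * m := by
  rcases Nat.even_or_odd n with hev | hodd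
  · -- n even: a1 is odd, use the modulus 4 n
    have ha1odd : Nat.Coprime a1 2 := by
      obtain ⟨k, hk⟩ := hev
      have : (2 : ℕ) ∣ n := ⟨k, by omega⟩
      exact Nat.Coprime.coprime_dvd_right this hc
    have hc4 : Nat.Coprime a1 (4 * n) := by
      have h4 : Nat.Coprime a1 4 := by
        have : (4 : ℕ) = 2 ^ 2 := by norm_num
        rw [this]; exact Nat.Coprime.pow_right 2 ha1odd
      exact Nat.Coprime.mul_right h4 hc
    obtain ⟨π, hπ, hπb, hπr, k, hk⟩ := h15gml_dirichlet (n₂ := 4 * n) (by omega) ha1 hc4 hr0 bound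
    push_cast at hk
    have hkpos : 0 < k := by
      by_contra hneg
      have hk0 : k ≤ 0 := not_lt.mp hneg
      have : (0 : ℤ) < (π : ℤ) + 1 := by positivity
      have hn' : (0 : ℤ) < 4 * n := by positivity
      nlinarith
    obtain ⟨k', rfl⟩ : ∃ k' : ℕ, k = k' := ⟨k.toNat, (Int.toNat_of_nonneg hkpos.le).symm⟩
    have hk' : 0 < k' := by exact_mod_cast hkpos
    have hnat : π + 1 = 4 * n * k' := by exact_mod_cast hk
    have hnk : 0 < n * k' := Nat.mul_pos hn hk'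
    refine ⟨π, 2 * n * k' - 1, hπ, hπb, hπr, ?_, ?_, ?_⟩
    · rw [← Nat.isCoprime_iff_coprime]
      refine ⟨-1, 2 * k', ?_⟩
      have : ((2 * n * k' - 1 : ℕ) : ℤ) = 2 * n * k' - 1 := by
        rw [Nat.cast_sub (by nlinarith)]; push_cast; ring
      rw [this]; ring
    · have : 2 ≤ 2 * n * k' := by nlinarith
      omega
    · have : π - 1 = 2 * (2 * n * k' - 1) := by
        have : 2 ≤ 2 * n * k' := by nlinarith
        have h' : 4 * n * k' = 2 * (2 * n * k') := by ring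
        omega
      rw [this]
  · -- n odd: modulus n
    obtain ⟨π, hπ, hπb, hπr, k, hk⟩ := h15gml_dirichlet (n₂ := n) hn ha1 hc hr0 bound
    have hπ2 := hπ.two_le
    refine ⟨π, π - 1, hπ, hπb, hπr, ?_, by omega, Dvd.intro_left 2 rfl⟩
    rw [← Nat.isCoprime_iff_coprime]
    have hn2 : IsCoprime (n : ℤ) (2 : ℤ) := by
      have : Nat.Coprime n 2 := by
        rw [Nat.coprime_comm, Nat.Prime.coprime_iff_not_dvd Nat.prime_two]
        exact hodd.not_two_dvd_nat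
      exact_mod_cast Nat.isCoprime_iff_coprime.mpr this
    obtain ⟨s, t, hst⟩ := hn2
    have hcast : ((π - 1 : ℕ) : ℤ) = (π : ℤ) - 1 := by
      rw [Nat.cast_sub (by omega)]; simp
    refine ⟨-t, s + t * k, ?_⟩
    rw [hcast]
    have : (π : ℤ) = n * k - 1 := by linarith
    rw [this]
    linear_combination hst

/-- **Good modulus lemma** (integral core).  For a prime `q`, a level `n` prime to `q`, a
modulus `a1` prime to `n` and a residue `b0` prime to `a1`, there are `b' ≡ b0 mod a1`,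
`n ∣ b'`, and a power `q ^ K` with `q ^ K - 1 = b' * c`, `c ≡ -1 mod n`. -/
theorem h15gml_core {q n a1 : ℕ} (hq : q.Prime) (hn : 0 < n) (hnq : Nat.Coprime n q)
    (ha1 : 0 < a1) (hc : Nat.Coprime a1 n) {b0 : ℤ} (hb0 : IsCoprime b0 (a1 : ℤ)) :
    ∃ (b' K : ℕ) (c : ℤ), 0 < b' ∧ 0 < K ∧ n ∣ b' ∧ (b' : ℤ) ≡ b0 [ZMOD a1] ∧
      (q : ℤ) ^ K - 1 = b' * c ∧ c ≡ -1 [ZMOD n] := by
  have : NeZero n := ⟨hn.ne'⟩
  set k0 := 2 * Nat.totient n with hk0
  have hφ : 0 < Nat.totient n := Nat.totient_pos.mpr hn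
  have hX1 : q ^ k0 ≡ 1 [MOD n] := by
    have h1 := Nat.ModEq.pow_totient hnq.symm
    have h2 := h1.pow 2
    rw [hk0, mul_comm, pow_mul]; simpa using h2
  have hXgt : 1 < q ^ k0 := Nat.one_lt_pow (by omega) hq.one_lt
  obtain ⟨T0, hT0⟩ : ∃ T0, q ^ k0 = T0 + 1 := ⟨q ^ k0 - 1, by omega⟩
  have hT0pos : 0 < T0 := by omega
  have hXz : ((q ^ k0 : ℕ) : ZMod n) = 1 := by
    have := (ZMod.natCast_eq_natCast_iff _ _ _).mpr hX1
    simpa using this
  have hnT0 : n ∣ T0 := by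
    rw [← ZMod.natCast_eq_zero_iff]
    have : ((T0 + 1 : ℕ) : ZMod n) = 1 := by rw [← hT0]; exact hXz
    push_cast at this
    simpa using this
  obtain ⟨A, B, hAB, hB, hA⟩ := h15gml_primary n T0 hT0pos
  have hnA : n ∣ A := by
    have : n ∣ A * B := hAB ▸ hnT0
    exact Nat.Coprime.dvd_of_dvd_mul_right hB.symm this
  have hApos : 0 < A := by
    rcases Nat.eq_zero_or_pos A with h | h
    · rw [h, zero_mul] at hAB; omega
    · exact h
  have hAa1 : Nat.Coprime A a1 := hA a1 hc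
  obtain ⟨u, v, huv⟩ := Nat.isCoprime_iff_coprime.mpr hAa1
  have hr0 : IsCoprime (b0 * u) (a1 : ℤ) := hb0.mul_left ⟨A, v, by linarith⟩
  obtain ⟨π, m, hπ, hπb, hπr, hm, hmpos, hπm⟩ :=
    h15gml_prime_choice hn ha1 hc hr0 (T0 + n + q)
  have hπn : Nat.Coprime π n :=
    (Nat.Prime.coprime_iff_not_dvd hπ).mpr (Nat.not_dvd_of_pos_of_lt hn (by omega))
  have hπq : Nat.Coprime q π :=
    ((Nat.Prime.coprime_iff_not_dvd hπ).mpr
      (Nat.not_dvd_of_pos_of_lt hq.pos (by omega))).symm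
  have hπT0 : ¬ π ∣ T0 := Nat.not_dvd_of_pos_of_lt hT0pos (by omega)
  -- the exponent j = m * j'
  have hmB : Nat.Coprime (m * B) n := Nat.Coprime.mul_left hm hB
  set z : ZMod n := -(π : ZMod n) * (((m * B : ℕ) : ZMod n))⁻¹ with hz
  set j' : ℕ := z.val + n with hj'
  have hj'pos : 0 < j' := by omega
  have hj'z : (j' : ZMod n) = z := by
    rw [hj']; push_cast; rw [ZMod.natCast_zmod_val, ZMod.natCast_self, add_zero]
  have hjz : ((j' * (m * B) : ℕ) : ZMod n) = -(π : ZMod n) := by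
    rw [Nat.cast_mul, hj'z, hz, mul_assoc]
    rw [mul_comm (((m * B : ℕ) : ZMod n))⁻¹, ZMod.coe_mul_inv_eq_one _ hmB, mul_one]
  set j : ℕ := m * j' with hj
  have hjpos : 0 < j := Nat.mul_pos hmpos hj'pos
  set K : ℕ := k0 * j with hK
  have hKpos : 0 < K := Nat.mul_pos (by omega) hjpos
  -- geometric sum
  set S : ℕ := ∑ i ∈ Finset.range j, (q ^ k0) ^ i with hS
  have hgeom : ((q : ℤ) ^ K - 1) = (S : ℤ) * (T0 : ℤ) := by
    have h1 := geom_sum_mul ((q : ℤ) ^ k0) j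
    have h2 : ((q : ℤ) ^ k0 - 1) = (T0 : ℤ) := by
      have : ((q ^ k0 : ℕ) : ℤ) = ((T0 + 1 : ℕ) : ℤ) := by rw [hT0]
      push_cast at this
      linarith
    rw [h2] at h1
    rw [hK, pow_mul, ← h1, hS]
    push_cast
    rfl
  have hSz : (S : ZMod n) = (j : ZMod n) := by
    rw [hS]
    push_cast
    have : ((q : ZMod n) ^ k0) = 1 := by
      have := hXz; push_cast at this; exact this
    simp [this]
  -- Fermat
  have hπK : (π - 1) ∣ K := by
    have h1 : (π - 1) ∣ 2 * m * (Nat.totient n * j') :=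
      Dvd.dvd.mul_right hπm _
    have h2 : K = 2 * m * (Nat.totient n * j') := by
      rw [hK, hk0, hj]; ring
    rw [h2]; exact h1
  have hqK : q ^ K ≡ 1 [MOD π] := by
    obtain ⟨e, he⟩ := hπK
    have h1 := Nat.ModEq.pow_totient hπq
    rw [Nat.totient_prime hπ] at h1
    have h2 := h1.pow e
    rw [← pow_mul, ← he, one_pow] at h2
    exact h2
  have hπdvd : (π : ℤ) ∣ (S : ℤ) * (T0 : ℤ) := by
    rw [← hgeom]
    have := (Nat.modEq_iff_dvd.mp hqK.symm)
    simpa using this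
  have hπS : π ∣ S := by
    have h1 : π ∣ S * T0 := by exact_mod_cast hπdvd
    rcases (Nat.Prime.dvd_mul hπ).mp h1 with h | h
    · exact h
    · exact absurd h hπT0
  obtain ⟨S', hS'⟩ := hπS
  refine ⟨A * π, K, ((B * S' : ℕ) : ℤ), Nat.mul_pos hApos hπ.pos, hKpos,
    Dvd.dvd.mul_right hnA _, ?_, ?_, ?_⟩
  · -- A π ≡ b0 mod a1
    have h1 : ((A * π : ℕ) : ℤ) ≡ (A : ℤ) * (b0 * u) [ZMOD a1] := by
      push_cast
      exact Int.ModEq.mul_left _ hπr
    refine h1.trans ?_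
    rw [Int.modEq_iff_dvd]
    refine ⟨b0 * v, ?_⟩
    have : u * (A : ℤ) = 1 - v * a1 := by linarith
    calc b0 - (A : ℤ) * (b0 * u) = b0 * (1 - u * A) := by ring
      _ = (a1 : ℤ) * (b0 * v) := by rw [this]; ring
  · rw [hgeom, hS', hAB]; push_cast; ring
  · rw [← ZMod.intCast_eq_intCast_iff]
    push_cast
    have hπu : IsUnit (π : ZMod n) := (ZMod.isUnit_iff_coprime π n).mpr hπn
    have h1 : (π : ZMod n) * ((B : ZMod n) * (S' : ZMod n)) = -(π : ZMod n) := by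
      have h2 : ((B * S : ℕ) : ZMod n) = -(π : ZMod n) := by
        rw [Nat.cast_mul, hSz, ← hjz, hj]; push_cast; ring
      rw [hS'] at h2
      push_cast at h2
      rw [← h2]; ring
    have h3 : (π : ZMod n) * ((B : ZMod n) * (S' : ZMod n) + 1) = 0 := by
      rw [mul_add, h1]; ring
    have h4 := (hπu.mul_right_eq_zero).mp h3
    exact eq_neg_of_add_eq_zero_left h4

end Fermat.Agent.LR
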