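/-
P-LR (S41), item (5c) CSP, leaf L-CENTGOOD (Step 2(i),(ii) of finding #724), second seat.
(helper27)
-/
import Fermat.Agent.LR.CSP.Leaves

set_option autoImplicit false

namespace Fermat.Agent.LR

open Matrix CongruenceSubgroup

/-- Entries of a product in `SL(2, ℚ)`. -/
theorem h27c_mul_apply (X Y : h11_S) (i j : Fin 2) :
    (X * Y) i j = X i 0 * Y 0 j + X i 1 * Y 1 j := by
  rw [Matrix.SpecialLinearGroup.coe_mul, Matrix.mul_apply, Fin.sum_univ_two]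

/-- Entries of a product in `SL(2, ℤ)`. -/
theorem h27c_mul_applyZ (X Y : h11_Z) (i j : Fin 2) :
    (X * Y) i j = X i 0 * Y 0 j + X i 1 * Y 1 j := by
  rw [Matrix.SpecialLinearGroup.coe_mul, Matrix.mul_apply, Fin.sum_univ_two]

theorem h27c_ext {X Y : h11_S} (h00 : X 0 0 = Y 0 0) (h01 : X 0 1 = Y 0 1)
    (h10 : X 1 0 = Y 1 0) (h11 : X 1 1 = Y 1 1) : X = Y := by
  ext i j
  fin_cases i <;> fin_cases j
  · exact h00
  · exact h01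
  · exact h10
  · exact h11

theorem h27c_detZ (x : h11_Z) : x 0 0 * x 1 1 - x 0 1 * x 1 0 = 1 := by
  have h := x.det_coe
  rw [Matrix.det_fin_two] at h
  exact h

theorem h27c_mem_Gamma_iff (n : ℕ) (x : h11_Z) :
    x ∈ Gamma n ↔ (n : ℤ) ∣ x 0 0 - 1 ∧ (n : ℤ) ∣ x 0 1 ∧ (n : ℤ) ∣ x 1 0 ∧
      (n : ℤ) ∣ x 1 1 - 1 := by
  rw [Gamma_mem]
  have h1 : ∀ t : ℤ, ((t : ZMod n) = 1) ↔ (n : ℤ) ∣ t - 1 := by
    intro t
    rw [← ZMod.intCast_zmod_eq_zero_iff_dvd]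
    push_cast
    rw [sub_eq_zero]
  simp only [h1, ZMod.intCast_zmod_eq_zero_iff_dvd]

theorem h27c_iota_mem_Gam {n : ℕ} (q : ℕ) {x : h11_Z} (hx : x ∈ Gamma n) :
    h32_iota x ∈ h11_Gam n q := by
  rw [h27c_mem_Gamma_iff] at hx
  obtain ⟨h0, h1, h2, h3⟩ := hx
  rw [h11_mem_Gam_iff]
  simp only [h32_iota_apply]
  refine ⟨?_, ?_, ?_, ?_⟩
  · have := h32_IsNZq_int (N := n) (q := q) _ h0
    simpa using this
  · exact h32_IsNZq_int _ h1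
  · exact h32_IsNZq_int _ h2
  · have := h32_IsNZq_int (N := n) (q := q) _ h3
    simpa using this

/-- `n * m / q ^ k ∈ n ℤ[1/q]`. -/
theorem h27c_IsNZq_div (n q k : ℕ) [NeZero q] (m : ℤ) :
    h32_IsNZq n q ((n : ℚ) * m / (q : ℚ) ^ k) := by
  have hq : (q : ℚ) ≠ 0 := Nat.cast_ne_zero.mpr (NeZero.ne q)
  exact ⟨k, m, by field_simp⟩

/-- Entries of the commutator `l(1) x l(1)⁻¹ x⁻¹` in `SL(2, ℤ)`. -/
theorem h27c_comm_entries (x : h11_Z) :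
    (h11_L1 * x * h11_L1⁻¹ * x⁻¹) 0 0 = 1 - x 0 1 * x 1 1 ∧
    (h11_L1 * x * h11_L1⁻¹ * x⁻¹) 0 1 = x 0 1 ^ 2 ∧
    (h11_L1 * x * h11_L1⁻¹ * x⁻¹) 1 0 = 1 - x 0 1 * x 1 1 - x 1 1 ^ 2 ∧
    (h11_L1 * x * h11_L1⁻¹ * x⁻¹) 1 1 = 1 + x 0 1 * x 1 1 + x 0 1 ^ 2 := by
  have hdet := h27c_detZ x
  have hL : ∀ i j, (h11_L1 : h11_Z) i j = (!![1, 0; 1, 1] : Matrix (Fin 2) (Fin 2) ℤ) i j :=
    fun i j => rfl
  have hLi : ∀ i j, (h11_L1⁻¹ : h11_Z) i j =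
      (!![1, 0; -1, 1] : Matrix (Fin 2) (Fin 2) ℤ) i j := by
    intro i j
    rw [Matrix.SpecialLinearGroup.coe_inv, Matrix.adjugate_fin_two]
    fin_cases i <;> fin_cases j <;> simp [hL]
  have hxi : ∀ i j, (x⁻¹ : h11_Z) i j =
      (!![x 1 1, -x 0 1; -x 1 0, x 0 0] : Matrix (Fin 2) (Fin 2) ℤ) i j := by
    intro i j
    rw [Matrix.SpecialLinearGroup.coe_inv, Matrix.adjugate_fin_two]
  refine ⟨?_, ?_, ?_, ?_⟩ <;>
    simp only [h27c_mul_applyZ, hL, hLi, hxi, Matrix.of_apply, Matrix.cons_val_zero,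
      Matrix.cons_val_one, Matrix.cons_val', Matrix.cons_val_fin_one] <;>
    first
    | linear_combination hdet
    | linear_combination (-1 : ℤ) * hdet
    | linear_combination (0 : ℤ) * hdet

theorem h27c_ll_apply (y : ℚ) : (h15lr_ll y) 0 0 = 1 ∧ (h15lr_ll y) 0 1 = 0 ∧
    (h15lr_ll y) 1 0 = y ∧ (h15lr_ll y) 1 1 = 1 := ⟨rfl, rfl, rfl, rfl⟩

theorem h27c_uu_apply (y : ℚ) : (h15lr_uu y) 0 0 = 1 ∧ (h15lr_uu y) 0 1 = y ∧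
    (h15lr_uu y) 1 0 = 0 ∧ (h15lr_uu y) 1 1 = 1 := ⟨rfl, rfl, rfl, rfl⟩

theorem h27c_ll_mem_Gam (n q : ℕ) {y : ℚ} (hy : h32_IsNZq n q y) :
    h15lr_ll y ∈ h11_Gam n q := by
  rw [h11_mem_Gam_iff]
  obtain ⟨h0, h1, h2, h3⟩ := h27c_ll_apply y
  rw [h0, h1, h2, h3, sub_self]
  exact ⟨h32_IsNZq_zero n q, h32_IsNZq_zero n q, hy, h32_IsNZq_zero n q⟩

theorem h27c_uu_mem_Gam (n q : ℕ) {y : ℚ} (hy : h32_IsNZq n q y) :
    h15lr_uu y ∈ h11_Gam n q := by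
  rw [h11_mem_Gam_iff]
  obtain ⟨h0, h1, h2, h3⟩ := h27c_uu_apply y
  rw [h0, h1, h2, h3, sub_self]
  exact ⟨h32_IsNZq_zero n q, hy, h32_IsNZq_zero n q, h32_IsNZq_zero n q⟩

theorem h27c_trace (X : h11_S) :
    (X : Matrix (Fin 2) (Fin 2) ℚ).trace = X 0 0 + X 1 1 := Matrix.trace_fin_two _

/-- The unipotent `U = 1 + v⁻¹ (b; g) (-g, b)`. -/
noncomputable def h27c_U (b g v : ℚ) (hv : v ≠ 0) : h11_S :=
  ⟨!![1 - b * g / v, b ^ 2 / v; -(g ^ 2) / v, 1 + b * g / v], by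
    rw [Matrix.det_fin_two_of]; field_simp; ring⟩

theorem h27c_U_apply (b g v : ℚ) (hv : v ≠ 0) :
    (h27c_U b g v hv) 0 0 = 1 - b * g / v ∧ (h27c_U b g v hv) 0 1 = b ^ 2 / v ∧
    (h27c_U b g v hv) 1 0 = -(g ^ 2) / v ∧ (h27c_U b g v hv) 1 1 = 1 + b * g / v :=
  ⟨rfl, rfl, rfl, rfl⟩

/-- The explicit factorisation of the commutator (all entries rational). -/
theorem h27c_factor (n b₀ d κ v : ℚ) (hv : v ≠ 0) (hv1 : v = 1 + n * (b₀ * κ))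
    (X F2 : h11_S)
    (hX : X 0 0 = 1 - (n * b₀) * d ∧ X 0 1 = (n * b₀) ^ 2 ∧
      X 1 0 = 1 - (n * b₀) * d - d ^ 2 ∧ X 1 1 = 1 + (n * b₀) * d + (n * b₀) ^ 2)
    (hF2 : F2 0 0 = 1 + (b₀ * κ) * n ∧ F2 0 1 = -((b₀ * κ) ^ 2 * n) ∧ F2 1 0 = n ∧
      F2 1 1 = 1 - n * (b₀ * κ)) :
    X = h15lr_ll ((v ^ 2 + κ ^ 2 + d * κ * (v + 1)) / v ^ 2) * F2 *
      h15lr_uu (n * (b₀ * κ) ^ 2 / v) * h15lr_ll (-(n * v)) * h27c_U (n * b₀) (d + κ) v hv := by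
  obtain ⟨c0, c1, c2, c3⟩ := hX
  obtain ⟨f0, f1, f2, f3⟩ := hF2
  apply h27c_ext <;>
    simp only [h27c_mul_apply, c0, c1, c2, c3, f0, f1, f2, f3,
      (h27c_ll_apply _).1, (h27c_ll_apply _).2.1, (h27c_ll_apply _).2.2.1,
      (h27c_ll_apply _).2.2.2, (h27c_uu_apply _).1, (h27c_uu_apply _).2.1,
      (h27c_uu_apply _).2.2.1, (h27c_uu_apply _).2.2.2, (h27c_U_apply _ _ _ _).1,
      (h27c_U_apply _ _ _ _).2.1, (h27c_U_apply _ _ _ _).2.2.1,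
      (h27c_U_apply _ _ _ _).2.2.2] <;>
    field_simp <;> subst hv1 <;> ring

/-- **L-CENTGOOD** (Step 2(i),(ii) of the abelianised CSP). -/
theorem h27c_centGood.{u} : h11_CentGoodStatement.{u} := by
  intro n q hq hn A _ f hf x hx k κ hk hbκ hκ
  have hqQ : (q : ℚ) ≠ 0 := Nat.cast_ne_zero.mpr hq.ne_zero
  have hv : ((q : ℚ) ^ k) ≠ 0 := pow_ne_zero k hqQ
  obtain ⟨ha, hb, hc, hd⟩ := (h27c_mem_Gamma_iff n x).mp hx
  obtain ⟨b₀, hb₀⟩ := hb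
  obtain ⟨κ₀, hκ₀⟩ := hκ
  obtain ⟨d₀, hd₀⟩ := hd
  -- the integer relations
  have hvz : (q : ℤ) ^ k = 1 + n * (b₀ * κ) := by
    rw [hb₀] at hbκ; linear_combination -hbκ
  have hvq : (q : ℚ) ^ k = 1 + (n : ℚ) * ((b₀ : ℚ) * (κ : ℚ)) := by exact_mod_cast hvz
  have hbq : ((x 0 1 : ℤ) : ℚ) = (n : ℚ) * b₀ := by exact_mod_cast hb₀
  have hκq : (κ : ℚ) = n * κ₀ - 1 := by
    have : (κ : ℚ) + 1 = n * κ₀ := by exact_mod_cast hκ₀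
    linear_combination this
  have hdq : ((x 1 1 : ℤ) : ℚ) = 1 + n * d₀ := by
    have : ((x 1 1 : ℤ) : ℚ) - 1 = n * d₀ := by exact_mod_cast hd₀
    linear_combination this
  -- the integral factor `u(w) l(n) u(-w)`
  obtain ⟨F2z, hF2z⟩ : ∃ F : h11_Z, F = h11_mkZ (1 + (b₀ * κ) * n) (-((b₀ * κ) ^ 2 * n)) n
      (1 - n * (b₀ * κ)) (by ring) := ⟨_, rfl⟩
  have f0 : F2z 0 0 = 1 + (b₀ * κ) * n := by rw [hF2z]; rfl
  have f1 : F2z 0 1 = -((b₀ * κ) ^ 2 * n) := by rw [hF2z]; rfl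
  have f2 : F2z 1 0 = n := by rw [hF2z]; rfl
  have f3 : F2z 1 1 = 1 - n * (b₀ * κ) := by rw [hF2z]; rfl
  obtain ⟨c0, c1, c2, c3⟩ := h27c_comm_entries x
  -- the factorisation
  have hfac := h27c_factor (n : ℚ) b₀ ((x 1 1 : ℤ) : ℚ) κ ((q : ℚ) ^ k) hv hvq
    (h32_iota (h11_L1 * x * h11_L1⁻¹ * x⁻¹)) (h32_iota F2z)
    (by
      simp only [h32_iota_apply, c0, c1, c2, c3]
      push_cast
      rw [hbq]
      exact ⟨rfl, rfl, rfl, rfl⟩)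
    (by
      simp only [h32_iota_apply, f0, f1, f2, f3]
      push_cast
      exact ⟨rfl, rfl, rfl, rfl⟩)
  -- memberships
  have m1 : h15lr_ll ((((q : ℚ) ^ k) ^ 2 + (κ : ℚ) ^ 2 + ((x 1 1 : ℤ) : ℚ) * κ *
      (((q : ℚ) ^ k) + 1)) / ((q : ℚ) ^ k) ^ 2) ∈ h11_Gam n q := by
    apply h27c_ll_mem_Gam
    refine ⟨2 * k, 2 * (b₀ * κ) + n * (b₀ * κ) ^ 2 + n * κ₀ ^ 2 - 2 * κ₀ - (b₀ * κ)
      + 2 * (κ₀ - d₀ + n * d₀ * κ₀) + n * (κ₀ - d₀ + n * d₀ * κ₀) * (b₀ * κ), ?_⟩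
    have h2 : (q : ℚ) ^ (2 * k) = ((q : ℚ) ^ k) ^ 2 := by rw [← pow_mul, mul_comm]
    rw [h2, div_mul_cancel₀ _ (pow_ne_zero 2 hv), hdq, hvq]
    push_cast
    rw [hκq]
    ring
  have m2 : h32_iota F2z ∈ h11_Gam n q := by
    apply h27c_iota_mem_Gam
    rw [h27c_mem_Gamma_iff, f0, f1, f2, f3]
    exact ⟨⟨b₀ * κ, by ring⟩, ⟨-((b₀ * κ) ^ 2), by ring⟩, ⟨1, by ring⟩, ⟨-(b₀ * κ), by ring⟩⟩
  have : NeZero q := ⟨hq.ne_zero⟩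
  have m3 : h15lr_uu ((n : ℚ) * ((b₀ : ℚ) * κ) ^ 2 / (q : ℚ) ^ k) ∈ h11_Gam n q := by
    apply h27c_uu_mem_Gam
    have := h27c_IsNZq_div n q k ((b₀ * κ) ^ 2)
    simpa using this
  have m4 : h15lr_ll (-((n : ℚ) * (q : ℚ) ^ k)) ∈ h11_Gam n q := by
    apply h27c_ll_mem_Gam
    refine ⟨0, -((q : ℤ) ^ k), ?_⟩
    push_cast; ring
  have m5 : h27c_U ((n : ℚ) * b₀) (((x 1 1 : ℤ) : ℚ) + κ) ((q : ℚ) ^ k) hv ∈ h11_Gam n q := by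
    have hgN : ((x 1 1 : ℤ) : ℚ) + κ = n * (d₀ + κ₀) := by rw [hdq, hκq]; ring
    rw [h11_mem_Gam_iff]
    obtain ⟨h0, h1, h2, h3⟩ := h27c_U_apply ((n : ℚ) * b₀) (((x 1 1 : ℤ) : ℚ) + κ)
      ((q : ℚ) ^ k) hv
    rw [h0, h1, h2, h3]
    refine ⟨?_, ?_, ?_, ?_⟩
    · have := h27c_IsNZq_div n q k (-(b₀ * (x 1 1 + κ)))
      convert this using 1
      push_cast; ring
    · have := h27c_IsNZq_div n q k (b₀ * (n * b₀))
      convert this using 1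
      push_cast; ring
    · have := h27c_IsNZq_div n q k (-((d₀ + κ₀) * (x 1 1 + κ)))
      convert this using 1
      rw [hgN]; push_cast; rw [hgN]; ring
    · have := h27c_IsNZq_div n q k (b₀ * (x 1 1 + κ))
      convert this using 1
      push_cast; ring
  have t1 := hf.unip _ m1 (by
    rw [h27c_trace, (h27c_ll_apply _).1, (h27c_ll_apply _).2.2.2]; norm_num)
  have t2 := hf.unip _ m2 (by
    rw [h27c_trace, h32_iota_apply, h32_iota_apply, f0, f3]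
    push_cast; ring)
  have t3 := hf.unip _ m3 (by
    rw [h27c_trace, (h27c_uu_apply _).1, (h27c_uu_apply _).2.2.2]; norm_num)
  have t4 := hf.unip _ m4 (by
    rw [h27c_trace, (h27c_ll_apply _).1, (h27c_ll_apply _).2.2.2]; norm_num)
  have t5 := hf.unip _ m5 (by
    rw [h27c_trace, (h27c_U_apply _ _ _ _).1, (h27c_U_apply _ _ _ _).2.2.2]; ring)
  -- conclusion
  have hxG : h32_iota x ∈ h11_Gam n q := h27c_iota_mem_Gam q hx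
  have hsplit : h32_iota (h11_L1 * x * h11_L1⁻¹) =
      h32_iota (h11_L1 * x * h11_L1⁻¹ * x⁻¹) * h32_iota x := by
    rw [← map_mul]
    congr 1
    group
  rw [hsplit, hfac, hf.map_mul _ _ (mul_mem (mul_mem (mul_mem (mul_mem m1 m2) m3) m4) m5) hxG,
    hf.map_mul _ _ (mul_mem (mul_mem (mul_mem m1 m2) m3) m4) m5,
    hf.map_mul _ _ (mul_mem (mul_mem m1 m2) m3) m4,
    hf.map_mul _ _ (mul_mem m1 m2) m3,
    hf.map_mul _ _ m1 m2, t1, t2, t3, t4, t5]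
  simp

end Fermat.Agent.LR
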