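/-
P-LR (S41), item (5c) CSP, leaf L-EXT: from the integral elements of the two copies of `Γ₀(N)`
to all `δ ∈ Δ = Γ₀(N)[1/q]` with `d ≡ 1 mod N`.
(helper27)
-/
import Fermat.Agent.LR.CSP.Leaves

set_option autoImplicit false

namespace Fermat.Agent.LR

open Matrix CongruenceSubgroup

/-- An integer in `N ℤ[1/q]` is divisible by `N` (`gcd(N, q) = 1`). -/
theorem h27e_dvd_of_IsNZq {N q : ℕ} (hNq : Nat.Coprime N q) {z : ℤ}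
    (h : h32_IsNZq N q (z : ℚ)) : (N : ℤ) ∣ z := by
  obtain ⟨k, m, hm⟩ := h
  have h1 : z * (q : ℤ) ^ k = N * m := by exact_mod_cast hm
  have hcop : IsCoprime (N : ℤ) ((q : ℤ) ^ k) :=
    (Nat.isCoprime_iff_coprime.mpr hNq).pow_right
  exact hcop.dvd_of_dvd_mul_right ⟨m, h1⟩

theorem h27e_mul_apply (X Y : h11_S) (i j : Fin 2) :
    (X * Y) i j = X i 0 * Y 0 j + X i 1 * Y 1 j := by
  rw [Matrix.SpecialLinearGroup.coe_mul, Matrix.mul_apply, Fin.sum_univ_two]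

theorem h27e_mul_applyZ (X Y : h11_Z) (i j : Fin 2) :
    (X * Y) i j = X i 0 * Y 0 j + X i 1 * Y 1 j := by
  rw [Matrix.SpecialLinearGroup.coe_mul, Matrix.mul_apply, Fin.sum_univ_two]

theorem h27e_inv_apply (X : h11_S) :
    (X⁻¹ : h11_S) 0 0 = X 1 1 ∧ (X⁻¹ : h11_S) 0 1 = - X 0 1 ∧
    (X⁻¹ : h11_S) 1 0 = - X 1 0 ∧ (X⁻¹ : h11_S) 1 1 = X 0 0 := by
  rw [Matrix.SpecialLinearGroup.coe_inv, Matrix.adjugate_fin_two]
  exact ⟨rfl, rfl, rfl, rfl⟩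

theorem h27e_inv_applyZ (X : h11_Z) :
    (X⁻¹ : h11_Z) 0 0 = X 1 1 ∧ (X⁻¹ : h11_Z) 0 1 = - X 0 1 ∧
    (X⁻¹ : h11_Z) 1 0 = - X 1 0 ∧ (X⁻¹ : h11_Z) 1 1 = X 0 0 := by
  rw [Matrix.SpecialLinearGroup.coe_inv, Matrix.adjugate_fin_two]
  exact ⟨rfl, rfl, rfl, rfl⟩

theorem h27e_det (X : h11_S) : X 0 0 * X 1 1 - X 0 1 * X 1 0 = 1 := by
  have h := X.det_coe
  rw [Matrix.det_fin_two] at h
  exact h

theorem h27e_detZ (X : h11_Z) : X 0 0 * X 1 1 - X 0 1 * X 1 0 = 1 := by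
  have h := X.det_coe
  rw [Matrix.det_fin_two] at h
  exact h

theorem h27e_ext_mat {X Y : h11_S} (h00 : X 0 0 = Y 0 0) (h01 : X 0 1 = Y 0 1)
    (h10 : X 1 0 = Y 1 0) (h11 : X 1 1 = Y 1 1) : X = Y := by
  ext i j
  fin_cases i <;> fin_cases j
  · exact h00
  · exact h01
  · exact h10
  · exact h11

section Ext

variable {N q : ℕ} {A : Type*} [CommGroup A]

/-- The induction predicate: `ψ x = ψ (ι g)` for some `g ∈ Γ₀(N)` with `d(g) ≡ d(x)`. -/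
def h27e_P (ψ : h32_Delta N q →* A) (x : h11_S) : Prop :=
  ∃ (hx : x ∈ h32_Delta N q) (g : Gamma0 N),
    ψ ⟨x, hx⟩ = ψ ⟨h32_iota g, h32_iota_mem_Delta N q g⟩ ∧
      h32_IsNZq N q (x 1 1 - (((g : h11_Z) 1 1 : ℤ) : ℚ))

theorem h27e_P_iota (ψ : h32_Delta N q →* A) (g : Gamma0 N) :
    h27e_P ψ (h32_iota (g : h11_Z)) :=
  ⟨h32_iota_mem_Delta N q g, g, rfl, by
    rw [h32_iota_apply, sub_self]; exact h32_IsNZq_zero N q⟩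

theorem h27e_P_one (ψ : h32_Delta N q →* A) : h27e_P ψ (1 : h11_S) := by
  have := h27e_P_iota ψ (1 : Gamma0 N)
  simpa using this

theorem h27e_P_mul (ψ : h32_Delta N q →* A) {x y : h11_S} (hx : h27e_P ψ x)
    (hy : h27e_P ψ y) : h27e_P ψ (x * y) := by
  obtain ⟨hxΔ, gx, hψx, hdx⟩ := hx
  obtain ⟨hyΔ, gy, hψy, hdy⟩ := hy
  refine ⟨mul_mem hxΔ hyΔ, gx * gy, ?_, ?_⟩
  · have e1 : (⟨x * y, mul_mem hxΔ hyΔ⟩ : h32_Delta N q) = ⟨x, hxΔ⟩ * ⟨y, hyΔ⟩ := rfl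
    have e2 : (⟨h32_iota ((gx * gy : Gamma0 N) : h11_Z),
        h32_iota_mem_Delta N q (gx * gy)⟩ : h32_Delta N q) =
        ⟨h32_iota gx, h32_iota_mem_Delta N q gx⟩ *
          ⟨h32_iota gy, h32_iota_mem_Delta N q gy⟩ := by
      apply Subtype.ext
      simp
    rw [e1, e2, map_mul, map_mul, hψx, hψy]
  · have hc : (N : ℤ) ∣ (gx : h11_Z) 1 0 := (h32_mem_Gamma0_iff N gx.1).1 gx.2
    have e : (x * y) 1 1 - ((((gx * gy : Gamma0 N) : h11_Z) 1 1 : ℤ) : ℚ) =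
        x 1 0 * y 0 1 + -((((gx : h11_Z) 1 0 * (gy : h11_Z) 0 1 : ℤ)) : ℚ) +
          (x 1 1 - (((gx : h11_Z) 1 1 : ℤ) : ℚ)) * y 1 1 +
          (((gx : h11_Z) 1 1 : ℤ) : ℚ) * (y 1 1 - (((gy : h11_Z) 1 1 : ℤ) : ℚ)) := by
      rw [h27e_mul_apply]
      have : ((gx * gy : Gamma0 N) : h11_Z) = (gx : h11_Z) * (gy : h11_Z) := rfl
      rw [this, h27e_mul_applyZ]
      push_cast
      ring
    rw [e]
    exact h32_IsNZq_add (h32_IsNZq_add (h32_IsNZq_add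
      (h32_IsNZq_mul_left hxΔ.2 (hyΔ.1 0 1))
      (h32_IsNZq_neg (h32_IsNZq_int _ (Dvd.dvd.mul_right hc _))))
      (h32_IsNZq_mul_left hdx (hyΔ.1 1 1)))
      (h32_IsNZq_mul_right (h32_IsZq_int q _) hdy)

theorem h27e_P_inv (ψ : h32_Delta N q →* A) {x : h11_S} (hx : h27e_P ψ x) :
    h27e_P ψ x⁻¹ := by
  obtain ⟨hxΔ, g, hψx, hdx⟩ := hx
  refine ⟨inv_mem hxΔ, g⁻¹, ?_, ?_⟩
  · have e1 : (⟨x⁻¹, inv_mem hxΔ⟩ : h32_Delta N q) = (⟨x, hxΔ⟩ : h32_Delta N q)⁻¹ := rfl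
    have e2 : (⟨h32_iota ((g⁻¹ : Gamma0 N) : h11_Z),
        h32_iota_mem_Delta N q g⁻¹⟩ : h32_Delta N q) =
        (⟨h32_iota g, h32_iota_mem_Delta N q g⟩ : h32_Delta N q)⁻¹ := by
      apply Subtype.ext
      simp
    rw [e1, e2, map_inv, map_inv, hψx]
  · have hc : (N : ℤ) ∣ (g : h11_Z) 1 0 := (h32_mem_Gamma0_iff N g.1).1 g.2
    have hdetx := h27e_det x
    have hdetg : ((((g : h11_Z) 0 0 : ℤ) : ℚ)) * (((g : h11_Z) 1 1 : ℤ) : ℚ) -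
        (((g : h11_Z) 0 1 : ℤ) : ℚ) * (((g : h11_Z) 1 0 : ℤ) : ℚ) = 1 := by
      exact_mod_cast h27e_detZ (g : h11_Z)
    have e : (x⁻¹ : h11_S) 1 1 - ((((g⁻¹ : Gamma0 N) : h11_Z) 1 1 : ℤ) : ℚ) =
        (x 0 0 * (((g : h11_Z) 0 0 : ℤ) : ℚ)) * -(x 1 1 - (((g : h11_Z) 1 1 : ℤ) : ℚ)) +
          -(x 0 0 * ((((g : h11_Z) 0 1 * (g : h11_Z) 1 0 : ℤ)) : ℚ)) +
          ((((g : h11_Z) 0 0 : ℤ) : ℚ) * x 0 1) * x 1 0 := by
      have : ((g⁻¹ : Gamma0 N) : h11_Z) = (g : h11_Z)⁻¹ := rfl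
      rw [this, (h27e_inv_apply x).2.2.2, (h27e_inv_applyZ (g : h11_Z)).2.2.2]
      push_cast
      linear_combination (-(x 0 0)) * hdetg + ((((g : h11_Z) 0 0 : ℤ) : ℚ)) * hdetx
    rw [e]
    exact h32_IsNZq_add (h32_IsNZq_add
      (h32_IsNZq_mul_right (h32_IsZq_mul (hxΔ.1 0 0) (h32_IsZq_int q _)) (h32_IsNZq_neg hdx))
      (h32_IsNZq_neg (h32_IsNZq_mul_right (hxΔ.1 0 0)
        (h32_IsNZq_int _ (Dvd.dvd.mul_left hc _)))))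
      (h32_IsNZq_mul_right (h32_IsZq_mul (h32_IsZq_int q _) (hxΔ.1 0 1)) hxΔ.2)

/-- The generators of the second kind: `g⁻¹ ι(γ) g`, `g = diag(q, 1)`. -/
theorem h27e_P_cg [NeZero q] (hNq : Nat.Coprime N q) (ψ : h32_Delta N q →* A)
    (h2 : ∀ g : Gamma0 N, (N : ℤ) ∣ (g : h11_Z) 1 1 - 1 →
      ψ ⟨h32_cg q (h32_iota g), h32_cg_iota_mem_Delta N q g⟩ = 1)
    (g0 : Gamma0 N) : h27e_P ψ (h32_cg q (h32_iota (g0 : h11_Z))) := by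
  have hc0 : (N : ℤ) ∣ (g0 : h11_Z) 1 0 := (h32_mem_Gamma0_iff N g0.1).1 g0.2
  have hdet0 := h27e_detZ (g0 : h11_Z)
  -- `d'' ≡ d₀ mod N`, `d'' ≡ 1 mod q`
  obtain ⟨d2, hd2q, hd2N⟩ := h32_crt hNq (1 : ℤ) ((g0 : h11_Z) 1 1)
  -- `d''` is prime to `N q`
  have hcopN : IsCoprime d2 (N : ℤ) := by
    obtain ⟨k, hk⟩ := hd2N
    obtain ⟨c, hc⟩ := hc0
    refine ⟨(g0 : h11_Z) 0 0, -((g0 : h11_Z) 0 0 * k) - (g0 : h11_Z) 0 1 * c, ?_⟩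
    rw [hc] at hdet0
    linear_combination hdet0 + (g0 : h11_Z) 0 0 * hk
  have hcopq : IsCoprime d2 (q : ℤ) := by
    obtain ⟨k, hk⟩ := hd2q
    exact ⟨1, -k, by linear_combination hk⟩
  obtain ⟨a2, e, hae⟩ := (hcopN.mul_right hcopq : IsCoprime d2 ((N : ℤ) * q))
  -- the two integral matrices
  obtain ⟨g2, hg2⟩ : ∃ g2 : h11_Z, g2 = h11_mkZ a2 q (-(N * e)) d2
      (by linear_combination hae) := ⟨_, rfl⟩
  obtain ⟨g1, hg1⟩ : ∃ g1 : h11_Z, g1 = h11_mkZ a2 1 (-(N * q * e)) d2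
      (by linear_combination hae) := ⟨_, rfl⟩
  have e2 : g2 0 0 = a2 ∧ g2 0 1 = q ∧ g2 1 0 = -(N * e) ∧ g2 1 1 = d2 := by
    rw [hg2]; exact ⟨rfl, rfl, rfl, rfl⟩
  have e1 : g1 0 0 = a2 ∧ g1 0 1 = 1 ∧ g1 1 0 = -(N * q * e) ∧ g1 1 1 = d2 := by
    rw [hg1]; exact ⟨rfl, rfl, rfl, rfl⟩
  have hg2m : g2 ∈ Gamma0 N := by
    rw [h32_mem_Gamma0_iff, e2.2.2.1]; exact ⟨-e, by ring⟩
  have hg1m : g1 ∈ Gamma0 N := by
    rw [h32_mem_Gamma0_iff, e1.2.2.1]; exact ⟨-(q * e), by ring⟩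
  have hq0 : (q : ℚ) ≠ 0 := Nat.cast_ne_zero.mpr (NeZero.ne q)
  -- `g⁻¹ ι(g2) g = ι(g1)`
  have hcg : h32_cg q (h32_iota g2) = h32_iota g1 := by
    apply h27e_ext_mat
    · show (h32_iota g2) 0 0 = (h32_iota g1) 0 0
      rw [h32_iota_apply, h32_iota_apply, e2.1, e1.1]
    · show (h32_iota g2) 0 1 / q = (h32_iota g1) 0 1
      rw [h32_iota_apply, h32_iota_apply, e2.2.1, e1.2.1]
      push_cast
      exact div_self hq0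
    · show q * (h32_iota g2) 1 0 = (h32_iota g1) 1 0
      rw [h32_iota_apply, h32_iota_apply, e2.2.2.1, e1.2.2.1]
      push_cast
      ring
    · show (h32_iota g2) 1 1 = (h32_iota g1) 1 1
      rw [h32_iota_apply, h32_iota_apply, e2.2.2.2, e1.2.2.2]
  -- the quotient `g2⁻¹ g0` has `d ≡ 1 mod N`
  obtain ⟨g3, hg3⟩ : ∃ g3 : Gamma0 N, g3 = ⟨g2, hg2m⟩⁻¹ * g0 := ⟨_, rfl⟩
  have hg3' : (g3 : h11_Z) = g2⁻¹ * (g0 : h11_Z) := by rw [hg3]; rfl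
  have hquot : (N : ℤ) ∣ (g3 : h11_Z) 1 1 - 1 := by
    rw [hg3', h27e_mul_applyZ, (h27e_inv_applyZ g2).2.2.1, (h27e_inv_applyZ g2).2.2.2,
      e2.1, e2.2.2.1]
    obtain ⟨k, hk⟩ := hd2N
    refine ⟨e * (g0 : h11_Z) 0 1 - a2 * k - q * e, ?_⟩
    linear_combination hae - a2 * hk
  have hψq : ψ ⟨h32_cg q (h32_iota g3), h32_cg_iota_mem_Delta N q g3⟩ = 1 := h2 g3 hquot
  refine ⟨h32_cg_iota_mem_Delta N q g0, ⟨g1, hg1m⟩, ?_, ?_⟩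
  · have hsplit : (⟨h32_cg q (h32_iota (g0 : h11_Z)), h32_cg_iota_mem_Delta N q g0⟩ :
        h32_Delta N q) =
        ⟨h32_iota g1, h32_iota_mem_Delta N q ⟨g1, hg1m⟩⟩ *
          ⟨h32_cg q (h32_iota (g3 : h11_Z)), h32_cg_iota_mem_Delta N q g3⟩ := by
      apply Subtype.ext
      show h32_cg q (h32_iota (g0 : h11_Z)) =
        h32_iota g1 * h32_cg q (h32_iota (g3 : h11_Z))
      rw [hg3', ← hcg, ← map_mul, ← map_mul, mul_inv_cancel_left]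
    rw [hsplit, map_mul, hψq, mul_one]
  · show h32_IsNZq N q ((h32_cg q (h32_iota (g0 : h11_Z))) 1 1 - ((g1 1 1 : ℤ) : ℚ))
    have h11 : (h32_cg q (h32_iota (g0 : h11_Z))) 1 1 = (((g0 : h11_Z) 1 1 : ℤ) : ℚ) := rfl
    rw [h11, e1.2.2.2]
    have := h32_IsNZq_neg (h32_IsNZq_int (N := N) (q := q) _ hd2N)
    convert this using 1
    push_cast; ring

/-- **L-EXT.** If `ψ : Δ → A` kills the elements with `d ≡ 1 mod N` of both copies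
`ι(Γ₀(N))`, `g⁻¹ ι(Γ₀(N)) g` of `Γ₀(N)`, then it kills every `δ ∈ Δ` with `d ≡ 1 mod N`. -/
theorem h27e_ext [NeZero q] (hq : q.Prime) (hNq : Nat.Coprime N q)
    (ψ : h32_Delta N q →* A)
    (h1 : ∀ g : Gamma0 N, (N : ℤ) ∣ (g : h11_Z) 1 1 - 1 →
      ψ ⟨h32_iota g, h32_iota_mem_Delta N q g⟩ = 1)
    (h2 : ∀ g : Gamma0 N, (N : ℤ) ∣ (g : h11_Z) 1 1 - 1 →
      ψ ⟨h32_cg q (h32_iota g), h32_cg_iota_mem_Delta N q g⟩ = 1)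
    (d : h32_Delta N q) (hd : h32_IsNZq N q ((d : h11_S) 1 1 - 1)) : ψ d = 1 := by
  have hmem : (d : h11_S) ∈ Subgroup.closure
      ((((Gamma0 N).map h32_iota : Subgroup h11_S) : Set h11_S) ∪
        ((((Gamma0 N).map h32_iota).map (h32_cg q) : Subgroup h11_S) : Set h11_S)) := by
    rw [← Subgroup.sup_eq_closure, ← h32_Delta_eq_sup hq hNq]
    exact d.2
  have hP : h27e_P ψ (d : h11_S) := by
    refine Subgroup.closure_induction (p := fun x _ => h27e_P ψ x) ?_ ?_ ?_ ?_ hmem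
    · rintro x (hx | hx)
      · obtain ⟨g, hg, rfl⟩ := hx
        exact h27e_P_iota ψ ⟨g, hg⟩
      · obtain ⟨_, ⟨g, hg, rfl⟩, rfl⟩ := hx
        exact h27e_P_cg hNq ψ h2 ⟨g, hg⟩
    · exact h27e_P_one ψ
    · intro x y _ _ hx hy
      exact h27e_P_mul ψ hx hy
    · intro x _ hx
      exact h27e_P_inv ψ hx
  obtain ⟨hdΔ, g, hψ, hdg⟩ := hP
  have hg1 : (N : ℤ) ∣ (g : h11_Z) 1 1 - 1 := by
    apply h27e_dvd_of_IsNZq hNq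
    have := h11_IsNZq_sub hd hdg
    convert this using 1
    push_cast; ring
  have : (⟨(d : h11_S), hdΔ⟩ : h32_Delta N q) = d := rfl
  rw [← this, hψ, h1 g hg1]

end Ext

end Fermat.Agent.LR
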