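/-
P-LR (S41), item (5c) CSP, leaf L-CENTGOOD (Step 2(i),(ii) of finding #724):
if the upper right entry `b` of `x ∈ Γ(n)` is good (`b κ = q^k - 1`, `κ ≡ -1 mod n`), then
`f (l(1) x l(1)⁻¹) = f x` for every admissible `f` of level `n`.

Proof.  `[l(1), x]` has first row `(1 - b d, b²)`, the same as `h(v) U`, `v = q^k`,
`U = [[1 - bγ/v, b²/v], [-γ²/v, 1 + bγ/v]]`, `γ = d + κ`; two elements of `Γ(n)[1/q]` with the
same first row have the same `f`-value (they differ by a lower unipotent); `f U = 1`, and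
`f (h v) = f (h(v) l(n v)) = f P`, `P = [[v, -(v-1)²/n], [n, 2 - v]]` unipotent with the same
first column as `h(v) l(n v)`.  (helper91)
-/
import Fermat.Agent.LR.CSP.Leaves

namespace Fermat.Agent.LR

open Matrix CongruenceSubgroup

universe u

/-- the element `[[a, b], [c, d]]` of `SL(2, ℚ)`. -/
noncomputable def h91c_mk (a b c d : ℚ) (h : a * d - b * c = 1) : h11_S :=
  ⟨!![a, b; c, d], by rw [Matrix.det_fin_two_of]; exact h⟩

@[simp] theorem h91c_mk_00 (a b c d : ℚ) (h : a * d - b * c = 1) : (h91c_mk a b c d h) 0 0 = a := rfl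
@[simp] theorem h91c_mk_01 (a b c d : ℚ) (h : a * d - b * c = 1) : (h91c_mk a b c d h) 0 1 = b := rfl
@[simp] theorem h91c_mk_10 (a b c d : ℚ) (h : a * d - b * c = 1) : (h91c_mk a b c d h) 1 0 = c := rfl
@[simp] theorem h91c_mk_11 (a b c d : ℚ) (h : a * d - b * c = 1) : (h91c_mk a b c d h) 1 1 = d := rfl

theorem h91c_mul_00 {R : Type*} [CommRing R] (X Y : Matrix.SpecialLinearGroup (Fin 2) R) :
    (X * Y) 0 0 = X 0 0 * Y 0 0 + X 0 1 * Y 1 0 := by
  rw [Matrix.SpecialLinearGroup.coe_mul, Matrix.mul_apply, Fin.sum_univ_two]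

theorem h91c_mul_01 {R : Type*} [CommRing R] (X Y : Matrix.SpecialLinearGroup (Fin 2) R) :
    (X * Y) 0 1 = X 0 0 * Y 0 1 + X 0 1 * Y 1 1 := by
  rw [Matrix.SpecialLinearGroup.coe_mul, Matrix.mul_apply, Fin.sum_univ_two]

theorem h91c_mul_10 {R : Type*} [CommRing R] (X Y : Matrix.SpecialLinearGroup (Fin 2) R) :
    (X * Y) 1 0 = X 1 0 * Y 0 0 + X 1 1 * Y 1 0 := by
  rw [Matrix.SpecialLinearGroup.coe_mul, Matrix.mul_apply, Fin.sum_univ_two]

theorem h91c_mul_11 {R : Type*} [CommRing R] (X Y : Matrix.SpecialLinearGroup (Fin 2) R) :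
    (X * Y) 1 1 = X 1 0 * Y 0 1 + X 1 1 * Y 1 1 := by
  rw [Matrix.SpecialLinearGroup.coe_mul, Matrix.mul_apply, Fin.sum_univ_two]

theorem h91c_inv_00 {R : Type*} [CommRing R] (X : Matrix.SpecialLinearGroup (Fin 2) R) :
    (X⁻¹ : Matrix.SpecialLinearGroup (Fin 2) R) 0 0 = X 1 1 := by
  rw [Matrix.SpecialLinearGroup.coe_inv, Matrix.adjugate_fin_two]; rfl

theorem h91c_inv_01 {R : Type*} [CommRing R] (X : Matrix.SpecialLinearGroup (Fin 2) R) :
    (X⁻¹ : Matrix.SpecialLinearGroup (Fin 2) R) 0 1 = - X 0 1 := by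
  rw [Matrix.SpecialLinearGroup.coe_inv, Matrix.adjugate_fin_two]; rfl

theorem h91c_inv_10 {R : Type*} [CommRing R] (X : Matrix.SpecialLinearGroup (Fin 2) R) :
    (X⁻¹ : Matrix.SpecialLinearGroup (Fin 2) R) 1 0 = - X 1 0 := by
  rw [Matrix.SpecialLinearGroup.coe_inv, Matrix.adjugate_fin_two]; rfl

theorem h91c_inv_11 {R : Type*} [CommRing R] (X : Matrix.SpecialLinearGroup (Fin 2) R) :
    (X⁻¹ : Matrix.SpecialLinearGroup (Fin 2) R) 1 1 = X 0 0 := by
  rw [Matrix.SpecialLinearGroup.coe_inv, Matrix.adjugate_fin_two]; rfl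

theorem h91c_L1_00 : h11_L1 0 0 = 1 := rfl
theorem h91c_L1_01 : h11_L1 0 1 = 0 := rfl
theorem h91c_L1_10 : h11_L1 1 0 = 1 := rfl
theorem h91c_L1_11 : h11_L1 1 1 = 1 := rfl

theorem h91c_det (X : h11_S) : X 0 0 * X 1 1 - X 0 1 * X 1 0 = 1 := by
  have h := X.det_coe
  rw [Matrix.det_fin_two] at h
  exact h

theorem h91c_trace (X : h11_S) :
    (X : Matrix (Fin 2) (Fin 2) ℚ).trace = X 0 0 + X 1 1 := Matrix.trace_fin_two _

/-- Two elements of `Γ(n)[1/q]` with the same first row have the same `f`-value. -/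
theorem h91c_row {n q : ℕ} {A : Type*} [CommGroup A] {f : h11_S → A} (hf : h11_Adm n q f)
    {X Y : h11_S} (hX : X ∈ h11_Gam n q) (hY : Y ∈ h11_Gam n q)
    (h0 : X 0 0 = Y 0 0) (h1 : X 0 1 = Y 0 1) : f X = f Y := by
  have hZ : X * Y⁻¹ ∈ h11_Gam n q := (h11_Gam n q).mul_mem hX ((h11_Gam n q).inv_mem hY)
  have hdY := h91c_det Y
  have z00 : (X * Y⁻¹) 0 0 = 1 := by
    rw [h91c_mul_00, h91c_inv_00, h91c_inv_10, h0, h1]
    linear_combination hdY
  have z01 : (X * Y⁻¹) 0 1 = 0 := by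
    rw [h91c_mul_01, h91c_inv_01, h91c_inv_11, h0, h1]
    ring
  have z11 : (X * Y⁻¹) 1 1 = 1 := by
    have := h91c_det (X * Y⁻¹)
    rw [z00, z01] at this
    linear_combination this
  have htr : ((X * Y⁻¹ : h11_S) : Matrix (Fin 2) (Fin 2) ℚ).trace = 2 := by
    rw [h91c_trace, z00, z11]; norm_num
  have hfZ := hf.unip _ hZ htr
  have := hf.map_mul _ _ hZ hY
  rw [inv_mul_cancel_right, hfZ, one_mul] at this
  exact this

/-- Two elements of `Γ(n)[1/q]` with the same first column have the same `f`-value. -/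
theorem h91c_col {n q : ℕ} {A : Type*} [CommGroup A] {f : h11_S → A} (hf : h11_Adm n q f)
    {X Y : h11_S} (hX : X ∈ h11_Gam n q) (hY : Y ∈ h11_Gam n q)
    (h0 : X 0 0 = Y 0 0) (h1 : X 1 0 = Y 1 0) : f X = f Y := by
  have hZ : Y⁻¹ * X ∈ h11_Gam n q := (h11_Gam n q).mul_mem ((h11_Gam n q).inv_mem hY) hX
  have hdY := h91c_det Y
  have z00 : (Y⁻¹ * X) 0 0 = 1 := by
    rw [h91c_mul_00, h91c_inv_00, h91c_inv_01, h0, h1]
    linear_combination hdY
  have z10 : (Y⁻¹ * X) 1 0 = 0 := by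
    rw [h91c_mul_10, h91c_inv_10, h91c_inv_11, h0, h1]
    ring
  have z11 : (Y⁻¹ * X) 1 1 = 1 := by
    have := h91c_det (Y⁻¹ * X)
    rw [z00, z10] at this
    linear_combination this
  have htr : ((Y⁻¹ * X : h11_S) : Matrix (Fin 2) (Fin 2) ℚ).trace = 2 := by
    rw [h91c_trace, z00, z11]; norm_num
  have hfZ := hf.unip _ hZ htr
  have := hf.map_mul _ _ hY hZ
  rw [mul_inv_cancel_left, hfZ, mul_one] at this
  exact this

/-- `ι` maps `Γ(n)` into `Γ(n)[1/q]`. -/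
theorem h91c_iota_mem (n q : ℕ) {x : h11_Z} (hx : x ∈ Gamma n) : h32_iota x ∈ h11_Gam n q := by
  rw [Gamma_mem] at hx
  obtain ⟨h00, h01, h10, h11⟩ := hx
  have d00 : (n : ℤ) ∣ x 0 0 - 1 := by
    rw [← ZMod.intCast_zmod_eq_zero_iff_dvd]; push_cast; rw [h00]; ring
  have d01 : (n : ℤ) ∣ x 0 1 := by
    rw [← ZMod.intCast_zmod_eq_zero_iff_dvd]; exact h01
  have d10 : (n : ℤ) ∣ x 1 0 := by
    rw [← ZMod.intCast_zmod_eq_zero_iff_dvd]; exact h10
  have d11 : (n : ℤ) ∣ x 1 1 - 1 := by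
    rw [← ZMod.intCast_zmod_eq_zero_iff_dvd]; push_cast; rw [h11]; ring
  refine ⟨?_, ?_, ?_, ?_⟩
  · have := h32_IsNZq_int (N := n) (q := q) _ d00
    rw [h32_iota_apply]; push_cast at this; exact this
  · have := h32_IsNZq_int (N := n) (q := q) _ d01
    rw [h32_iota_apply]; exact this
  · have := h32_IsNZq_int (N := n) (q := q) _ d10
    rw [h32_iota_apply]; exact this
  · have := h32_IsNZq_int (N := n) (q := q) _ d11
    rw [h32_iota_apply]; push_cast at this; exact this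

theorem h91c_Gamma_dvd {n : ℕ} {x : h11_Z} (hx : x ∈ Gamma n) :
    (n : ℤ) ∣ x 0 0 - 1 ∧ (n : ℤ) ∣ x 0 1 ∧ (n : ℤ) ∣ x 1 0 ∧ (n : ℤ) ∣ x 1 1 - 1 := by
  rw [Gamma_mem] at hx
  obtain ⟨h00, h01, h10, h11⟩ := hx
  refine ⟨?_, ?_, ?_, ?_⟩
  · rw [← ZMod.intCast_zmod_eq_zero_iff_dvd]; push_cast; rw [h00]; ring
  · rw [← ZMod.intCast_zmod_eq_zero_iff_dvd]; exact h01
  · rw [← ZMod.intCast_zmod_eq_zero_iff_dvd]; exact h10
  · rw [← ZMod.intCast_zmod_eq_zero_iff_dvd]; push_cast; rw [h11]; ring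

theorem h91c_mk_mem {n q : ℕ} {a b c d : ℚ} (h : a * d - b * c = 1)
    (ha : h32_IsNZq n q (a - 1)) (hb : h32_IsNZq n q b) (hc : h32_IsNZq n q c)
    (hd : h32_IsNZq n q (d - 1)) : h91c_mk a b c d h ∈ h11_Gam n q :=
  ⟨ha, hb, hc, hd⟩

theorem h91c_mk_trace (a b c d : ℚ) (h : a * d - b * c = 1) :
    ((h91c_mk a b c d h : h11_S) : Matrix (Fin 2) (Fin 2) ℚ).trace = a + d := by
  rw [h91c_trace]; rfl

/-- **L-CENTGOOD.** -/
theorem h91_centGood : h11_CentGoodStatement.{u} := by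
  intro n q hq hn A _ f hf x hx k κ hk hκ hnκ
  have : NeZero q := ⟨hq.ne_zero⟩
  have hq0 : (q : ℚ) ≠ 0 := Nat.cast_ne_zero.mpr hq.ne_zero
  have hn0 : (n : ℚ) ≠ 0 := Nat.cast_ne_zero.mpr hn.ne'
  obtain ⟨d00, d01, d10, d11⟩ := h91c_Gamma_dvd hx
  -- notation
  set a : ℤ := x 0 0 with ha
  set b : ℤ := x 0 1 with hb
  set c : ℤ := x 1 0 with hc
  set d : ℤ := x 1 1 with hd
  have hdet : a * d - b * c = 1 := by
    have h := x.det_coe
    rw [Matrix.det_fin_two] at h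
    exact h
  have hdetQ : (a : ℚ) * d - b * c = 1 := by exact_mod_cast hdet
  set v : ℚ := (q : ℚ) ^ k with hv
  have hv0 : v ≠ 0 := pow_ne_zero k hq0
  have hκQ : (b : ℚ) * κ = v - 1 := by
    rw [hv]; exact_mod_cast hκ
  have hvR : h32_IsZq q v := h15lr_IsZq_pow q k
  have hviR : h32_IsZq q v⁻¹ := h15lr_IsZq_pow_inv q k
  -- `γ = d + κ ∈ n ℤ`
  set γ : ℤ := d + κ with hγ
  have hnγ : (n : ℤ) ∣ γ := by
    have : γ = (d - 1) + (κ + 1) := by rw [hγ]; ring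
    rw [this]; exact dvd_add d11 hnκ
  obtain ⟨b₀, hb₀⟩ := d01
  have hbN : h32_IsNZq n q (b : ℚ) := h32_IsNZq_int b ⟨b₀, hb₀⟩
  have hγN : h32_IsNZq n q (γ : ℚ) := h32_IsNZq_int γ hnγ
  have hv1N : h32_IsNZq n q (v - 1) := by
    rw [← hκQ]
    exact h32_IsNZq_mul_left hbN (h32_IsZq_int q κ)
  -- the matrices
  have hUdet : (1 - (b : ℚ) * γ / v) * (1 + (b : ℚ) * γ / v)
      - ((b : ℚ) ^ 2 / v) * (-((γ : ℚ) ^ 2) / v) = 1 := by
    field_simp
    ring
  set U : h11_S := h91c_mk _ _ _ _ hUdet with hU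
  have hDdet : v * v⁻¹ - 0 * 0 = 1 := by
    rw [mul_inv_cancel₀ hv0]; ring
  set D : h11_S := h91c_mk _ _ _ _ hDdet with hD
  have hLdet : (1 : ℚ) * 1 - 0 * ((n : ℚ) * v) = 1 := by ring
  set L : h11_S := h91c_mk _ _ _ _ hLdet with hL
  have hPdet : v * (2 - v) - (-((v - 1) ^ 2) / n) * (n : ℚ) = 1 := by
    field_simp
    ring
  set P : h11_S := h91c_mk _ _ _ _ hPdet with hP
  -- memberships
  have hUmem : U ∈ h11_Gam n q := by
    refine h91c_mk_mem _ ?_ ?_ ?_ ?_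
    · have e : (1 - (b : ℚ) * γ / v - 1) = (b : ℚ) * (-(γ : ℚ) * v⁻¹) := by
        field_simp
        ring
      rw [e]
      exact h32_IsNZq_mul_left hbN (h32_IsZq_mul (h32_IsZq_neg (h32_IsZq_int q γ)) hviR)
    · have e : ((b : ℚ) ^ 2 / v) = (b : ℚ) * ((b : ℚ) * v⁻¹) := by
        field_simp
      rw [e]
      exact h32_IsNZq_mul_left hbN (h32_IsZq_mul (h32_IsZq_int q b) hviR)
    · have e : (-((γ : ℚ) ^ 2) / v) = (γ : ℚ) * (-(γ : ℚ) * v⁻¹) := by
        field_simp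
      rw [e]
      exact h32_IsNZq_mul_left hγN (h32_IsZq_mul (h32_IsZq_neg (h32_IsZq_int q γ)) hviR)
    · have e : (1 + (b : ℚ) * γ / v - 1) = (b : ℚ) * ((γ : ℚ) * v⁻¹) := by
        field_simp
        ring
      rw [e]
      exact h32_IsNZq_mul_left hbN (h32_IsZq_mul (h32_IsZq_int q γ) hviR)
  have hDmem : D ∈ h11_Gam n q := by
    refine h91c_mk_mem _ hv1N (h32_IsNZq_zero n q) (h32_IsNZq_zero n q) ?_
    have e : v⁻¹ - 1 = (v - 1) * (-v⁻¹) := by
      field_simp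
      ring
    rw [e]
    exact h32_IsNZq_mul_left hv1N (h32_IsZq_neg hviR)
  have hLmem : L ∈ h11_Gam n q := by
    refine h91c_mk_mem _ ?_ (h32_IsNZq_zero n q) (h11_IsNZq_self_mul hvR) ?_
    · simpa using h32_IsNZq_zero n q
    · simpa using h32_IsNZq_zero n q
  have hPmem : P ∈ h11_Gam n q := by
    refine h91c_mk_mem _ hv1N ?_ ?_ ?_
    · have e : (-((v - 1) ^ 2) / n) = (v - 1) * (-((b₀ : ℚ) * κ)) := by
        have hb' : (b : ℚ) = n * b₀ := by exact_mod_cast hb₀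
        rw [← hκQ, hb']
        field_simp
      rw [e]
      exact h32_IsNZq_mul_left hv1N (h32_IsZq_neg (h32_IsZq_mul (h32_IsZq_int q b₀)
        (h32_IsZq_int q κ)))
    · have := h11_IsNZq_self_mul (n := n) (h32_IsZq_one q)
      simpa using this
    · have e : (2 - v - 1) = -(v - 1) := by ring
      rw [e]
      exact h32_IsNZq_neg hv1N
  have hxmem : h32_iota x ∈ h11_Gam n q := h91c_iota_mem n q hx
  have hcmem : h32_iota (h11_L1 * x * h11_L1⁻¹) ∈ h11_Gam n q :=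
    h91c_iota_mem n q ((Gamma_normal n).conj_mem x hx h11_L1)
  -- traces
  have hUtr : ((U : h11_S) : Matrix (Fin 2) (Fin 2) ℚ).trace = 2 := by
    rw [hU, h91c_mk_trace]; ring
  have hLtr : ((L : h11_S) : Matrix (Fin 2) (Fin 2) ℚ).trace = 2 := by
    rw [hL, h91c_mk_trace]; ring
  have hPtr : ((P : h11_S) : Matrix (Fin 2) (Fin 2) ℚ).trace = 2 := by
    rw [hP, h91c_mk_trace]; ring
  -- `f D = 1`
  have hfD : f D = 1 := by
    have h1 := hf.map_mul D L hDmem hLmem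
    rw [hf.unip L hLmem hLtr, mul_one] at h1
    rw [← h1]
    have hDL : D * L ∈ h11_Gam n q := (h11_Gam n q).mul_mem hDmem hLmem
    have h2 := h91c_col hf hDL hPmem (by
      rw [h91c_mul_00, hD, hL, hP]; simp) (by
      rw [h91c_mul_10, hD, hL, hP]; simp; field_simp)
    rw [h2]
    exact hf.unip P hPmem hPtr
  -- the commutator
  set X : h11_S := h32_iota (h11_L1 * x * h11_L1⁻¹) * (h32_iota x)⁻¹ with hX
  have hXmem : X ∈ h11_Gam n q := (h11_Gam n q).mul_mem hcmem ((h11_Gam n q).inv_mem hxmem)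
  have hc00 : (h32_iota (h11_L1 * x * h11_L1⁻¹)) 0 0 = (a : ℚ) - b := by
    rw [h32_iota_apply, h91c_mul_00, h91c_mul_00, h91c_mul_01, h91c_inv_00, h91c_inv_10,
      h91c_L1_00, h91c_L1_01, h91c_L1_10, h91c_L1_11]
    push_cast
    ring
  have hc01 : (h32_iota (h11_L1 * x * h11_L1⁻¹)) 0 1 = (b : ℚ) := by
    rw [h32_iota_apply, h91c_mul_01, h91c_mul_00, h91c_mul_01, h91c_inv_01, h91c_inv_11,
      h91c_L1_00, h91c_L1_01]
    push_cast
    ring
  have hX00 : X 0 0 = 1 - (b : ℚ) * d := by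
    rw [hX, h91c_mul_00, h91c_inv_00, h91c_inv_10, hc00, hc01, h32_iota_apply, h32_iota_apply]
    linear_combination hdetQ
  have hX01 : X 0 1 = (b : ℚ) ^ 2 := by
    rw [hX, h91c_mul_01, h91c_inv_01, h91c_inv_11, hc00, hc01, h32_iota_apply, h32_iota_apply]
    ring
  have hDU : D * U ∈ h11_Gam n q := (h11_Gam n q).mul_mem hDmem hUmem
  have hfX : f X = 1 := by
    have h1 := h91c_row hf hXmem hDU (by
      rw [hX00, h91c_mul_00, hD, hU]
      simp only [h91c_mk_00, h91c_mk_01, h91c_mk_10]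
      have hγQ : (γ : ℚ) = d + κ := by rw [hγ]; push_cast; ring
      have e : v * (1 - (b : ℚ) * γ / v) = v - (b : ℚ) * γ := by
        field_simp
      rw [e, hγQ]
      linear_combination hκQ) (by
      rw [hX01, h91c_mul_01, hD, hU]
      simp only [h91c_mk_00, h91c_mk_01, h91c_mk_11]
      have e : v * ((b : ℚ) ^ 2 / v) = (b : ℚ) ^ 2 := by
        field_simp
      rw [e]
      ring)
    rw [h1, hf.map_mul D U hDmem hUmem, hfD, hf.unip U hUmem hUtr, mul_one]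
  have h3 := hf.map_mul X (h32_iota x) hXmem hxmem
  rw [hX, inv_mul_cancel_right, ← hX, hfX, one_mul] at h3
  exact h3

end Fermat.Agent.LR
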