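import Mathlib.NumberTheory.LegendreSymbol.Basic
import Mathlib.NumberTheory.LegendreSymbol.QuadraticChar.Basic
import Mathlib.FieldTheory.Finite.Basic

/-!
# Step 6 of the abelianised congruence subgroup property for `Γ₀(N)[1/q]` (helper11, findings 724)

A function `F` on `(ℤ/π)ˣ` (`π ≡ 3 mod 4` prime) with values in an abelian group of odd prime
exponent `p`, `p ∤ π - 1`, which satisfies `F 1 = 0` and the functional equation
`F α₁ - F α₂ = F (α₁ / α₂)` whenever `α₂⁻¹ - α₁⁻¹` is a nonzero square, vanishes identically.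
-/

namespace Fermat.Agent.LR

theorem h91fe_chi_mul_self {π : ℕ} [Fact π.Prime] {a : ZMod π} (ha : a ≠ 0) :
    quadraticChar (ZMod π) a * quadraticChar (ZMod π) a = 1 := by
  rcases quadraticChar_dichotomy ha with h | h <;> rw [h] <;> norm_num

theorem h91fe_chi_inv {π : ℕ} [Fact π.Prime] {a : ZMod π} (ha : a ≠ 0) :
    quadraticChar (ZMod π) a⁻¹ = quadraticChar (ZMod π) a := by
  have h1 : quadraticChar (ZMod π) a * quadraticChar (ZMod π) a⁻¹ = 1 := by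
    rw [← map_mul, mul_inv_cancel₀ ha, map_one]
  rcases quadraticChar_dichotomy ha with h | h
  · rw [h] at h1 ⊢
    linarith
  · rw [h] at h1 ⊢
    linarith

theorem h91fe_chi_neg_one {π : ℕ} [Fact π.Prime] (hπ4 : π % 4 = 3) :
    quadraticChar (ZMod π) (-1) = -1 := by
  rw [quadraticChar_neg_one_iff_not_isSquare, ZMod.exists_sq_eq_neg_one_iff]
  simp [hπ4]

/-- the functional equation in product form -/
theorem h91fe_star {π : ℕ} [Fact π.Prime] {V : Type*} [AddCommGroup V]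
    (F : (ZMod π)ˣ → V)
    (hFE : ∀ α₁ α₂ : (ZMod π)ˣ, α₁ ≠ α₂ →
      IsSquare (((α₂⁻¹ : (ZMod π)ˣ) : ZMod π) - ((α₁⁻¹ : (ZMod π)ˣ) : ZMod π)) →
      F α₁ - F α₂ = F (α₁ / α₂))
    (x y : (ZMod π)ˣ) (hx : x ≠ 1)
    (h : quadraticChar (ZMod π) ((x : ZMod π) - 1) * quadraticChar (ZMod π) (x : ZMod π)
      * quadraticChar (ZMod π) (y : ZMod π) = 1) :
    F (x * y) = F x + F y := by
  have hx0 : (x : ZMod π) ≠ 0 := x.ne_zero
  have hy0 : (y : ZMod π) ≠ 0 := y.ne_zero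
  have hx1 : (x : ZMod π) - 1 ≠ 0 := by
    intro h0
    apply hx
    ext
    simpa [sub_eq_zero] using h0
  have hne : x * y ≠ y := by
    intro h0
    apply hx
    have : x * y = 1 * y := by simpa using h0
    exact mul_right_cancel this
  have heps : (((y⁻¹ : (ZMod π)ˣ) : ZMod π) - (((x * y)⁻¹ : (ZMod π)ˣ) : ZMod π))
      = ((x : ZMod π) - 1) * ((x : ZMod π) * (y : ZMod π))⁻¹ := by
    rw [Units.val_inv_eq_inv_val, Units.val_inv_eq_inv_val, Units.val_mul]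
    field_simp
  have hsq : IsSquare (((y⁻¹ : (ZMod π)ˣ) : ZMod π) - (((x * y)⁻¹ : (ZMod π)ˣ) : ZMod π)) := by
    rw [heps]
    have hne0 : ((x : ZMod π) - 1) * ((x : ZMod π) * (y : ZMod π))⁻¹ ≠ 0 :=
      mul_ne_zero hx1 (inv_ne_zero (mul_ne_zero hx0 hy0))
    rw [← quadraticChar_one_iff_isSquare hne0, map_mul, h91fe_chi_inv (mul_ne_zero hx0 hy0),
      map_mul, ← mul_assoc]
    exact h
  have := hFE (x * y) y hne hsq
  rw [mul_div_assoc, div_self', mul_one] at this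
  rw [← this]
  abel

/-- `χ (x⁻¹ - 1) = - χ (x - 1) χ x` when `π ≡ 3 mod 4`. -/
theorem h91fe_chi_inv_sub_one {π : ℕ} [Fact π.Prime] (hπ4 : π % 4 = 3) (x : (ZMod π)ˣ) :
    quadraticChar (ZMod π) (((x⁻¹ : (ZMod π)ˣ) : ZMod π) - 1)
      = - (quadraticChar (ZMod π) ((x : ZMod π) - 1) * quadraticChar (ZMod π) (x : ZMod π)) := by
  have hx0 : (x : ZMod π) ≠ 0 := x.ne_zero
  have e : (((x⁻¹ : (ZMod π)ˣ) : ZMod π) - 1) = (-1) * (((x : ZMod π) - 1) * (x : ZMod π)⁻¹) := by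
    rw [Units.val_inv_eq_inv_val]
    field_simp
    ring
  rw [e, map_mul, map_mul, h91fe_chi_neg_one hπ4, h91fe_chi_inv hx0]
  ring

section main

variable {π p : ℕ} [Fact π.Prime] {V : Type*} [AddCommGroup V] (F : (ZMod π)ˣ → V)

/-- (a), first clause -/
theorem h91fe_inv_of_sub_one (h1 : F 1 = 0)
    (hFE : ∀ α₁ α₂ : (ZMod π)ˣ, α₁ ≠ α₂ →
      IsSquare (((α₂⁻¹ : (ZMod π)ˣ) : ZMod π) - ((α₁⁻¹ : (ZMod π)ˣ) : ZMod π)) →
      F α₁ - F α₂ = F (α₁ / α₂))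
    (x : (ZMod π)ˣ) (hx : x ≠ 1) (hc : quadraticChar (ZMod π) ((x : ZMod π) - 1) = 1) :
    F x⁻¹ = - F x := by
  have hx0 : (x : ZMod π) ≠ 0 := x.ne_zero
  have := h91fe_star F hFE x x⁻¹ hx (by
    rw [hc, one_mul, Units.val_inv_eq_inv_val, h91fe_chi_inv hx0, h91fe_chi_mul_self hx0])
  rw [mul_inv_cancel, h1] at this
  exact eq_neg_of_add_eq_zero_right this.symm

/-- (a), second clause -/
theorem h91fe_inv_of_prod (hπ4 : π % 4 = 3) (h1 : F 1 = 0)
    (hFE : ∀ α₁ α₂ : (ZMod π)ˣ, α₁ ≠ α₂ →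
      IsSquare (((α₂⁻¹ : (ZMod π)ˣ) : ZMod π) - ((α₁⁻¹ : (ZMod π)ˣ) : ZMod π)) →
      F α₁ - F α₂ = F (α₁ / α₂))
    (x : (ZMod π)ˣ) (hx : x ≠ 1)
    (hc : quadraticChar (ZMod π) ((x : ZMod π) - 1) * quadraticChar (ZMod π) (x : ZMod π) = -1) :
    F x⁻¹ = - F x := by
  have hx0 : (x : ZMod π) ≠ 0 := x.ne_zero
  have hx' : x⁻¹ ≠ 1 := by simpa using hx
  have := h91fe_star F hFE x⁻¹ x hx' (by
    rw [h91fe_chi_inv_sub_one hπ4, hc, Units.val_inv_eq_inv_val, h91fe_chi_inv hx0, mul_assoc,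
      h91fe_chi_mul_self hx0]
    norm_num)
  rw [inv_mul_cancel, h1] at this
  exact eq_neg_of_add_eq_zero_left this.symm

/-- (a) for squares -/
theorem h91fe_inv_of_sq (hπ4 : π % 4 = 3) (h1 : F 1 = 0)
    (hFE : ∀ α₁ α₂ : (ZMod π)ˣ, α₁ ≠ α₂ →
      IsSquare (((α₂⁻¹ : (ZMod π)ˣ) : ZMod π) - ((α₁⁻¹ : (ZMod π)ˣ) : ZMod π)) →
      F α₁ - F α₂ = F (α₁ / α₂))
    (x : (ZMod π)ˣ) (hc : quadraticChar (ZMod π) (x : ZMod π) = 1) :
    F x⁻¹ = - F x := by
  by_cases hx : x = 1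
  · subst hx
    simp [h1]
  have hx1 : (x : ZMod π) - 1 ≠ 0 := by
    intro h0
    apply hx
    ext
    simpa [sub_eq_zero] using h0
  rcases quadraticChar_dichotomy hx1 with h | h
  · exact h91fe_inv_of_sub_one F h1 hFE x hx h
  · exact h91fe_inv_of_prod F hπ4 h1 hFE x hx (by rw [h, hc]; norm_num)

/-- (b): additivity on squares -/
theorem h91fe_add_of_sq (hπ4 : π % 4 = 3) (h1 : F 1 = 0)
    (hFE : ∀ α₁ α₂ : (ZMod π)ˣ, α₁ ≠ α₂ →
      IsSquare (((α₂⁻¹ : (ZMod π)ˣ) : ZMod π) - ((α₁⁻¹ : (ZMod π)ˣ) : ZMod π)) →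
      F α₁ - F α₂ = F (α₁ / α₂))
    (x y : (ZMod π)ˣ) (hcx : quadraticChar (ZMod π) (x : ZMod π) = 1)
    (hcy : quadraticChar (ZMod π) (y : ZMod π) = 1) :
    F (x * y) = F x + F y := by
  by_cases hx : x = 1
  · subst hx
    simp [h1]
  have hx0 : (x : ZMod π) ≠ 0 := x.ne_zero
  have hx1 : (x : ZMod π) - 1 ≠ 0 := by
    intro h0
    apply hx
    ext
    simpa [sub_eq_zero] using h0
  rcases quadraticChar_dichotomy hx1 with h | h
  · exact h91fe_star F hFE x y hx (by rw [h, hcx, hcy]; norm_num)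
  · have hx' : x⁻¹ ≠ 1 := by simpa using hx
    have := h91fe_star F hFE x⁻¹ (x * y) hx' (by
      rw [h91fe_chi_inv_sub_one hπ4, h, hcx, Units.val_inv_eq_inv_val, h91fe_chi_inv hx0, hcx,
        Units.val_mul, map_mul, hcx, hcy]
      norm_num)
    rw [inv_mul_cancel_left, h91fe_inv_of_sq F hπ4 h1 hFE x hcx] at this
    rw [this]
    abel

/-- (c): multiplying a non-square by a square does not change `F`, once `F` vanishes on squares -/
theorem h91fe_const_of_nsq (hπ4 : π % 4 = 3)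
    (hFE : ∀ α₁ α₂ : (ZMod π)ˣ, α₁ ≠ α₂ →
      IsSquare (((α₂⁻¹ : (ZMod π)ˣ) : ZMod π) - ((α₁⁻¹ : (ZMod π)ˣ) : ZMod π)) →
      F α₁ - F α₂ = F (α₁ / α₂))
    (hQ : ∀ z : (ZMod π)ˣ, quadraticChar (ZMod π) (z : ZMod π) = 1 → F z = 0)
    (x y : (ZMod π)ˣ) (hcx : quadraticChar (ZMod π) (x : ZMod π) = 1)
    (hcy : quadraticChar (ZMod π) (y : ZMod π) = -1) :
    F (x * y) = F y := by
  by_cases hx : x = 1
  · subst hx
    simp
  have hx0 : (x : ZMod π) ≠ 0 := x.ne_zero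
  have hx1 : (x : ZMod π) - 1 ≠ 0 := by
    intro h0
    apply hx
    ext
    simpa [sub_eq_zero] using h0
  rcases quadraticChar_dichotomy hx1 with h | h
  · have hx' : x⁻¹ ≠ 1 := by simpa using hx
    have hcx' : quadraticChar (ZMod π) ((x⁻¹ : (ZMod π)ˣ) : ZMod π) = 1 := by
      rw [Units.val_inv_eq_inv_val, h91fe_chi_inv hx0, hcx]
    have := h91fe_star F hFE x⁻¹ (x * y) hx' (by
      rw [h91fe_chi_inv_sub_one hπ4, h, hcx, hcx', Units.val_mul, map_mul, hcx, hcy]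
      norm_num)
    rw [inv_mul_cancel_left, hQ _ hcx', zero_add] at this
    exact this.symm
  · have := h91fe_star F hFE x y hx (by rw [h, hcx, hcy]; norm_num)
    rw [this, hQ _ hcx, zero_add]

/-- there is a non-residue `x₀` such that `x₀ - 1` is a nonzero residue -/
theorem h91fe_exists_nsq (hπ4 : π % 4 = 3) :
    ∃ x : (ZMod π)ˣ, quadraticChar (ZMod π) (x : ZMod π) = -1 ∧
      quadraticChar (ZMod π) ((x : ZMod π) - 1) = 1 := by
  classical
  have hπ : π.Prime := Fact.out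
  have hex : ∃ k : ℕ, quadraticChar (ZMod π) ((k : ℕ) : ZMod π) = -1 := by
    refine ⟨π - 1, ?_⟩
    have : ((π - 1 : ℕ) : ZMod π) = -1 := by
      rw [Nat.cast_sub hπ.one_le]
      simp
    rw [this]
    exact h91fe_chi_neg_one hπ4
  let k := Nat.find hex
  have hk : quadraticChar (ZMod π) ((k : ℕ) : ZMod π) = -1 := Nat.find_spec hex
  have hkmin : ∀ m < k, ¬ quadraticChar (ZMod π) ((m : ℕ) : ZMod π) = -1 :=
    fun m hm => Nat.find_min hex hm
  have hkle : k ≤ π - 1 := Nat.find_min' hex (by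
    have : ((π - 1 : ℕ) : ZMod π) = -1 := by
      rw [Nat.cast_sub hπ.one_le]
      simp
    rw [this]
    exact h91fe_chi_neg_one hπ4)
  have hk0 : ((k : ℕ) : ZMod π) ≠ 0 := by
    intro h0
    rw [h0, quadraticChar_zero] at hk
    norm_num at hk
  have hk2 : 2 ≤ k := by
    rcases Nat.lt_or_ge k 2 with h | h
    · interval_cases k
      · simp at hk0
      · simp at hk
    · exact h
  have hkm1 : (((k - 1 : ℕ)) : ZMod π) ≠ 0 := by
    intro h0
    rw [ZMod.natCast_eq_zero_iff] at h0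
    have := Nat.le_of_dvd (by omega) h0
    have := hπ.two_le
    omega
  have hkm1' := hkmin (k - 1) (by omega)
  refine ⟨Units.mk0 _ hk0, hk, ?_⟩
  have e : ((Units.mk0 _ hk0 : (ZMod π)ˣ) : ZMod π) - 1 = (((k - 1 : ℕ)) : ZMod π) := by
    rw [Units.val_mk0, Nat.cast_sub (by omega)]
    simp
  rw [e]
  rcases quadraticChar_dichotomy hkm1 with h | h
  · exact h
  · exact absurd h hkm1'

/-- **Step 6.**  -/
theorem h91_fe_zero (hπ4 : π % 4 = 3) (hp : p.Prime) (hp2 : p ≠ 2) (hpπ : ¬ p ∣ π - 1)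
    (hV : ∀ v : V, p • v = 0) (h1 : F 1 = 0)
    (hFE : ∀ α₁ α₂ : (ZMod π)ˣ, α₁ ≠ α₂ →
      IsSquare (((α₂⁻¹ : (ZMod π)ˣ) : ZMod π) - ((α₁⁻¹ : (ZMod π)ˣ) : ZMod π)) →
      F α₁ - F α₂ = F (α₁ / α₂)) :
    ∀ α, F α = 0 := by
  have hπ : π.Prime := Fact.out
  -- `F` vanishes on squares
  have hpow : ∀ (x : (ZMod π)ˣ), quadraticChar (ZMod π) (x : ZMod π) = 1 →
      ∀ n : ℕ, F (x ^ n) = n • F x := by
    intro x hx n
    induction n with
    | zero => simp [h1]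
    | succ n ih =>
      have hxn : quadraticChar (ZMod π) ((x ^ n : (ZMod π)ˣ) : ZMod π) = 1 := by
        rw [Units.val_pow_eq_pow_val, map_pow, hx, one_pow]
      rw [pow_succ, h91fe_add_of_sq F hπ4 h1 hFE _ _ hxn hx, ih, succ_nsmul]
  have hQ : ∀ z : (ZMod π)ˣ, quadraticChar (ZMod π) (z : ZMod π) = 1 → F z = 0 := by
    intro z hz
    have h2 : (π - 1) • F z = 0 := by
      rw [← hpow z hz, ZMod.units_pow_card_sub_one_eq_one, h1]
    have hcop : Nat.Coprime p (π - 1) := (Nat.Prime.coprime_iff_not_dvd hp).mpr hpπ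
    have := (Nat.Coprime.gcd_eq_one hcop)
    have h3 : (Nat.gcd p (π - 1)) • F z = 0 := by
      have hz1 : ((p : ℤ)) • F z = 0 := by rw [natCast_zsmul]; exact hV _
      have hz2 : (((π - 1 : ℕ) : ℤ)) • F z = 0 := by rw [natCast_zsmul]; exact h2
      have := Nat.gcd_eq_gcd_ab p (π - 1)
      rw [← natCast_zsmul, this, add_smul, mul_smul, mul_smul]
      rw [smul_comm, hz1, smul_zero, zero_add, smul_comm, hz2, smul_zero]
    rw [this, one_smul] at h3
    exact h3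
  -- constant on non-squares
  obtain ⟨x₀, hx₀, hx₀'⟩ := h91fe_exists_nsq (π := π) hπ4
  have hx₀1 : x₀ ≠ 1 := by
    intro h
    rw [h] at hx₀
    simp at hx₀
  have hx₀0 : (x₀ : ZMod π) ≠ 0 := x₀.ne_zero
  have hinv := h91fe_inv_of_sub_one F h1 hFE x₀ hx₀1 hx₀'
  have hconst : ∀ y : (ZMod π)ˣ, quadraticChar (ZMod π) (y : ZMod π) = -1 → F y = F x₀ := by
    intro y hy
    have hyx : quadraticChar (ZMod π) (((y * x₀⁻¹ : (ZMod π)ˣ)) : ZMod π) = 1 := by
      rw [Units.val_mul, map_mul, Units.val_inv_eq_inv_val, h91fe_chi_inv hx₀0, hy, hx₀]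
      norm_num
    have := h91fe_const_of_nsq F hπ4 hFE hQ (y * x₀⁻¹) x₀ hyx hx₀
    rw [inv_mul_cancel_right] at this
    exact this
  have hx₀inv : quadraticChar (ZMod π) ((x₀⁻¹ : (ZMod π)ˣ) : ZMod π) = -1 := by
    rw [Units.val_inv_eq_inv_val, h91fe_chi_inv hx₀0, hx₀]
  have hc2 : (2 : ℕ) • F x₀ = 0 := by
    have := hconst x₀⁻¹ hx₀inv
    rw [hinv] at this
    rw [two_nsmul]
    nth_rewrite 1 [← this]
    exact neg_add_cancel _
  have hc : F x₀ = 0 := by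
    have hcop : Nat.Coprime p 2 := by
      rw [Nat.Prime.coprime_iff_not_dvd hp]
      intro h
      exact hp2 ((Nat.prime_dvd_prime_iff_eq hp Nat.prime_two).mp h)
    have hg := Nat.Coprime.gcd_eq_one hcop
    have h3 : (Nat.gcd p 2) • F x₀ = 0 := by
      have hz1 : ((p : ℤ)) • F x₀ = 0 := by rw [natCast_zsmul]; exact hV _
      have hz2 : (((2 : ℕ) : ℤ)) • F x₀ = 0 := by rw [natCast_zsmul]; exact hc2
      have := Nat.gcd_eq_gcd_ab p 2
      rw [← natCast_zsmul, this, add_smul, mul_smul, mul_smul]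
      rw [smul_comm, hz1, smul_zero, zero_add, smul_comm, hz2, smul_zero]
    rw [hg, one_smul] at h3
    exact h3
  intro α
  rcases quadraticChar_dichotomy α.ne_zero with h | h
  · exact hQ α h
  · rw [hconst α h, hc]

end main

end Fermat.Agent.LR
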