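import Mathlib

/-!
# P-LR / LR-CSP leaf L-QUAD (Step 6 of helper11's proof of the abelianised CSP)

Let `π ≡ 3 mod 4` be a prime, `p` an odd prime not dividing `π - 1`, `A` a commutative group of
exponent `p` and `F : ZMod π → A` with `F 1 = 1` such that

  `F α₁ / F α₂ = F (α₁ / α₂)` whenever `α₁ ≠ α₂` are nonzero and `α₂⁻¹ - α₁⁻¹` is a square.

Then `F α = 1` for all `α ≠ 0`  (`h9lr_quad`; units version `h9lr_quad_units`;
additive version `h9lr_quad_add`).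
-/

set_option autoImplicit false

namespace Fermat.Agent.LR.CSP

section Quad

variable {π : ℕ} [Fact π.Prime]

local notation "χ" => quadraticChar (ZMod π)

lemma h9lr_chi_neg_one (hπ : π % 4 = 3) : χ (-1) = -1 := by
  rw [quadraticChar_neg_one_iff_not_isSquare, ZMod.exists_sq_eq_neg_one_iff]
  simp [hπ]

lemma h9lr_chi_inv {x : ZMod π} (hx : x ≠ 0) : χ x⁻¹ = χ x := by
  have h1 : χ x * χ x⁻¹ = 1 := by
    rw [← map_mul, mul_inv_cancel₀ hx, map_one]
  rcases quadraticChar_dichotomy (F := ZMod π) hx with h | h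
  · rw [h] at h1 ⊢; simpa using h1
  · rw [h] at h1 ⊢
    have : -(χ x⁻¹) = 1 := by simpa using h1
    omega

/-- The functional equation in the form `(*)`: `F (x y) = F x * F y` whenever `x ≠ 1` and
`χ(x - 1) χ(x) χ(y) = 1`. -/
lemma h9lr_star {A : Type*} [CommGroup A] (F : ZMod π → A)
    (hFE : ∀ α₁ α₂ : ZMod π, α₁ ≠ 0 → α₂ ≠ 0 → α₁ ≠ α₂ → IsSquare (α₂⁻¹ - α₁⁻¹) →
      F α₁ / F α₂ = F (α₁ / α₂))
    {x y : ZMod π} (hx : x ≠ 0) (hy : y ≠ 0) (hx1 : x ≠ 1)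
    (h : χ (x - 1) * χ x * χ y = 1) : F (x * y) = F x * F y := by
  have hxy : x * y ≠ 0 := mul_ne_zero hx hy
  have hne : x * y ≠ y := by
    intro h'
    apply hx1
    have : x * y = 1 * y := by rw [h', one_mul]
    exact mul_right_cancel₀ hy this
  have hx1' : x - 1 ≠ 0 := sub_ne_zero.2 hx1
  have heps : y⁻¹ - (x * y)⁻¹ = (x - 1) * x⁻¹ * y⁻¹ := by
    field_simp
  have hne0 : (x - 1) * x⁻¹ * y⁻¹ ≠ 0 :=
    mul_ne_zero (mul_ne_zero hx1' (inv_ne_zero hx)) (inv_ne_zero hy)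
  have hsq : IsSquare (y⁻¹ - (x * y)⁻¹) := by
    rw [heps, ← quadraticChar_one_iff_isSquare hne0, map_mul, map_mul, h9lr_chi_inv hx,
      h9lr_chi_inv hy]
    exact h
  have h2 := hFE (x * y) y hxy hy hne hsq
  rw [mul_div_assoc, div_self hy, mul_one] at h2
  rw [← h2, div_mul_cancel]

/-- **L-QUAD**: the functional equation forces `F = 1` on the nonzero residues. -/
theorem h9lr_quad {p : ℕ} (hπ : π % 4 = 3) (hp : p.Prime) (hp2 : p ≠ 2) (hpπ : ¬ p ∣ π - 1)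
    {A : Type*} [CommGroup A] (hA : ∀ a : A, a ^ p = 1) (F : ZMod π → A) (h1 : F 1 = 1)
    (hFE : ∀ α₁ α₂ : ZMod π, α₁ ≠ 0 → α₂ ≠ 0 → α₁ ≠ α₂ → IsSquare (α₂⁻¹ - α₁⁻¹) →
      F α₁ / F α₂ = F (α₁ / α₂)) :
    ∀ α : ZMod π, α ≠ 0 → F α = 1 := by
  have star : ∀ {x y : ZMod π}, x ≠ 0 → y ≠ 0 → x ≠ 1 → χ (x - 1) * χ x * χ y = 1 →
      F (x * y) = F x * F y := fun hx hy hx1 h => h9lr_star F hFE hx hy hx1 h
  have hm1 := h9lr_chi_neg_one hπ
  have hπ2 : π ≠ 2 := by rintro rfl; omega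
  have hπpos : 0 < π := (Fact.out : π.Prime).pos
  -- `χ (1/x - 1) = - χ (x - 1) χ x`
  have chi_inv_sub : ∀ x : ZMod π, x ≠ 0 → χ (x⁻¹ - 1) = -(χ (x - 1) * χ x) := by
    intro x hx
    have : x⁻¹ - 1 = (-1) * (x - 1) * x⁻¹ := by field_simp; ring
    rw [this, map_mul, map_mul, hm1, h9lr_chi_inv hx]; ring
  have inv_ne_one : ∀ x : ZMod π, x ≠ 1 → x⁻¹ ≠ 1 := by
    intro x hx1 h
    exact hx1 (inv_eq_one.1 h)
  have sub_ne : ∀ x : ZMod π, x ≠ 1 → x - 1 ≠ 0 := fun x hx1 => sub_ne_zero.2 hx1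
  -- (a), first case
  have key_inv1 : ∀ x : ZMod π, x ≠ 0 → x ≠ 1 → χ (x - 1) = 1 → F x⁻¹ = (F x)⁻¹ := by
    intro x hx hx1 h
    have hxx : χ x * χ x = 1 := by
      have := quadraticChar_sq_one (F := ZMod π) hx
      rwa [sq] at this
    have h2 := star hx (inv_ne_zero hx) hx1 (by rw [h, h9lr_chi_inv hx, one_mul]; exact hxx)
    rw [mul_inv_cancel₀ hx, h1] at h2
    exact eq_inv_of_mul_eq_one_right h2.symm
  -- (a), second case
  have key_inv2 : ∀ x : ZMod π, x ≠ 0 → x ≠ 1 → χ (x - 1) = -1 → χ x = 1 →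
      F x⁻¹ = (F x)⁻¹ := by
    intro x hx hx1 h hq
    have h2 := star (inv_ne_zero hx) hx (inv_ne_one x hx1)
      (by rw [chi_inv_sub x hx, h, hq, h9lr_chi_inv hx, hq]; norm_num)
    rw [inv_mul_cancel₀ hx, h1] at h2
    exact eq_inv_of_mul_eq_one_left h2.symm
  have key_invQ : ∀ x : ZMod π, x ≠ 0 → χ x = 1 → F x⁻¹ = (F x)⁻¹ := by
    intro x hx hq
    by_cases hx1 : x = 1
    · subst hx1; simp [h1]
    rcases quadraticChar_dichotomy (F := ZMod π) (sub_ne x hx1) with h | h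
    · exact key_inv1 x hx hx1 h
    · exact key_inv2 x hx hx1 h hq
  -- (b) multiplicativity on the squares
  have mulQ : ∀ x y : ZMod π, x ≠ 0 → y ≠ 0 → χ x = 1 → χ y = 1 → F (x * y) = F x * F y := by
    intro x y hx hy hqx hqy
    by_cases hx1 : x = 1
    · subst hx1; simp [h1]
    rcases quadraticChar_dichotomy (F := ZMod π) (sub_ne x hx1) with h | h
    · exact star hx hy hx1 (by rw [h, hqx, hqy]; norm_num)
    · have h2 := star (inv_ne_zero hx) (mul_ne_zero hx hy) (inv_ne_one x hx1)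
        (by rw [chi_inv_sub x hx, h, hqx, h9lr_chi_inv hx, hqx, map_mul, hqx, hqy]; norm_num)
      rw [← mul_assoc, inv_mul_cancel₀ hx, one_mul, key_invQ x hx hqx] at h2
      rw [h2, mul_inv_cancel_left]
  have powQ : ∀ x : ZMod π, x ≠ 0 → χ x = 1 → ∀ k : ℕ, F (x ^ k) = F x ^ k := by
    intro x hx hq k
    induction k with
    | zero => simp [h1]
    | succ k ih =>
      rw [pow_succ, pow_succ, mulQ (x ^ k) x (pow_ne_zero k hx) hx ?_ hq, ih]
      rw [map_pow, hq, one_pow]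
  have hcop : Nat.Coprime (π / 2) p := by
    rw [Nat.coprime_comm, Nat.Prime.coprime_iff_not_dvd hp]
    intro hdvd
    apply hpπ
    have h2 : π / 2 ∣ π - 1 := by
      refine ⟨2, ?_⟩
      have := Nat.div_add_mod π 2
      have hodd : π % 2 = 1 := by omega
      omega
    exact hdvd.trans h2
  have FQ : ∀ x : ZMod π, x ≠ 0 → χ x = 1 → F x = 1 := by
    intro x hx hq
    have hsq : IsSquare x := (quadraticChar_one_iff_isSquare hx).1 hq
    have heul : x ^ (π / 2) = 1 := (ZMod.euler_criterion π hx).1 hsq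
    have h3 : F x ^ (π / 2) = 1 := by rw [← powQ x hx hq, heul, h1]
    have h4 := (pow_gcd_eq_one (a := F x)).2 ⟨h3, hA (F x)⟩
    rwa [Nat.Coprime.gcd_eq_one hcop, pow_one] at h4
  -- (c) `F` is invariant under multiplication by squares on the non-squares
  have mulQN : ∀ x y : ZMod π, x ≠ 0 → y ≠ 0 → χ x = 1 → χ y = -1 → F (x * y) = F y := by
    intro x y hx hy hqx hqy
    by_cases hx1 : x = 1
    · subst hx1; simp
    rcases quadraticChar_dichotomy (F := ZMod π) (sub_ne x hx1) with h | h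
    · have h2 := star (inv_ne_zero hx) (mul_ne_zero hx hy) (inv_ne_one x hx1)
        (by rw [chi_inv_sub x hx, h, hqx, h9lr_chi_inv hx, hqx, map_mul, hqx, hqy]; norm_num)
      rw [← mul_assoc, inv_mul_cancel₀ hx, one_mul, key_invQ x hx hqx, FQ x hx hqx, inv_one,
        one_mul] at h2
      exact h2.symm
    · have h2 := star hx hy hx1 (by rw [h, hqx, hqy]; norm_num)
      rw [h2, FQ x hx hqx, one_mul]
  -- (d) a non-residue `x0` with `x0 - 1` a nonzero residue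
  have hex : ∃ n : ℕ, χ ((n : ℕ) : ZMod π) = -1 := by
    refine ⟨π - 1, ?_⟩
    have : ((π - 1 : ℕ) : ZMod π) = -1 := by
      rw [Nat.cast_sub hπpos, ZMod.natCast_self, Nat.cast_one, zero_sub]
    rw [this]; exact hm1
  classical
  obtain ⟨hn0, hmin⟩ : χ ((Nat.find hex : ℕ) : ZMod π) = -1 ∧
      ∀ m, m < Nat.find hex → ¬ χ ((m : ℕ) : ZMod π) = -1 :=
    ⟨Nat.find_spec hex, fun m hm => Nat.find_min hex hm⟩
  set n0 := Nat.find hex with hn0def
  have hn0le : n0 ≤ π - 1 := by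
    apply Nat.find_min' hex
    have : ((π - 1 : ℕ) : ZMod π) = -1 := by
      rw [Nat.cast_sub hπpos, ZMod.natCast_self, Nat.cast_one, zero_sub]
    rw [this]; exact hm1
  have hn0ne0 : n0 ≠ 0 := by
    intro h
    rw [h, Nat.cast_zero, quadraticChar_zero] at hn0
    omega
  have hn0ne1 : n0 ≠ 1 := by
    intro h
    rw [h, Nat.cast_one, map_one] at hn0
    omega
  have hpred_ne : ((n0 - 1 : ℕ) : ZMod π) ≠ 0 := by
    rw [Ne, ZMod.natCast_eq_zero_iff]
    intro hdvd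
    have := Nat.le_of_dvd (by omega) hdvd
    omega
  have hpred : χ ((n0 - 1 : ℕ) : ZMod π) = 1 := by
    rcases quadraticChar_dichotomy (F := ZMod π) hpred_ne with h | h
    · exact h
    · exact absurd h (hmin (n0 - 1) (by omega))
  have hx0ne : ((n0 : ℕ) : ZMod π) ≠ 0 := by
    intro h
    rw [h, quadraticChar_zero] at hn0
    omega
  have hx0sub : ((n0 : ℕ) : ZMod π) - 1 = ((n0 - 1 : ℕ) : ZMod π) := by
    rw [Nat.cast_sub (by omega), Nat.cast_one]
  have hx0ne1 : ((n0 : ℕ) : ZMod π) ≠ 1 := by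
    intro h
    rw [h, map_one] at hn0
    omega
  have hinv0 : F ((n0 : ZMod π))⁻¹ = (F (n0 : ZMod π))⁻¹ :=
    key_inv1 _ hx0ne hx0ne1 (by rw [hx0sub]; exact hpred)
  have hconst0 : F ((n0 : ZMod π))⁻¹ = F (n0 : ZMod π) := by
    have h2 := mulQN (((n0 : ZMod π))⁻¹ * ((n0 : ZMod π))⁻¹) (n0 : ZMod π)
      (mul_ne_zero (inv_ne_zero hx0ne) (inv_ne_zero hx0ne)) hx0ne
      (by rw [map_mul, h9lr_chi_inv hx0ne, hn0]; norm_num) hn0
    rw [mul_assoc, inv_mul_cancel₀ hx0ne, mul_one] at h2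
    exact h2
  have hF0 : F (n0 : ZMod π) = 1 := by
    have hsq : F (n0 : ZMod π) ^ 2 = 1 := by
      rw [sq]
      nth_rewrite 1 [← hconst0]
      rw [hinv0, inv_mul_cancel]
    have hcop2 : Nat.Coprime 2 p := by
      rw [Nat.coprime_comm, Nat.Prime.coprime_iff_not_dvd hp]
      intro hdvd
      exact hp2 ((Nat.prime_dvd_prime_iff_eq hp Nat.prime_two).1 hdvd)
    have h4 := (pow_gcd_eq_one (a := F (n0 : ZMod π))).2 ⟨hsq, hA _⟩
    rwa [Nat.Coprime.gcd_eq_one hcop2, pow_one] at h4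
  -- conclusion
  intro α hα
  rcases quadraticChar_dichotomy (F := ZMod π) hα with h | h
  · exact FQ α hα h
  · have h2 := mulQN (α * ((n0 : ZMod π))⁻¹) (n0 : ZMod π)
      (mul_ne_zero hα (inv_ne_zero hx0ne)) hx0ne
      (by rw [map_mul, h9lr_chi_inv hx0ne, h, hn0]; norm_num) hn0
    rw [mul_assoc, inv_mul_cancel₀ hx0ne, mul_one] at h2
    rw [h2, hF0]

/-- **L-QUAD**, version for functions on the units of `ZMod π`. -/
theorem h9lr_quad_units {p : ℕ} (hπ : π % 4 = 3) (hp : p.Prime) (hp2 : p ≠ 2)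
    (hpπ : ¬ p ∣ π - 1) {A : Type*} [CommGroup A] (hA : ∀ a : A, a ^ p = 1)
    (F : (ZMod π)ˣ → A) (h1 : F 1 = 1)
    (hFE : ∀ α₁ α₂ : (ZMod π)ˣ, α₁ ≠ α₂ →
      IsSquare (((α₂⁻¹ : (ZMod π)ˣ) : ZMod π) - ((α₁⁻¹ : (ZMod π)ˣ) : ZMod π)) →
      F α₁ / F α₂ = F (α₁ / α₂)) :
    ∀ α : (ZMod π)ˣ, F α = 1 := by
  classical
  let G : ZMod π → A := fun x => if h : x ≠ 0 then F (Units.mk0 x h) else 1
  have hG : ∀ (x : ZMod π) (h : x ≠ 0), G x = F (Units.mk0 x h) := fun x h => dif_pos h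
  have key := h9lr_quad (π := π) hπ hp hp2 hpπ hA G
    (by rw [hG 1 one_ne_zero]; convert h1; ext; simp)
    (by
      intro α₁ α₂ h₁ h₂ hne hsq
      rw [hG α₁ h₁, hG α₂ h₂, hG (α₁ / α₂) (div_ne_zero h₁ h₂)]
      have := hFE (Units.mk0 α₁ h₁) (Units.mk0 α₂ h₂)
        (fun h => hne (by simpa using congrArg Units.val h))
        (by simpa using hsq)
      rw [this]
      congr 1
      ext
      simp [div_eq_mul_inv])
  intro α
  have := key (α : ZMod π) α.ne_zero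
  rw [hG _ α.ne_zero] at this
  convert this
  ext; simp

/-- **L-QUAD**, additive version. -/
theorem h9lr_quad_add {p : ℕ} (hπ : π % 4 = 3) (hp : p.Prime) (hp2 : p ≠ 2)
    (hpπ : ¬ p ∣ π - 1) {V : Type*} [AddCommGroup V] (hV : ∀ v : V, p • v = 0)
    (F : ZMod π → V) (h1 : F 1 = 0)
    (hFE : ∀ α₁ α₂ : ZMod π, α₁ ≠ 0 → α₂ ≠ 0 → α₁ ≠ α₂ → IsSquare (α₂⁻¹ - α₁⁻¹) →
      F α₁ - F α₂ = F (α₁ / α₂)) :
    ∀ α : ZMod π, α ≠ 0 → F α = 0 := by
  intro α hα
  have := h9lr_quad (π := π) (A := Multiplicative V) hπ hp hp2 hpπ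
    (fun a => by
      change Multiplicative.ofAdd (p • Multiplicative.toAdd a) = 1
      rw [hV]; rfl)
    (fun x => Multiplicative.ofAdd (F x)) (by simp [h1])
    (fun α₁ α₂ h₁ h₂ hne hsq => by
      rw [← ofAdd_sub, hFE α₁ α₂ h₁ h₂ hne hsq]) α hα
  simpa using this

end Quad

end Fermat.Agent.LR.CSP
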