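import Fermat.Agent.LR.CSP.Leaves
import Fermat.Agent.LR.CSP.H9Quad

/-!
# P-LR / LR-CSP leaf (5b) L-FE + Step 6 (helper9)

`h9fe_one`: let `F : SL(2, ℤ) → A` be multiplicative on `Γ(N)`, trivial on the trace `2` elements
of `Γ(N)`, invariant under conjugation by `SL(2, ℤ)` on `Γ(N)` and satisfy the square dropping
property `h11_DropProp N q F`; let `A` have odd prime exponent `p`.  Let `π ≡ 3 mod 4` be a prime
with `π ∤ N`, `π ≠ q`, `p ∤ π - 1`.  Then `F x = 1` for every `x ∈ Γ(N)` with upper right entry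
`N π`.

(Steps 4, 5, 6 of the paper proof, finding #724.)
-/

set_option autoImplicit false

namespace Fermat.Agent.LR

open Matrix CongruenceSubgroup

/-! ## Entries of products and inverses in `SL(2, ℤ)` -/

lemma h9fe_mul_00 (x y : h11_Z) : (x * y) 0 0 = x 0 0 * y 0 0 + x 0 1 * y 1 0 := by
  rw [Matrix.SpecialLinearGroup.coe_mul, Matrix.mul_apply, Fin.sum_univ_two]

lemma h9fe_mul_01 (x y : h11_Z) : (x * y) 0 1 = x 0 0 * y 0 1 + x 0 1 * y 1 1 := by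
  rw [Matrix.SpecialLinearGroup.coe_mul, Matrix.mul_apply, Fin.sum_univ_two]

lemma h9fe_mul_10 (x y : h11_Z) : (x * y) 1 0 = x 1 0 * y 0 0 + x 1 1 * y 1 0 := by
  rw [Matrix.SpecialLinearGroup.coe_mul, Matrix.mul_apply, Fin.sum_univ_two]

lemma h9fe_mul_11 (x y : h11_Z) : (x * y) 1 1 = x 1 0 * y 0 1 + x 1 1 * y 1 1 := by
  rw [Matrix.SpecialLinearGroup.coe_mul, Matrix.mul_apply, Fin.sum_univ_two]

lemma h9fe_inv_00 (x : h11_Z) : (x⁻¹ : h11_Z) 0 0 = x 1 1 := by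
  rw [Matrix.SpecialLinearGroup.coe_inv, Matrix.adjugate_fin_two]; simp

lemma h9fe_inv_01 (x : h11_Z) : (x⁻¹ : h11_Z) 0 1 = - x 0 1 := by
  rw [Matrix.SpecialLinearGroup.coe_inv, Matrix.adjugate_fin_two]; simp

lemma h9fe_inv_10 (x : h11_Z) : (x⁻¹ : h11_Z) 1 0 = - x 1 0 := by
  rw [Matrix.SpecialLinearGroup.coe_inv, Matrix.adjugate_fin_two]; simp

lemma h9fe_inv_11 (x : h11_Z) : (x⁻¹ : h11_Z) 1 1 = x 0 0 := by
  rw [Matrix.SpecialLinearGroup.coe_inv, Matrix.adjugate_fin_two]; simp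

lemma h9fe_det (x : h11_Z) : x 0 0 * x 1 1 - x 0 1 * x 1 0 = 1 := by
  have := x.det_coe
  rwa [Matrix.det_fin_two] at this

lemma h9fe_trace (x : h11_Z) : (x : Matrix (Fin 2) (Fin 2) ℤ).trace = x 0 0 + x 1 1 := by
  rw [Matrix.trace_fin_two]

@[simp] lemma h9fe_mkZ_00 (a b c d : ℤ) (h : a * d - b * c = 1) : (h11_mkZ a b c d h) 0 0 = a :=
  rfl
@[simp] lemma h9fe_mkZ_01 (a b c d : ℤ) (h : a * d - b * c = 1) : (h11_mkZ a b c d h) 0 1 = b :=
  rfl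
@[simp] lemma h9fe_mkZ_10 (a b c d : ℤ) (h : a * d - b * c = 1) : (h11_mkZ a b c d h) 1 0 = c :=
  rfl
@[simp] lemma h9fe_mkZ_11 (a b c d : ℤ) (h : a * d - b * c = 1) : (h11_mkZ a b c d h) 1 1 = d :=
  rfl

lemma h9fe_ext {x y : h11_Z} (h00 : x 0 0 = y 0 0) (h01 : x 0 1 = y 0 1) (h10 : x 1 0 = y 1 0)
    (h11 : x 1 1 = y 1 1) : x = y := by
  ext i j
  fin_cases i <;> fin_cases j
  · exact h00
  · exact h01
  · exact h10
  · exact h11

/-- Membership in `Γ(N)` in terms of divisibility. -/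
lemma h9fe_mem_Gamma (N : ℕ) (x : h11_Z) : x ∈ Gamma N ↔
    (N : ℤ) ∣ x 0 0 - 1 ∧ (N : ℤ) ∣ x 0 1 ∧ (N : ℤ) ∣ x 1 0 ∧ (N : ℤ) ∣ x 1 1 - 1 := by
  rw [Gamma_mem]
  have e1 : ∀ z : ℤ, ((z : ZMod N) = 1 ↔ (N : ℤ) ∣ z - 1) := by
    intro z
    rw [← ZMod.intCast_zmod_eq_zero_iff_dvd]
    push_cast
    rw [sub_eq_zero]
  have e0 : ∀ z : ℤ, ((z : ZMod N) = 0 ↔ (N : ℤ) ∣ z) := fun z =>
    ZMod.intCast_zmod_eq_zero_iff_dvd z N
  rw [e1, e0, e0, e1]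


/-! ## The symbol calculus (Step 4) -/

section Symbol

variable {N : ℕ} {A : Type*} [CommGroup A] {F : h11_Z → A}

lemma h9fe_F_one (hunip : ∀ x, x ∈ Gamma N → (x : Matrix (Fin 2) (Fin 2) ℤ).trace = 2 → F x = 1) :
    F 1 = 1 :=
  hunip 1 (Subgroup.one_mem _) (by simp)

lemma h9fe_F_inv (hmul : ∀ x y, x ∈ Gamma N → y ∈ Gamma N → F (x * y) = F x * F y)
    (hunip : ∀ x, x ∈ Gamma N → (x : Matrix (Fin 2) (Fin 2) ℤ).trace = 2 → F x = 1)
    {x : h11_Z} (hx : x ∈ Gamma N) : F x⁻¹ = (F x)⁻¹ := by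
  have h1 := hmul x x⁻¹ hx (Subgroup.inv_mem _ hx)
  rw [mul_inv_cancel, h9fe_F_one hunip] at h1
  exact eq_inv_of_mul_eq_one_right h1.symm

/-- `F` depends only on the first row. -/
lemma h9fe_row (hmul : ∀ x y, x ∈ Gamma N → y ∈ Gamma N → F (x * y) = F x * F y)
    (hunip : ∀ x, x ∈ Gamma N → (x : Matrix (Fin 2) (Fin 2) ℤ).trace = 2 → F x = 1)
    {x y : h11_Z} (hx : x ∈ Gamma N) (hy : y ∈ Gamma N) (h0 : x 0 0 = y 0 0)
    (h1 : x 0 1 = y 0 1) : F x = F y := by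
  have hz : x * y⁻¹ ∈ Gamma N := Subgroup.mul_mem _ hx (Subgroup.inv_mem _ hy)
  have hdy := h9fe_det y
  have z00 : (x * y⁻¹) 0 0 = 1 := by
    rw [h9fe_mul_00, h9fe_inv_00, h9fe_inv_10, h0, h1]; linarith
  have z01 : (x * y⁻¹) 0 1 = 0 := by
    rw [h9fe_mul_01, h9fe_inv_01, h9fe_inv_11, h0, h1]; ring
  have z11 : (x * y⁻¹) 1 1 = 1 := by
    have hd := h9fe_det (x * y⁻¹)
    rw [z00, z01] at hd
    linarith
  have hF : F (x * y⁻¹) = 1 := hunip _ hz (by rw [h9fe_trace, z00, z11]; norm_num)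
  have h2 := hmul (x * y⁻¹) y hz hy
  rw [inv_mul_cancel_right, hF, one_mul] at h2
  exact h2

/-- Rule (r2): `ρ(a + t b, b) = ρ(a, b)`. -/
lemma h9fe_r2 (hmul : ∀ x y, x ∈ Gamma N → y ∈ Gamma N → F (x * y) = F x * F y)
    (hunip : ∀ x, x ∈ Gamma N → (x : Matrix (Fin 2) (Fin 2) ℤ).trace = 2 → F x = 1)
    (hcent : ∀ g x, x ∈ Gamma N → F (g * x * g⁻¹) = F x)
    {x y : h11_Z} (hx : x ∈ Gamma N) (hy : y ∈ Gamma N) (t : ℤ)
    (h0 : y 0 0 = x 0 0 + t * x 0 1) (h1 : y 0 1 = x 0 1) : F y = F x := by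
  set g : h11_Z := h11_LZ (-t) with hg
  have hgx : g * x * g⁻¹ ∈ Gamma N := (Gamma_normal (N := N)).conj_mem x hx g
  have g00 : g 0 0 = 1 := rfl
  have g01 : g 0 1 = 0 := rfl
  have g10 : g 1 0 = -t := rfl
  have g11 : g 1 1 = 1 := rfl
  have e0 : (g * x * g⁻¹) 0 0 = y 0 0 := by
    rw [h9fe_mul_00, h9fe_mul_00, h9fe_mul_01, h9fe_inv_00, h9fe_inv_10, g00, g01, g10, g11, h0]
    ring
  have e1 : (g * x * g⁻¹) 0 1 = y 0 1 := by
    rw [h9fe_mul_01, h9fe_mul_00, h9fe_mul_01, h9fe_inv_01, h9fe_inv_11, g00, g01, h1]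
    ring
  rw [← hcent g x hx]
  exact h9fe_row hmul hunip hy hgx e0.symm e1.symm

/-- Existence of an element of `Γ(N)` with a prescribed first row. -/
lemma h9fe_exists_row (N : ℕ) {a B : ℤ} (hab : IsCoprime a B) (ha : (N : ℤ) ∣ a - 1)
    (hB : (N : ℤ) ∣ B) : ∃ x : h11_Z, x ∈ Gamma N ∧ x 0 0 = a ∧ x 0 1 = B := by
  obtain ⟨u, v, huv⟩ := hab
  refine ⟨h11_mkZ a B (v * (a - 1)) (u + v * B) (by linear_combination huv), ?_, rfl, rfl⟩
  rw [h9fe_mem_Gamma]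
  refine ⟨ha, hB, Dvd.dvd.mul_left ha v, ?_⟩
  have : (h11_mkZ a B (v * (a - 1)) (u + v * B) (by linear_combination huv)) 1 1 - 1
      = -u * (a - 1) := by
    rw [h9fe_mkZ_11]; linear_combination huv
  rw [this]
  exact Dvd.dvd.mul_left ha _

end Symbol

/-! ## The functional equation (Step 5) and its consequence (Step 6) -/

section FE

variable {N p q π : ℕ} {A : Type*} [CommGroup A] {F : h11_Z → A}

/-- CRT lift of a unit mod `π` to an integer `≡ 1 mod N`. -/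
lemma h9fe_lift (hπ : π.Prime) (hπN : ¬ π ∣ N) (α : ZMod π) (hα : IsUnit α) :
    ∃ a : ℤ, (N : ℤ) ∣ a - 1 ∧ ((a : ℤ) : ZMod π) = α ∧ IsCoprime a ((N : ℤ) * π) := by
  have : Fact π.Prime := ⟨hπ⟩
  have hcop : IsCoprime (N : ℤ) (π : ℤ) :=
    Nat.isCoprime_iff_coprime.2 ((Nat.Prime.coprime_iff_not_dvd hπ).2 hπN).symm
  obtain ⟨u, v, huv⟩ := hcop
  set α' : ℤ := ((α.val : ℕ) : ℤ) with hα'
  have hα'c : ((α' : ℤ) : ZMod π) = α := by
    rw [hα']; push_cast; exact ZMod.natCast_zmod_val α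
  have hNu : ((N : ℤ) : ZMod π) * ((u : ℤ) : ZMod π) = 1 := by
    have h1 := congrArg (fun z : ℤ => (z : ZMod π)) huv
    simp only [Int.cast_add, Int.cast_mul, Int.cast_natCast, Int.cast_one,
      ZMod.natCast_self, mul_zero, add_zero] at h1
    rw [mul_comm]; simpa using h1
  have hac : (((1 + N * u * (α' - 1) : ℤ)) : ZMod π) = α := by
    push_cast
    have h2 : ((N : ℕ) : ZMod π) * ((u : ℤ) : ZMod π) = 1 := by simpa using hNu
    rw [h2, hα'c]; ring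
  refine ⟨1 + N * u * (α' - 1), ⟨u * (α' - 1), by ring⟩, hac, ?_⟩
  apply IsCoprime.mul_right
  · exact ⟨1, -(u * (α' - 1)), by ring⟩
  · have h3 : IsUnit (((1 + N * u * (α' - 1) : ℤ)) : ZMod π) := by rw [hac]; exact hα
    rw [ZMod.coe_int_isUnit_iff_isCoprime] at h3
    exact h3.symm

/-- **Steps 4–6**: `F` is trivial on the elements of `Γ(N)` with upper right entry `N π`. -/
theorem h9fe_one (hp : p.Prime) (hp2 : p ≠ 2) (hq : q.Prime)
    (hNq : Nat.Coprime N q) (hπ : π.Prime) (hπ4 : π % 4 = 3) (hpπ : ¬ p ∣ π - 1)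
    (hπN : ¬ π ∣ N) (hπq : π ≠ q) (hA : ∀ a : A, a ^ p = 1)
    (hmul : ∀ x y, x ∈ Gamma N → y ∈ Gamma N → F (x * y) = F x * F y)
    (hunip : ∀ x, x ∈ Gamma N → (x : Matrix (Fin 2) (Fin 2) ℤ).trace = 2 → F x = 1)
    (hcent : ∀ g x, x ∈ Gamma N → F (g * x * g⁻¹) = F x)
    (hdrop : h11_DropProp N q F) :
    ∀ x : h11_Z, x ∈ Gamma N → x 0 1 = (N : ℤ) * π → F x = 1 := by
  classical
  have : Fact π.Prime := ⟨hπ⟩
  have hNπ : IsCoprime (N : ℤ) (π : ℤ) :=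
    Nat.isCoprime_iff_coprime.2 ((Nat.Prime.coprime_iff_not_dvd hπ).2 hπN).symm
  have hNunit : ((N : ℕ) : ZMod π) ≠ 0 := by
    rw [Ne, ZMod.natCast_eq_zero_iff]; exact hπN
  have hπ0 : ((π : ℤ) : ZMod π) = 0 := by simp
  -- the function `G`
  let G : (ZMod π)ˣ → A := fun α =>
    if h : ∃ x : h11_Z, x ∈ Gamma N ∧ x 0 1 = (N : ℤ) * π ∧ ((x 0 0 : ℤ) : ZMod π) = α
    then F h.choose else 1
  have hK : ∀ x : h11_Z, x ∈ Gamma N → x 0 1 = (N : ℤ) * π → ∀ α : (ZMod π)ˣ,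
      ((x 0 0 : ℤ) : ZMod π) = α → G α = F x := by
    intro x hx hx1 α hα
    have hex : ∃ x : h11_Z, x ∈ Gamma N ∧ x 0 1 = (N : ℤ) * π ∧ ((x 0 0 : ℤ) : ZMod π) = α :=
      ⟨x, hx, hx1, hα⟩
    show (if h : ∃ x : h11_Z, x ∈ Gamma N ∧ x 0 1 = (N : ℤ) * π ∧
      ((x 0 0 : ℤ) : ZMod π) = α then F h.choose else 1) = F x
    rw [dif_pos hex]
    obtain ⟨hy, hy1, hyα⟩ := hex.choose_spec
    have hdN : (N : ℤ) ∣ hex.choose 0 0 - x 0 0 := by
      have h1 := ((h9fe_mem_Gamma N _).1 hy).1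
      have h2 := ((h9fe_mem_Gamma N _).1 hx).1
      have := dvd_sub h1 h2
      simpa using this
    have hdπ : (π : ℤ) ∣ hex.choose 0 0 - x 0 0 := by
      rw [← ZMod.intCast_zmod_eq_zero_iff_dvd]
      push_cast
      rw [hyα, hα, sub_self]
    obtain ⟨t, ht⟩ := hNπ.mul_dvd hdN hdπ
    exact h9fe_r2 hmul hunip hcent hx hy t (by rw [hx1]; linarith) (by rw [hy1, hx1])
  -- `G 1 = 1`
  have hG1 : G 1 = 1 := by
    have hu : h11_UZ ((N : ℤ) * π) ∈ Gamma N := by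
      rw [h9fe_mem_Gamma]
      refine ⟨?_, ?_, ?_, ?_⟩
      · show (N : ℤ) ∣ (1 : ℤ) - 1
        simp
      · show (N : ℤ) ∣ (N : ℤ) * π
        exact Dvd.intro _ rfl
      · show (N : ℤ) ∣ (0 : ℤ)
        simp
      · show (N : ℤ) ∣ (1 : ℤ) - 1
        simp
    rw [hK _ hu rfl 1 (by show (((1 : ℤ)) : ZMod π) = _; simp)]
    exact hunip _ hu (by rw [h9fe_trace]; show (1 : ℤ) + 1 = 2; norm_num)
  -- the functional equation
  have hFE : ∀ α₁ α₂ : (ZMod π)ˣ, α₁ ≠ α₂ →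
      IsSquare (((α₂⁻¹ : (ZMod π)ˣ) : ZMod π) - ((α₁⁻¹ : (ZMod π)ˣ) : ZMod π)) →
      G α₁ / G α₂ = G (α₁ / α₂) := by
    intro α₁ α₂ hne hsq
    -- the matrix `x1`
    obtain ⟨a1, ha1N, ha1π, ha1c⟩ := h9fe_lift (N := N) hπ hπN (α₁ : ZMod π) α₁.isUnit
    obtain ⟨x1, hx1, hx100, hx101⟩ := h9fe_exists_row N ha1c ha1N (Dvd.intro _ rfl)
    have hG1' : G α₁ = F x1 := hK x1 hx1 hx101 α₁ (by rw [hx100]; exact ha1π)
    -- the square root `s`
    obtain ⟨r, hr⟩ := hsq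
    have hcopπq : Nat.Coprime π q := (Nat.coprime_primes hπ hq).2 hπq
    set r' : ZMod π := r * ((N : ℕ) : ZMod π)⁻¹ with hr'
    set s : ℕ := (Nat.chineseRemainder hcopπq r'.val 1 : ℕ) with hs
    have hsπ : s ≡ r'.val [MOD π] := (Nat.chineseRemainder hcopπq r'.val 1).2.1
    have hsq1 : s ≡ 1 [MOD q] := (Nat.chineseRemainder hcopπq r'.val 1).2.2
    have hscast : ((s : ℕ) : ZMod π) = r' := by
      have := (ZMod.natCast_eq_natCast_iff s r'.val π).2 hsπ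
      rw [this, ZMod.natCast_zmod_val]
    have hsq_cop : Nat.Coprime s q := by
      unfold Nat.Coprime
      rw [hsq1.gcd_eq]; simp
    have hspos : 0 < s := by
      rcases Nat.eq_zero_or_pos s with h0 | h0
      · rw [h0] at hsq_cop
        simp at hsq_cop
        exact absurd hsq_cop hq.one_lt.ne'
      · exact h0
    set m : ℕ := N * s with hm
    have hN0 : 0 < N := by
      rcases Nat.eq_zero_or_pos N with h0 | h0
      · exfalso; apply hπN; rw [h0]; exact dvd_zero _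
      · exact h0
    have hmpos : 0 < m := Nat.mul_pos hN0 hspos
    have hmq : Nat.Coprime m q := Nat.Coprime.mul_left hNq hsq_cop
    have hmcast : ((m : ℕ) : ZMod π) = r := by
      rw [hm]; push_cast
      rw [hscast, hr', mul_comm r, ← mul_assoc, mul_inv_cancel₀ hNunit, one_mul]
    have hecast : ((((m : ℤ) ^ 2 : ℤ)) : ZMod π) =
        ((α₂⁻¹ : (ZMod π)ˣ) : ZMod π) - ((α₁⁻¹ : (ZMod π)ˣ) : ZMod π) := by
      rw [Int.cast_pow, Int.cast_natCast, hmcast, hr, sq]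
    -- entries of `x1`
    have hdet1 := h9fe_det x1
    have hd1N : (N : ℤ) ∣ x1 1 1 - 1 := ((h9fe_mem_Gamma N _).1 hx1).2.2.2
    have hd1π : ((x1 1 1 : ℤ) : ZMod π) = ((α₁⁻¹ : (ZMod π)ˣ) : ZMod π) := by
      have h1 := congrArg (fun z : ℤ => (z : ZMod π)) hdet1
      simp only [Int.cast_sub, Int.cast_mul, Int.cast_one] at h1
      rw [hx101, hx100, ha1π] at h1
      simp only [Int.cast_mul, Int.cast_natCast, ZMod.natCast_self, mul_zero, zero_mul,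
        sub_zero] at h1
      rw [Units.val_inv_eq_inv_val]
      exact eq_inv_of_mul_eq_one_right h1
    -- `d2` and the matrix `y = x2⁻¹`
    set d2 : ℤ := x1 1 1 + (m : ℤ) ^ 2 with hd2
    have hNm2 : (N : ℤ) ∣ (m : ℤ) ^ 2 := by
      rw [hm]; push_cast
      exact ⟨N * (s : ℤ) ^ 2, by ring⟩
    have hd2N : (N : ℤ) ∣ d2 - 1 := by
      have : d2 - 1 = (x1 1 1 - 1) + (m : ℤ) ^ 2 := by rw [hd2]; ring
      rw [this]; exact dvd_add hd1N hNm2
    have hd2π : ((d2 : ℤ) : ZMod π) = ((α₂⁻¹ : (ZMod π)ˣ) : ZMod π) := by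
      rw [hd2, Int.cast_add, hd1π, hecast]; ring
    have hd2c : IsCoprime d2 (-((N : ℤ) * π)) := by
      rw [IsCoprime.neg_right_iff]
      apply IsCoprime.mul_right
      · obtain ⟨k, hk⟩ := hd2N
        exact ⟨1, -k, by linear_combination hk⟩
      · have h3 : IsUnit ((d2 : ℤ) : ZMod π) := by rw [hd2π]; exact (α₂⁻¹).isUnit
        rw [ZMod.coe_int_isUnit_iff_isCoprime] at h3
        exact h3.symm
    obtain ⟨y, hy, hy00, hy01⟩ := h9fe_exists_row N hd2c hd2N (Dvd.dvd.neg_right (Dvd.intro _ rfl))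
    have hdety := h9fe_det y
    have hy11π : ((y 1 1 : ℤ) : ZMod π) = (α₂ : ZMod π) := by
      have h1 := congrArg (fun z : ℤ => (z : ZMod π)) hdety
      simp only [Int.cast_sub, Int.cast_mul, Int.cast_one] at h1
      rw [hy01, hy00, hd2π] at h1
      simp only [Int.cast_neg, Int.cast_mul, Int.cast_natCast, ZMod.natCast_self, mul_zero,
        neg_zero, zero_mul, sub_zero] at h1
      rw [Units.val_inv_eq_inv_val] at h1
      have h2 : (α₂ : ZMod π) ≠ 0 := α₂.ne_zero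
      have h3 : (y 1 1 : ZMod π) = (α₂ : ZMod π) * ((α₂ : ZMod π)⁻¹ * (y 1 1 : ZMod π)) := by
        rw [← mul_assoc, mul_inv_cancel₀ h2, one_mul]
      rw [h3, h1, mul_one]
    have hyinv : y⁻¹ ∈ Gamma N := Subgroup.inv_mem _ hy
    have hG2 : G α₂ = (F y)⁻¹ := by
      rw [← h9fe_F_inv hmul hunip hy]
      exact hK y⁻¹ hyinv (by rw [h9fe_inv_01, hy01]; ring) α₂ (by rw [h9fe_inv_00]; exact hy11π)
    -- `z = y * x1`
    set z : h11_Z := y * x1 with hz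
    have hzmem : z ∈ Gamma N := Subgroup.mul_mem _ hy hx1
    have hFz : F z = F y * F x1 := hmul y x1 hy hx1
    have hz00 : z 0 0 = 1 + a1 * (m : ℤ) ^ 2 := by
      rw [hz, h9fe_mul_00, hy00, hy01, hd2, hx100]
      rw [hx100, hx101] at hdet1
      linear_combination hdet1
    have hz01 : z 0 1 = (m : ℤ) ^ 2 * ((N : ℤ) * π) := by
      rw [hz, h9fe_mul_01, hy00, hy01, hd2, hx101]
      ring
    have hdetz := h9fe_det z
    have hz10N : (N : ℤ) ∣ z 1 0 := ((h9fe_mem_Gamma N _).1 hzmem).2.2.1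
    have hz11N : (N : ℤ) ∣ z 1 1 - 1 := ((h9fe_mem_Gamma N _).1 hzmem).2.2.2
    -- the dropped matrix `x`
    set x : h11_Z := h11_mkZ (z 0 0) ((N : ℤ) * π) ((m : ℤ) ^ 2 * z 1 0) (z 1 1)
      (by rw [hz01] at hdetz; linear_combination hdetz) with hx
    have hm2 : (m : ℤ) ^ 2 = ((N * m : ℕ) : ℤ) * s := by
      rw [hm]; push_cast; ring
    have hdropx : F x = F z := by
      refine hdrop m hmpos hmq x z ?_ ?_ ?_ hz10N rfl ?_ rfl rfl
      · show ((N * m : ℕ) : ℤ) ∣ z 0 0 - 1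
        rw [hz00, hm2]
        exact ⟨a1 * s, by ring⟩
      · show ((N * m : ℕ) : ℤ) ∣ z 1 1 - 1
        have h1 : z 1 1 - 1 = (m : ℤ) ^ 2 * ((N : ℤ) * π * z 1 0 - a1 * z 1 1) := by
          rw [hz00, hz01] at hdetz
          linear_combination hdetz
        rw [h1, hm2]
        exact ⟨s * ((N : ℤ) * π * z 1 0 - a1 * z 1 1), by ring⟩
      · show (N : ℤ) ∣ (N : ℤ) * π
        exact Dvd.intro _ rfl
      · show z 0 1 = (m : ℤ) ^ 2 * ((N : ℤ) * π)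
        exact hz01
    have hxmem : x ∈ Gamma N := by
      rw [h9fe_mem_Gamma]
      refine ⟨?_, ?_, ?_, ?_⟩
      · show (N : ℤ) ∣ z 0 0 - 1
        exact ((h9fe_mem_Gamma N _).1 hzmem).1
      · show (N : ℤ) ∣ (N : ℤ) * π
        exact Dvd.intro _ rfl
      · show (N : ℤ) ∣ (m : ℤ) ^ 2 * z 1 0
        exact Dvd.dvd.mul_left hz10N _
      · exact hz11N
    have hx00π : ((x 0 0 : ℤ) : ZMod π) = ((α₁ / α₂ : (ZMod π)ˣ) : ZMod π) := by
      show ((z 0 0 : ℤ) : ZMod π) = _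
      have h4 : (((m : ℕ) : ZMod π)) ^ 2 =
          ((α₂⁻¹ : (ZMod π)ˣ) : ZMod π) - ((α₁⁻¹ : (ZMod π)ˣ) : ZMod π) := by
        rw [← hecast, Int.cast_pow, Int.cast_natCast]
      rw [hz00, Int.cast_add, Int.cast_one, Int.cast_mul, Int.cast_pow, Int.cast_natCast, h4,
        ha1π, div_eq_mul_inv, Units.val_mul, mul_sub, ← Units.val_mul α₁ α₁⁻¹, mul_inv_cancel,
        Units.val_one]
      ring
    have hG3 : G (α₁ / α₂) = F x := hK x hxmem rfl (α₁ / α₂) hx00π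
    rw [hG3, hdropx, hFz, hG1', hG2, div_eq_mul_inv, inv_inv, mul_comm]
  -- conclusion
  have hG : ∀ α, G α = 1 := CSP.h9lr_quad_units hπ4 hp hp2 hpπ hA G hG1 hFE
  intro x hx hx1
  have hdet := h9fe_det x
  have hunit : ((x 0 0 : ℤ) : ZMod π) * ((x 1 1 : ℤ) : ZMod π) = 1 := by
    have h1 := congrArg (fun z : ℤ => (z : ZMod π)) hdet
    simp only [Int.cast_sub, Int.cast_mul, Int.cast_one] at h1
    rw [hx1] at h1
    simpa using h1
  rw [← hK x hx hx1 (Units.mkOfMulEqOne _ _ hunit) rfl]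
  exact hG _

end FE

end Fermat.Agent.LR
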