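import Mathlib

/-!
# P-LR / LR-CSP leaf L-GML (good modulus lemma, Step 2 (iv) of helper11's proof #724)

`h9lr_gml`: let `n ≥ 1`, `q` a prime not dividing `n`, `a1 ≥ 1` prime to `n` and `b0` an integer
prime to `a1`. Then there are `b' ≥ 1`, `k ≥ 1`, `κ` with

* `n ∣ b'`, `b' ≡ b0 mod a1`,
* `q ^ k = 1 + b' * κ`  (so `b' ∣ v - 1` for the unit `v = q ^ k`),
* `n ∣ κ + 1`           (so `(v - 1) / b' ≡ -1 mod n`).

Pure elementary number theory + Dirichlet's theorem on primes in arithmetic progressions.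
-/

set_option autoImplicit false

namespace Fermat.Agent.LR.CSP

open Finset

/-- The `n`-primary decomposition `T = g * h`, `g ∣ n ^ E`, `h` prime to `n`. -/
lemma h9lr_primary (n : ℕ) : ∀ T : ℕ, 0 < T →
    ∃ g h E : ℕ, T = g * h ∧ g ∣ n ^ E ∧ Nat.Coprime h n := by
  intro T
  induction T using Nat.strong_induction_on with
  | _ T ih =>
    intro hT
    by_cases hc : Nat.Coprime T n
    · exact ⟨1, T, 0, by simp, by simp, hc⟩
    · set d := Nat.gcd T n with hd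
      have hd1 : d ≠ 1 := hc
      have hdT : d ∣ T := Nat.gcd_dvd_left T n
      have hdn : d ∣ n := Nat.gcd_dvd_right T n
      have hdpos : 0 < d := Nat.gcd_pos_of_pos_left n hT
      obtain ⟨T', hT'⟩ := hdT
      have hT'pos : 0 < T' := by
        rcases Nat.eq_zero_or_pos T' with h | h
        · rw [h, mul_zero] at hT'; omega
        · exact h
      have hlt : T' < T := by
        rw [hT']
        have : 2 ≤ d := by omega
        nlinarith
      obtain ⟨g, h, E, hgh, hg, hh⟩ := ih T' hlt hT'pos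
      refine ⟨d * g, h, E + 1, ?_, ?_, hh⟩
      · rw [hT', hgh, mul_assoc]
      · rw [pow_succ, mul_comm (n ^ E) n]
        exact mul_dvd_mul hdn hg

/-- `∑_{i < m} (T + 1) ^ i ≡ m mod n` if `n ∣ T`. -/
lemma h9lr_geom_modEq {n T : ℕ} (hT : n ∣ T) (m : ℕ) :
    (∑ i ∈ range m, (T + 1) ^ i) ≡ m [MOD n] := by
  have h1 : T + 1 ≡ 1 [MOD n] := by
    have : T ≡ 0 [MOD n] := (Nat.modEq_zero_iff_dvd).2 hT
    simpa using this.add_right 1
  induction m with
  | zero => simp [Nat.ModEq.refl]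
  | succ m ih =>
    rw [sum_range_succ]
    have h2 : (T + 1) ^ m ≡ 1 [MOD n] := by simpa using h1.pow m
    exact ih.add h2

/-- Dirichlet + CRT: a large prime `P ≡ -1 mod n` (`mod 4 n` if `n` is even) with
`g P ≡ b0 mod a1`. -/
lemma h9lr_prime_exists {n a1 g : ℕ} (hn : 0 < n) (ha1 : 0 < a1) (ha1n : Nat.Coprime a1 n)
    (hg : Nat.Coprime g a1) {b0 : ℤ} (hb0 : IsCoprime b0 (a1 : ℤ)) (B : ℕ) :
    ∃ P : ℕ, B < P ∧ P.Prime ∧ n ∣ P + 1 ∧ (2 ∣ n → 4 ∣ P + 1) ∧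
      ((g * P : ℕ) : ℤ) ≡ b0 [ZMOD a1] := by
  classical
  set n' : ℕ := if 2 ∣ n then 4 * n else n with hn'
  have hn'pos : 0 < n' := by
    rw [hn']; split_ifs <;> omega
  have hnn' : n ∣ n' := by
    rw [hn']; split_ifs
    · exact Dvd.intro_left 4 rfl
    · exact dvd_rfl
  have h4n' : 2 ∣ n → 4 ∣ n' := by
    intro h2
    rw [hn', if_pos h2]
    exact Dvd.intro _ rfl
  have hcop : Nat.Coprime n' a1 := by
    rw [hn']
    split_ifs with h2
    · have h2a : Nat.Coprime 2 a1 := Nat.Coprime.coprime_dvd_left h2 ha1n.symm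
      have h4a : Nat.Coprime 4 a1 := by
        have : (4 : ℕ) = 2 ^ 2 := by norm_num
        rw [this]; exact Nat.Coprime.pow_left 2 h2a
      exact Nat.Coprime.mul_left h4a ha1n.symm
    · exact ha1n.symm
  have : NeZero (n' * a1) := ⟨by positivity⟩
  have : NeZero a1 := ⟨by omega⟩
  have : NeZero n' := ⟨by omega⟩
  -- the residue class
  have hgu : (g : ZMod a1) * (g : ZMod a1)⁻¹ = 1 := ZMod.coe_mul_inv_eq_one g hg
  have hb0u : IsUnit ((b0 : ℤ) : ZMod a1) := by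
    rw [ZMod.coe_int_isUnit_iff_isCoprime, isCoprime_comm]; exact hb0
  have hginvu : IsUnit ((g : ZMod a1)⁻¹) :=
    IsUnit.of_mul_eq_one (g : ZMod a1) (by rw [mul_comm]; exact hgu)
  set e := ZMod.chineseRemainder hcop with he
  set a : ZMod (n' * a1) := e.symm (-1, ((b0 : ℤ) : ZMod a1) * (g : ZMod a1)⁻¹) with ha
  have hau : IsUnit a := by
    rw [ha]
    apply IsUnit.map (e.symm : ZMod n' × ZMod a1 →* ZMod (n' * a1))
    rw [Prod.isUnit_iff]
    exact ⟨isUnit_one.neg, hb0u.mul hginvu⟩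
  obtain ⟨P, hPB, hPp, hPa⟩ := Nat.forall_exists_prime_gt_and_eq_mod hau B
  have hPe : e (P : ZMod (n' * a1)) = (-1, ((b0 : ℤ) : ZMod a1) * (g : ZMod a1)⁻¹) := by
    rw [hPa, ha, RingEquiv.apply_symm_apply]
  have hP1 : ((P : ℕ) : ZMod n') = -1 := by
    have := congrArg Prod.fst hPe
    simpa using this
  have hP2 : ((P : ℕ) : ZMod a1) = ((b0 : ℤ) : ZMod a1) * (g : ZMod a1)⁻¹ := by
    have := congrArg Prod.snd hPe
    simpa using this
  have hn'P : n' ∣ P + 1 := by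
    rw [← ZMod.natCast_eq_zero_iff]
    push_cast
    rw [hP1]; ring
  refine ⟨P, hPB, hPp, hnn'.trans hn'P, fun h2 => (h4n' h2).trans hn'P, ?_⟩
  rw [← ZMod.intCast_eq_intCast_iff]
  push_cast
  rw [hP2, mul_comm ((b0 : ℤ) : ZMod a1), ← mul_assoc, hgu, one_mul]

/-- an exponent `i ≥ 1` with `i κ ≡ -1 mod n`. -/
lemma h9lr_exists_neg_inv {n κ : ℕ} (hn : 0 < n) (h : Nat.Coprime κ n) :
    ∃ i : ℕ, 0 < i ∧ n ∣ i * κ + 1 := by
  have : NeZero n := ⟨by omega⟩
  set u := ZMod.unitOfCoprime κ h with hu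
  refine ⟨(-(↑(u⁻¹) : ZMod n)).val + n, by omega, ?_⟩
  rw [← ZMod.natCast_eq_zero_iff]
  push_cast
  rw [ZMod.natCast_zmod_val, ZMod.natCast_self, add_zero]
  have h1 : ((κ : ℕ) : ZMod n) = (u : ZMod n) := (ZMod.coe_unitOfCoprime κ h).symm
  rw [h1, neg_mul, ← Units.val_mul, inv_mul_cancel, Units.val_one]
  ring

theorem h9lr_gml {n q a1 : ℕ} (hn : 0 < n) (hq : q.Prime) (hnq : Nat.Coprime n q)
    (ha1 : 0 < a1) (ha1n : Nat.Coprime a1 n) {b0 : ℤ} (hb0 : IsCoprime b0 (a1 : ℤ)) :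
    ∃ b' k κ : ℕ, 0 < k ∧ 0 < b' ∧ n ∣ b' ∧ (b' : ℤ) ≡ b0 [ZMOD a1] ∧
      q ^ k = 1 + b' * κ ∧ n ∣ κ + 1 := by
  -- `k0`, `T0`
  set k0 := 2 * Nat.totient n with hk0
  have hφ : 0 < Nat.totient n := Nat.totient_pos.2 hn
  have hX : q ^ k0 ≡ 1 [MOD n] := by
    have h1 := Nat.ModEq.pow_totient hnq.symm
    rw [hk0, mul_comm, pow_mul]
    simpa using h1.pow 2
  have hXge : 2 ≤ q ^ k0 := by
    calc 2 ≤ q := hq.two_le
      _ = q ^ 1 := (pow_one q).symm
      _ ≤ q ^ k0 := Nat.pow_le_pow_right hq.pos (by omega)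
  obtain ⟨T0, hT0⟩ : ∃ T0, q ^ k0 = T0 + 1 := ⟨q ^ k0 - 1, by omega⟩
  have hT0pos : 0 < T0 := by omega
  have hnT0 : n ∣ T0 := by
    have h1 := (Nat.modEq_iff_dvd' (by omega : 1 ≤ q ^ k0)).1 hX.symm
    rw [hT0] at h1
    simpa using h1
  obtain ⟨g, h, E, hgh, hgE, hhn⟩ := h9lr_primary n T0 hT0pos
  have hng : n ∣ g := by
    rw [hgh] at hnT0
    exact (Nat.Coprime.dvd_mul_right hhn.symm).1 hnT0
  have hga1 : Nat.Coprime g a1 :=
    Nat.Coprime.coprime_dvd_left hgE (Nat.Coprime.pow_left E ha1n.symm)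
  have hgpos : 0 < g := by
    rcases Nat.eq_zero_or_pos g with h0 | h0
    · rw [h0, zero_mul] at hgh; omega
    · exact h0
  obtain ⟨P, hPB, hPp, hnP, h4P, hPb0⟩ :=
    h9lr_prime_exists hn ha1 ha1n hga1 hb0 (max (max q n) 2)
  have hPq : q < P := lt_of_le_of_lt (le_trans (le_max_left q n) (le_max_left _ 2)) hPB
  have hPn : n < P := lt_of_le_of_lt (le_trans (le_max_right q n) (le_max_left _ 2)) hPB
  have hP2 : 2 < P := lt_of_le_of_lt (le_max_right _ 2) hPB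
  have hPodd : P % 2 = 1 := hPp.eq_two_or_odd.resolve_left (by omega)
  obtain ⟨m, hPm⟩ : ∃ m, P = 2 * m + 1 := ⟨P / 2, by omega⟩
  have hmpos : 0 < m := by omega
  have hmn : Nat.Coprime m n := by
    by_contra hc
    obtain ⟨l, hl, hlm, hln⟩ := Nat.Prime.not_coprime_iff_dvd.1 hc
    have hlP1 : l ∣ P + 1 := hln.trans hnP
    have hlP : l ∣ 2 * m := Dvd.dvd.mul_left hlm 2
    have hl2 : l ∣ 2 := by
      have h1 : l ∣ (P + 1) - 2 * m := Nat.dvd_sub hlP1 hlP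
      rwa [show P + 1 - 2 * m = 2 by omega] at h1
    have hl2' : l = 2 := (Nat.prime_dvd_prime_iff_eq hl Nat.prime_two).1 hl2
    subst hl2'
    have h4 := h4P hln
    omega
  -- the geometric sum
  set S := ∑ i ∈ range m, (T0 + 1) ^ i with hS
  have hSeq : S * T0 + 1 = (T0 + 1) ^ m := geom_sum_mul_add T0 m
  have hSm : S ≡ m [MOD n] := h9lr_geom_modEq hnT0 m
  have hSn : Nat.Coprime S n := by
    unfold Nat.Coprime
    rw [hSm.gcd_eq]; exact hmn
  -- `P ∣ S * T0`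
  have hqP : Nat.Coprime q P := (Nat.coprime_primes hq hPp).2 (ne_of_lt hPq)
  have hFermat : q ^ (2 * m) ≡ 1 [MOD P] := by
    have h1 := Nat.ModEq.pow_totient hqP
    rwa [Nat.totient_prime hPp, show P - 1 = 2 * m by omega] at h1
  have hk1 : q ^ (k0 * m) = S * T0 + 1 := by
    rw [pow_mul, hT0, hSeq]
  have hPT : P ∣ S * T0 := by
    have h1 : q ^ (k0 * m) ≡ 1 [MOD P] := by
      have : k0 * m = (2 * m) * Nat.totient n := by rw [hk0]; ring
      rw [this, pow_mul]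
      simpa using hFermat.pow (Nat.totient n)
    have h2 := (Nat.modEq_iff_dvd' (Nat.one_le_pow _ _ hq.pos)).1 h1.symm
    rw [hk1] at h2
    simpa using h2
  have hPg : Nat.Coprime P g := by
    rw [Nat.Prime.coprime_iff_not_dvd hPp]
    intro hdvd
    have h1 : P ∣ n := hPp.dvd_of_dvd_pow (hdvd.trans hgE)
    have := Nat.le_of_dvd hn h1
    omega
  have hPSh : P ∣ S * h := by
    have h1 : P ∣ g * (S * h) := by
      have : S * T0 = g * (S * h) := by rw [hgh]; ring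
      rwa [this] at hPT
    exact (Nat.Coprime.dvd_mul_left hPg).1 h1
  obtain ⟨κ0, hκ0⟩ := hPSh
  have hκ0n : Nat.Coprime κ0 n := by
    have h1 : Nat.Coprime (S * h) n := Nat.Coprime.mul_left hSn hhn
    exact Nat.Coprime.coprime_dvd_left (Dvd.intro_left P hκ0.symm) h1
  have hT : S * T0 = (g * P) * κ0 := by
    rw [hgh]
    calc S * (g * h) = g * (S * h) := by ring
      _ = g * (P * κ0) := by rw [hκ0]
      _ = g * P * κ0 := by ring
  obtain ⟨i, hipos, hi⟩ := h9lr_exists_neg_inv hn hκ0n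
  -- the final unit
  set T := S * T0 with hTdef
  have hnT : n ∣ T := Dvd.dvd.mul_left hnT0 S
  set Si := ∑ j ∈ range i, (T + 1) ^ j with hSi
  have hSieq : Si * T + 1 = (T + 1) ^ i := geom_sum_mul_add T i
  have hSii : Si ≡ i [MOD n] := h9lr_geom_modEq hnT i
  refine ⟨g * P, k0 * m * i, κ0 * Si, ?_, ?_, ?_, hPb0, ?_, ?_⟩
  · have : 0 < k0 := by omega
    positivity
  · exact Nat.mul_pos hgpos hPp.pos
  · exact Dvd.dvd.mul_right hng P
  · rw [pow_mul, hk1, ← hSieq, hT]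
    ring
  · have h1 : κ0 * Si + 1 ≡ i * κ0 + 1 [MOD n] := by
      have := (hSii.mul_left κ0).add_right 1
      rwa [mul_comm κ0 i] at this
    exact (Nat.modEq_zero_iff_dvd).1 (h1.trans ((Nat.modEq_zero_iff_dvd).2 hi))

end Fermat.Agent.LR.CSP
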